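import Mathlib
import Fermat.Prelude.Def_ModularCurve_LaurentCoeff

/-!
# P-GATEWAY (c): shared definitions — the Gauss ring of a valuation subring inside `L((q))`

For a field `L`, a valuation subring `A` of `L`, a field `k` and a ring hom `π : A →+* k`
(in the applications: the residue map of `A`):

* `embA A : A((q)) →+* L((q))`, `redA π : A((q)) →+* k((q))` (coefficientwise);
* `intLS A : Subring L((q))`, the `A`-integral Laurent series;
* `gaussRing A π : Subring L((q))`, the quotients `a / b` of `A`-integral Laurent series with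
  `b` nonzero mod `π` (the "Gauss valuation ring");
* `gaussRed A π : gaussRing A π →+* k((q))`, `a / b ↦ ā / b̄`;
* for an intermediate field `F` of `L((q)) / L`: `Ov A π F : Subring F` and
  `redV A π F : Ov A π F →+* k((q))`, the restrictions to `F`; `Oq A F : Subring F`, the elements
  of `F` with `A`-integral `q`-expansion.

Nothing here uses discreteness of the valuation.  (Generalises `Fermat.Agent.S28.gaussSubring`.)
-/

set_option autoImplicit false

noncomputable section

namespace Fermat.Agent.Gateway.Red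

open ModularCurve

variable {L : Type*} [Field L] (A : ValuationSubring L) {k : Type*} [Field k] (π : A →+* k)

/-- embedding `A((q)) → L((q))`. -/
def embA : LaurentSeries A →+* LaurentSeries L := coeffMap A.subtype

/-- reduction `A((q)) → k((q))`. -/
def redA : LaurentSeries A →+* LaurentSeries k := coeffMap π

@[simp] theorem embA_coeff (f : LaurentSeries A) (n : ℤ) :
    (embA A f).coeff n = ((f.coeff n : A) : L) := rfl

@[simp] theorem redA_coeff (f : LaurentSeries A) (n : ℤ) :
    (redA A π f).coeff n = π (f.coeff n) := rfl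

theorem embA_injective : Function.Injective (embA A) := by
  intro f g h
  refine HahnSeries.ext (funext fun n => ?_)
  have := congrArg (fun s => HahnSeries.coeff s n) h
  simp only [embA_coeff] at this
  exact Subtype.ext this

theorem embA_eq_zero_iff (f : LaurentSeries A) : embA A f = 0 ↔ f = 0 :=
  map_eq_zero_iff _ (embA_injective A)

theorem embA_single (n : ℤ) (a : A) :
    embA A (HahnSeries.single n a) = HahnSeries.single n (a : L) := by
  rw [embA, coeffMap_single]; rfl

theorem redA_single (n : ℤ) (a : A) :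
    redA A π (HahnSeries.single n a) = HahnSeries.single n (π a) := by
  rw [redA, coeffMap_single]

theorem embA_C (a : A) : embA A (HahnSeries.C a) = HahnSeries.C (a : L) := embA_single A 0 a

theorem redA_C (a : A) : redA A π (HahnSeries.C a) = HahnSeries.C (π a) := redA_single A π 0 a

/-- the `A`-integral Laurent series inside `L((q))`. -/
def intLS : Subring (LaurentSeries L) := (embA A).range

theorem mem_intLS_iff {y : LaurentSeries L} : y ∈ intLS A ↔ ∃ a, embA A a = y := Iff.rfl

theorem embA_mem_intLS (a : LaurentSeries A) : embA A a ∈ intLS A := ⟨a, rfl⟩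

theorem mem_intLS_iff_coeff {y : LaurentSeries L} : y ∈ intLS A ↔ ∀ n, y.coeff n ∈ A := by
  constructor
  · rintro ⟨a, rfl⟩ n
    exact (a.coeff n).2
  · intro h
    refine ⟨⟨fun n => ⟨y.coeff n, h n⟩, y.isPWO_support.mono ?_⟩, ?_⟩
    · intro n hn
      simp only [Function.mem_support, ne_eq] at hn
      simp only [HahnSeries.mem_support, ne_eq]
      intro h0
      exact hn (Subtype.ext h0)
    · ext n
      rfl

/-- The Gauss ring inside `L((q))`: quotients `a / b` of `A`-integral Laurent series
with `b` nonzero mod `π`. -/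
def gaussRing : Subring (LaurentSeries L) where
  carrier := {y | ∃ a b : LaurentSeries A, redA A π b ≠ 0 ∧ y * embA A b = embA A a}
  zero_mem' := ⟨0, 1, by rw [map_one]; exact one_ne_zero, by simp⟩
  one_mem' := ⟨1, 1, by rw [map_one]; exact one_ne_zero, by simp⟩
  add_mem' := by
    rintro y₁ y₂ ⟨a₁, b₁, hb₁, h₁⟩ ⟨a₂, b₂, hb₂, h₂⟩
    refine ⟨a₁ * b₂ + a₂ * b₁, b₁ * b₂, ?_, ?_⟩
    · rw [map_mul]; exact mul_ne_zero hb₁ hb₂
    · rw [map_add, map_mul, map_mul, map_mul, ← h₁, ← h₂]; ring
  mul_mem' := by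
    rintro y₁ y₂ ⟨a₁, b₁, hb₁, h₁⟩ ⟨a₂, b₂, hb₂, h₂⟩
    refine ⟨a₁ * a₂, b₁ * b₂, ?_, ?_⟩
    · rw [map_mul]; exact mul_ne_zero hb₁ hb₂
    · rw [map_mul, map_mul, ← h₁, ← h₂]; ring
  neg_mem' := by
    rintro y ⟨a, b, hb, h⟩
    exact ⟨-a, b, hb, by rw [map_neg, ← h]; ring⟩

theorem mem_gaussRing_iff {y : LaurentSeries L} :
    y ∈ gaussRing A π ↔
      ∃ a b : LaurentSeries A, redA A π b ≠ 0 ∧ y * embA A b = embA A a := Iff.rfl

theorem embA_mem_gaussRing (a : LaurentSeries A) : embA A a ∈ gaussRing A π :=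
  ⟨a, 1, by rw [map_one]; exact one_ne_zero, by simp⟩

theorem intLS_le_gaussRing : intLS A ≤ gaussRing A π := by
  rintro _ ⟨a, rfl⟩
  exact embA_mem_gaussRing A π a

/-- reduction map of the Gauss ring (as a function). -/
def gaussRedFun (y : gaussRing A π) : LaurentSeries k :=
  redA A π y.2.choose / redA A π y.2.choose_spec.choose

theorem gaussRedFun_spec (y : gaussRing A π) {a b : LaurentSeries A} (_hb : redA A π b ≠ 0)
    (h : (y : LaurentSeries L) * embA A b = embA A a) :
    gaussRedFun A π y * redA A π b = redA A π a := by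
  obtain ⟨hb₀, h₀⟩ := y.2.choose_spec.choose_spec
  set a₀ := y.2.choose
  set b₀ := y.2.choose_spec.choose
  have hcross : a₀ * b = a * b₀ := by
    apply embA_injective A
    rw [map_mul, map_mul, ← h₀, ← h]; ring
  have hcross' := congrArg (redA A π) hcross
  rw [map_mul, map_mul] at hcross'
  show redA A π a₀ / redA A π b₀ * redA A π b = redA A π a
  rw [div_mul_eq_mul_div, hcross', mul_div_assoc, div_self hb₀, mul_one]

theorem gaussRedFun_eq_div (y : gaussRing A π) {a b : LaurentSeries A} (hb : redA A π b ≠ 0)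
    (h : (y : LaurentSeries L) * embA A b = embA A a) :
    gaussRedFun A π y = redA A π a / redA A π b := by
  rw [eq_div_iff hb, gaussRedFun_spec A π y hb h]

/-- reduction map of the Gauss ring, as a ring homomorphism. -/
def gaussRed : gaussRing A π →+* LaurentSeries k where
  toFun := gaussRedFun A π
  map_one' := by
    have := gaussRedFun_spec A π (1 : gaussRing A π) (a := 1) (b := 1)
      (by rw [map_one]; exact one_ne_zero) (by simp)
    simpa using this
  map_zero' := by
    have := gaussRedFun_spec A π (0 : gaussRing A π) (a := 0) (b := 1)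
      (by rw [map_one]; exact one_ne_zero) (by simp)
    simpa using this
  map_mul' := by
    intro y₁ y₂
    obtain ⟨a₁, b₁, hb₁, h₁⟩ := y₁.2
    obtain ⟨a₂, b₂, hb₂, h₂⟩ := y₂.2
    have e₁ := gaussRedFun_eq_div A π y₁ hb₁ h₁
    have e₂ := gaussRedFun_eq_div A π y₂ hb₂ h₂
    have hb : redA A π (b₁ * b₂) ≠ 0 := by rw [map_mul]; exact mul_ne_zero hb₁ hb₂
    have e := gaussRedFun_eq_div A π (y₁ * y₂) (a := a₁ * a₂) (b := b₁ * b₂) hb
      (by rw [map_mul, map_mul, Subring.coe_mul]
          linear_combination ((y₂ : LaurentSeries L) * embA A b₂) * h₁ + embA A a₁ * h₂)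
    rw [e, e₁, e₂, map_mul, map_mul, div_mul_div_comm]
  map_add' := by
    intro y₁ y₂
    obtain ⟨a₁, b₁, hb₁, h₁⟩ := y₁.2
    obtain ⟨a₂, b₂, hb₂, h₂⟩ := y₂.2
    have e₁ := gaussRedFun_eq_div A π y₁ hb₁ h₁
    have e₂ := gaussRedFun_eq_div A π y₂ hb₂ h₂
    have hb : redA A π (b₁ * b₂) ≠ 0 := by rw [map_mul]; exact mul_ne_zero hb₁ hb₂
    have e := gaussRedFun_eq_div A π (y₁ + y₂) (a := a₁ * b₂ + a₂ * b₁) (b := b₁ * b₂) hb
      (by rw [map_add, map_mul, map_mul, map_mul, Subring.coe_add]
          linear_combination (embA A b₂) * h₁ + (embA A b₁) * h₂)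
    rw [e, e₁, e₂, map_add, map_mul, map_mul, map_mul, div_add_div _ _ hb₁ hb₂,
      mul_comm (redA A π b₁) (redA A π a₂)]

/-- the defining property of `gaussRed`: `y * b = a`, `b̄ ≠ 0` gives `ȳ * b̄ = ā`. -/
theorem gaussRed_spec (y : gaussRing A π) {a b : LaurentSeries A} (hb : redA A π b ≠ 0)
    (h : (y : LaurentSeries L) * embA A b = embA A a) :
    gaussRed A π y * redA A π b = redA A π a := gaussRedFun_spec A π y hb h

theorem gaussRed_eq_div (y : gaussRing A π) {a b : LaurentSeries A} (hb : redA A π b ≠ 0)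
    (h : (y : LaurentSeries L) * embA A b = embA A a) :
    gaussRed A π y = redA A π a / redA A π b := gaussRedFun_eq_div A π y hb h

theorem gaussRed_embA (a : LaurentSeries A) :
    gaussRed A π ⟨embA A a, embA_mem_gaussRing A π a⟩ = redA A π a := by
  have := gaussRed_spec A π ⟨embA A a, embA_mem_gaussRing A π a⟩ (a := a) (b := 1)
    (by rw [map_one]; exact one_ne_zero) (by simp)
  simpa using this

theorem gaussRed_of_eq_embA (y : gaussRing A π) {a : LaurentSeries A}
    (h : (y : LaurentSeries L) = embA A a) : gaussRed A π y = redA A π a := by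
  have : y = ⟨embA A a, embA_mem_gaussRing A π a⟩ := Subtype.ext h
  rw [this, gaussRed_embA]

/-- an element of the Gauss ring with nonzero reduction is invertible in the Gauss ring. -/
theorem inv_mem_gaussRing {y : LaurentSeries L} (hy : y ∈ gaussRing A π)
    (hred : gaussRed A π ⟨y, hy⟩ ≠ 0) : y⁻¹ ∈ gaussRing A π := by
  obtain ⟨a, b, hb, h⟩ := hy
  have h1 := gaussRed_spec A π ⟨y, ⟨a, b, hb, h⟩⟩ hb h
  have ha : redA A π a ≠ 0 := by
    rw [← h1]; exact mul_ne_zero hred hb
  have ha0 : embA A a ≠ 0 := by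
    intro h0
    rw [embA_eq_zero_iff] at h0
    exact ha (by rw [h0, map_zero])
  have hy0 : y ≠ 0 := by
    rintro rfl
    rw [zero_mul] at h
    exact ha0 h.symm
  refine ⟨b, a, ha, ?_⟩
  rw [← h]
  field_simp

theorem gaussRed_inv {y : LaurentSeries L} (hy : y ∈ gaussRing A π)
    (hy' : y⁻¹ ∈ gaussRing A π) (hy0 : y ≠ 0) :
    gaussRed A π ⟨y⁻¹, hy'⟩ = (gaussRed A π ⟨y, hy⟩)⁻¹ := by
  have h1 : (⟨y⁻¹, hy'⟩ : gaussRing A π) * ⟨y, hy⟩ = 1 :=
    Subtype.ext (inv_mul_cancel₀ hy0)
  have h2 := congrArg (gaussRed A π) h1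
  rw [map_mul, map_one] at h2
  exact eq_inv_of_mul_eq_one_left h2

section Field

variable (F : IntermediateField L (LaurentSeries L))

/-- the Gauss ring of the subfield `F` of `L((q))`. -/
def Ov : Subring F := (gaussRing A π).comap (algebraMap F (LaurentSeries L))

theorem mem_Ov_iff {f : F} : f ∈ Ov A π F ↔ (f : LaurentSeries L) ∈ gaussRing A π := Iff.rfl

/-- the reduction map on the Gauss ring of `F`. -/
def redV : Ov A π F →+* LaurentSeries k :=
  (gaussRed A π).comp
    ((algebraMap F (LaurentSeries L)).restrict (Ov A π F) (gaussRing A π) fun _ hx => hx)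

theorem redV_apply (f : Ov A π F) :
    redV A π F f = gaussRed A π ⟨((f : F) : LaurentSeries L), f.2⟩ := rfl

theorem redV_spec (f : Ov A π F) {a b : LaurentSeries A} (hb : redA A π b ≠ 0)
    (h : ((f : F) : LaurentSeries L) * embA A b = embA A a) :
    redV A π F f * redA A π b = redA A π a :=
  gaussRed_spec A π ⟨((f : F) : LaurentSeries L), f.2⟩ hb h

/-- the elements of `F` with `A`-integral `q`-expansion. -/
def Oq : Subring F := (intLS A).comap (algebraMap F (LaurentSeries L))

theorem mem_Oq_iff {f : F} : f ∈ Oq A F ↔ (f : LaurentSeries L) ∈ intLS A := Iff.rfl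

theorem Oq_le_Ov : Oq A F ≤ Ov A π F := fun _ hf => intLS_le_gaussRing A π hf

theorem redV_of_eq_embA (f : Ov A π F) {a : LaurentSeries A}
    (h : ((f : F) : LaurentSeries L) = embA A a) : redV A π F f = redA A π a :=
  gaussRed_of_eq_embA A π _ h

theorem inv_mem_Ov {f : F} (hf : f ∈ Ov A π F) (hred : redV A π F ⟨f, hf⟩ ≠ 0) :
    f⁻¹ ∈ Ov A π F := by
  rw [mem_Ov_iff]
  have := inv_mem_gaussRing A π (y := (f : LaurentSeries L)) hf hred
  simpa using this

end Field

end Fermat.Agent.Gateway.Red
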