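/-
P-GATEWAY (c), helper37: the FORMAL reduction of the frozen statement S37
(`ModularCurve.SpecializationExists`) to a reduction map with four properties.

Let `J` be a `HeckeAlg`-module with a commuting Galois action.  Suppose that for every prime
`ℓ ∤ N p` and every valuation subring `A` over `ℓ` there are an abelian group `Jt` with an
endomorphism `Fr` and a group homomorphism `red : J →+ Jt` such that
* (R2) `red (σ x) = red x` for `σ` in the inertia group of `A`, and `red (φ x) = Fr (red x)` for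
  every Frobenius lift `φ` at `A`;
* (R3) `red` is injective on `p`-power torsion;
* (R4) the single congruence `red (T_ℓ (φ x)) = Fr (Fr (red x)) + ℓ • red x`.
Then `SpecializationExists N p J` holds.  No compatibility of `red` with the other Hecke operators is
needed: one passes to the quotient of `J` by the largest `HeckeAlg`-submodule inside `ker red`.
If `A` admits no Frobenius lift at all, a companion-matrix endomorphism does the job.
-/
import Fermat.Prelude.Def_HeckeGalois_EichlerShimura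

set_option autoImplicit false

noncomputable section

namespace Fermat.Agent.Gateway.Red

open ModularCurve

section Formal

variable {K L : Type*} [Field K] [Field L] [Algebra K L]
variable (p : ℕ) (J : Type) [AddCommGroup J] [Module HeckeAlg J]
  [DistribMulAction (L ≃ₐ[K] L) J] [SMulCommClass (L ≃ₐ[K] L) HeckeAlg J]

/-- The four properties (R2), (R3), (R4) of a reduction map at `(A, ℓ)`. -/
structure IsGoodRed (A : ValuationSubring L) (ℓ : ℕ) (hℓ : ℓ.Prime) {Jt : Type*}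
    [AddCommGroup Jt] (red : J →+ Jt) (Fr : Jt →+ Jt) : Prop where
  inertia : ∀ σ ∈ A.inertiaSubgroupIn K, ∀ x : J, red (σ • x) = red x
  frob : ∀ σ : L ≃ₐ[K] L, A.IsFrobeniusAt σ ℓ → ∀ x : J, red (σ • x) = Fr (red x)
  inj : ∀ x : J, (∃ n : ℕ, p ^ n • x = 0) → red x = 0 → x = 0
  congr : ∀ σ : L ≃ₐ[K] L, A.IsFrobeniusAt σ ℓ → ∀ x : J,
    red (heckeGen ⟨ℓ, hℓ⟩ • (σ • x)) = Fr (Fr (red x)) + ℓ • red x

variable {p J}

/-- The largest `HeckeAlg`-submodule of `J` contained in the kernel of `red`. -/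
def heckeKer {Jt : Type*} [AddCommGroup Jt] (red : J →+ Jt) : Submodule HeckeAlg J where
  carrier := {x | ∀ T : HeckeAlg, red (T • x) = 0}
  zero_mem' := fun T => by simp
  add_mem' := fun {x y} hx hy T => by
    simp only [smul_add, map_add, hx T, hy T, add_zero]
  smul_mem' := fun T' x hx T => by
    rw [smul_smul]
    exact hx (T * T')

theorem mem_heckeKer {Jt : Type*} [AddCommGroup Jt] (red : J →+ Jt) (x : J) :
    x ∈ heckeKer red ↔ ∀ T : HeckeAlg, red (T • x) = 0 := Iff.rfl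

theorem red_eq_zero_of_mem_heckeKer {Jt : Type*} [AddCommGroup Jt] (red : J →+ Jt) {x : J}
    (hx : x ∈ heckeKer red) : red x = 0 := by
  have := hx 1
  rwa [one_smul] at this

/-- The Galois action as a `HeckeAlg`-linear map. -/
def galLin (σ : L ≃ₐ[K] L) : J →ₗ[HeckeAlg] J where
  toFun x := σ • x
  map_add' := smul_add σ
  map_smul' T x := (smul_comm σ T x)

@[simp] theorem galLin_apply (σ : L ≃ₐ[K] L) (x : J) : galLin (K := K) (L := L) σ x = σ • x := rfl

variable {A : ValuationSubring L} {ℓ : ℕ} {hℓ : ℓ.Prime} {Jt : Type*} [AddCommGroup Jt]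
  {red : J →+ Jt} {Fr : Jt →+ Jt}

theorem IsGoodRed.smul_sub_mem (h : IsGoodRed (K := K) p J A ℓ hℓ red Fr)
    {σ : L ≃ₐ[K] L} (hσ : σ ∈ A.inertiaSubgroupIn K) (x : J) :
    σ • x - x ∈ heckeKer red := by
  intro T
  rw [smul_sub, map_sub, ← smul_comm σ T x, h.inertia σ hσ, sub_self]

theorem IsGoodRed.frob_mem (h : IsGoodRed (K := K) p J A ℓ hℓ red Fr)
    {σ : L ≃ₐ[K] L} (hσ : A.IsFrobeniusAt σ ℓ) {x : J} (hx : x ∈ heckeKer red) :
    σ • x ∈ heckeKer red := by
  intro T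
  rw [← smul_comm σ T x, h.frob σ hσ, hx T, map_zero]

theorem IsGoodRed.frob_sub_frob_mem (h : IsGoodRed (K := K) p J A ℓ hℓ red Fr)
    {σ τ : L ≃ₐ[K] L} (hσ : A.IsFrobeniusAt σ ℓ) (hτ : A.IsFrobeniusAt τ ℓ) (x : J) :
    σ • x - τ • x ∈ heckeKer red := by
  intro T
  rw [smul_sub, map_sub, ← smul_comm σ T x, ← smul_comm τ T x, h.frob σ hσ, h.frob τ hτ, sub_self]

theorem IsGoodRed.quadratic_mem (h : IsGoodRed (K := K) p J A ℓ hℓ red Fr)
    {σ : L ≃ₐ[K] L} (hσ : A.IsFrobeniusAt σ ℓ) (x : J) :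
    σ • σ • x - heckeGen ⟨ℓ, hℓ⟩ • (σ • x) + ℓ • x ∈ heckeKer red := by
  intro T
  have e1 : T • (σ • σ • x) = σ • σ • (T • x) := by
    rw [smul_comm σ T, smul_comm σ T]
  have e2 : T • (heckeGen ⟨ℓ, hℓ⟩ • (σ • x)) = heckeGen ⟨ℓ, hℓ⟩ • (σ • (T • x)) := by
    rw [smul_comm σ T, smul_smul, smul_smul, mul_comm]
  have e3 : T • (ℓ • x) = ℓ • (T • x) := smul_comm T ℓ x
  rw [smul_add, smul_sub, e1, e2, e3, map_add, map_sub, h.frob σ hσ, h.frob σ hσ,
    h.congr σ hσ, map_nsmul]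
  abel

end Formal

section Main

variable {K L : Type*} [Field K] [Field L] [Algebra K L]
variable {p : ℕ} {J : Type} [AddCommGroup J] [Module HeckeAlg J]
  [DistribMulAction (L ≃ₐ[K] L) J] [SMulCommClass (L ≃ₐ[K] L) HeckeAlg J]
variable {A : ValuationSubring L} {ℓ : ℕ} {hℓ : ℓ.Prime} {Jt : Type*} [AddCommGroup Jt]
  {red : J →+ Jt} {Fr : Jt →+ Jt}

/-- Case with a Frobenius lift: the specialization is the quotient by `heckeKer red`. -/
theorem exists_specialization_of_frob (h : IsGoodRed (K := K) p J A ℓ hℓ red Fr)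
    (φ : L ≃ₐ[K] L) (hφ : A.IsFrobeniusAt φ ℓ) :
    ∃ (J' : Type) (_ : AddCommGroup J') (_ : Module HeckeAlg J') (sp : J →+ J')
      (F : J' →+ J'),
      IsSpecialization (K := K) p J J' A ℓ sp F ∧ SpecialFibreRelation J' ℓ hℓ F := by
  classical
  let Kr : Submodule HeckeAlg J := heckeKer red
  have hmap : Kr ≤ Kr.comap (galLin (K := K) (L := L) φ) := fun x hx => h.frob_mem hφ hx
  let Fl : (J ⧸ Kr) →ₗ[HeckeAlg] (J ⧸ Kr) := Kr.mapQ Kr (galLin (K := K) (L := L) φ) hmap
  refine ⟨J ⧸ Kr, inferInstance, inferInstance, Kr.mkQ.toAddMonoidHom, Fl.toAddMonoidHom, ?_, ?_⟩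
  · refine ⟨fun T x => ?_, fun σ hσ x => ?_, fun σ hσ x => ?_, fun x hx hsp => ?_⟩
    · exact map_smul Kr.mkQ T x
    · show Kr.mkQ (σ • x) = Kr.mkQ x
      rw [← sub_eq_zero, ← map_sub, Submodule.mkQ_apply, Submodule.Quotient.mk_eq_zero]
      exact h.smul_sub_mem hσ x
    · show Kr.mkQ (σ • x) = Fl (Kr.mkQ x)
      have : Fl (Kr.mkQ x) = Kr.mkQ (φ • x) :=
        Submodule.mapQ_apply Kr Kr (galLin (K := K) (L := L) φ) (h := hmap) x
      rw [this, ← sub_eq_zero, ← map_sub, Submodule.mkQ_apply, Submodule.Quotient.mk_eq_zero]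
      exact h.frob_sub_frob_mem hσ hφ x
    · have hx' : x ∈ Kr := by
        have : Kr.mkQ x = 0 := hsp
        rwa [Submodule.mkQ_apply, Submodule.Quotient.mk_eq_zero] at this
      exact h.inj x hx (red_eq_zero_of_mem_heckeKer red hx')
  · intro y
    obtain ⟨x, rfl⟩ := Kr.mkQ_surjective y
    have hF : ∀ z : J, Fl (Kr.mkQ z) = Kr.mkQ (φ • z) :=
      fun z => Submodule.mapQ_apply Kr Kr (galLin (K := K) (L := L) φ) (h := hmap) z
    show Fl (Fl (Kr.mkQ x)) - heckeGen ⟨ℓ, hℓ⟩ • Fl (Kr.mkQ x) + ℓ • Kr.mkQ x = 0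
    rw [hF, hF, ← map_smul, ← map_nsmul, ← map_sub, ← map_add, Submodule.mkQ_apply,
      Submodule.Quotient.mk_eq_zero]
    exact h.quadratic_mem hφ x

/-- Case without any Frobenius lift: companion-matrix endomorphism on two copies. -/
theorem exists_specialization_of_not_frob (h : IsGoodRed (K := K) p J A ℓ hℓ red Fr)
    (hno : ∀ φ : L ≃ₐ[K] L, ¬ A.IsFrobeniusAt φ ℓ) :
    ∃ (J' : Type) (_ : AddCommGroup J') (_ : Module HeckeAlg J') (sp : J →+ J')
      (F : J' →+ J'),
      IsSpecialization (K := K) p J J' A ℓ sp F ∧ SpecialFibreRelation J' ℓ hℓ F := by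
  classical
  let Kr : Submodule HeckeAlg J := heckeKer red
  let Q := J ⧸ Kr
  let T : HeckeAlg := heckeGen ⟨ℓ, hℓ⟩
  let F : Q × Q →+ Q × Q :=
    { toFun := fun ab => (-(ℓ • ab.2), ab.1 + T • ab.2)
      map_zero' := by simp
      map_add' := fun x y => by
        ext
        · simp only [Prod.snd_add, smul_add, neg_add_rev, Prod.fst_add]; abel
        · simp only [Prod.fst_add, Prod.snd_add, smul_add]; abel }
  let sp : J →+ Q × Q :=
    { toFun := fun x => (Kr.mkQ x, 0)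
      map_zero' := by simp
      map_add' := fun x y => by ext <;> simp }
  refine ⟨Q × Q, inferInstance, inferInstance, sp, F, ?_, ?_⟩
  · refine ⟨fun S x => ?_, fun σ hσ x => ?_, fun σ hσ x => absurd hσ (hno σ), fun x hx hsp => ?_⟩
    · show ((Kr.mkQ (S • x) : Q), (0 : Q)) = S • ((Kr.mkQ x : Q), (0 : Q))
      rw [Prod.smul_mk, smul_zero, map_smul]
    · show ((Kr.mkQ (σ • x) : Q), (0 : Q)) = ((Kr.mkQ x : Q), (0 : Q))
      congr 1
      rw [← sub_eq_zero, ← map_sub, Submodule.mkQ_apply, Submodule.Quotient.mk_eq_zero]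
      exact h.smul_sub_mem hσ x
    · have h1 : (Kr.mkQ x : Q) = 0 := congrArg Prod.fst hsp
      have hx' : x ∈ Kr := by
        rwa [Submodule.mkQ_apply, Submodule.Quotient.mk_eq_zero] at h1
      exact h.inj x hx (red_eq_zero_of_mem_heckeKer red hx')
  · rintro ⟨a, b⟩
    show F (F (a, b)) - T • F (a, b) + ℓ • (a, b) = 0
    ext
    · show -(ℓ • (a + T • b)) - T • (-(ℓ • b)) + ℓ • a = 0
      rw [smul_add, smul_neg, smul_comm T ℓ b]
      abel
    · show (-(ℓ • b) + T • (a + T • b)) - T • (a + T • b) + ℓ • b = 0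
      abel

/-- **Formal reduction of S37.** -/
theorem specializationExists_of_isGoodRed (N : ℕ)
    (H : ∀ ℓ : ℕ, (hℓ : ℓ.Prime) → ¬ ℓ ∣ N * p →
      ∀ A : ValuationSubring L, A.LiesOverPrime ℓ →
        ∃ (Jt : Type) (_ : AddCommGroup Jt) (red : J →+ Jt) (Fr : Jt →+ Jt),
          IsGoodRed (K := K) p J A ℓ hℓ red Fr) :
    SpecializationExists (K := K) (L := L) N p J := by
  intro ℓ hℓ hℓN A hA
  obtain ⟨Jt, _, red, Fr, h⟩ := H ℓ hℓ hℓN A hA
  by_cases hex : ∃ φ : L ≃ₐ[K] L, A.IsFrobeniusAt φ ℓ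
  · obtain ⟨φ, hφ⟩ := hex
    exact exists_specialization_of_frob h φ hφ
  · exact exists_specialization_of_not_frob h (not_exists.mp hex)

end Main

end Fermat.Agent.Gateway.Red
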