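/-
P-GATEWAY (c), helper37: the frozen statement S37 from a reduction map on `JZero N` with the
properties (R2), (R3), (R4), stated with the concrete Hecke operator `heckeOperatorBar N ℓ`
(no `HeckeAlg`-module structure in the hypothesis).
-/
import Fermat.Prelude.Def_ModularCurve_HeckeModule
import Fermat.Agent.Gateway.Red.S37Glue

set_option autoImplicit false

noncomputable section

namespace Fermat.Agent.Gateway.Red

open ModularCurve

/-- The hypothesis on `JZero N` consumed by `s37_of_redData`: at `(A, ℓ)` there is a reduction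
map with (R2) Galois compatibility, (R3) injectivity on `p`-power torsion and (R4) the
Eichler-Shimura congruence for `T_ℓ`. -/
def HasRedData (N p : ℕ) [NeZero N] : Prop :=
  ∀ ℓ : ℕ, (hℓ : ℓ.Prime) → ¬ ℓ ∣ N * p →
    ∀ A : ValuationSubring (AlgebraicClosure ℚ), A.LiesOverPrime ℓ →
      ∃ (Jt : Type) (_ : AddCommGroup Jt) (red : JZero N →+ Jt) (Fr : Jt →+ Jt),
        (∀ σ ∈ A.inertiaSubgroupIn ℚ, ∀ x : JZero N, red (σ • x) = red x) ∧
        (∀ σ : AlgebraicClosure ℚ ≃ₐ[ℚ] AlgebraicClosure ℚ, A.IsFrobeniusAt σ ℓ →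
          ∀ x : JZero N, red (σ • x) = Fr (red x)) ∧
        (∀ x : JZero N, (∃ n : ℕ, p ^ n • x = 0) → red x = 0 → x = 0) ∧
        (∀ σ : AlgebraicClosure ℚ ≃ₐ[ℚ] AlgebraicClosure ℚ, A.IsFrobeniusAt σ ℓ →
          ∀ x : JZero N, red (heckeOperatorBar N ⟨ℓ, hℓ⟩ (σ • x)) = Fr (Fr (red x)) + ℓ • red x)

/-- **S37 from reduction data** (exactly the frozen type of S37 as conclusion). -/
theorem s37_of_redData (N p : ℕ) [NeZero N] (hcomm : HeckeOperatorsCommuteBar N)
    (H : HasRedData N p) :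
    letI := heckeModuleBar N
    ∀ (_ : SMulCommClass (AlgebraicClosure ℚ ≃ₐ[ℚ] AlgebraicClosure ℚ) HeckeAlg (JZero N)),
      SpecializationExists (K := ℚ) (L := AlgebraicClosure ℚ) N p (JZero N) := by
  let _ := heckeModuleBar N
  intro _
  refine specializationExists_of_isGoodRed (K := ℚ) (L := AlgebraicClosure ℚ) N ?_
  intro ℓ hℓ hℓN A hA
  obtain ⟨Jt, i1, red, Fr, h1, h2, h3, h4⟩ := H ℓ hℓ hℓN A hA
  refine ⟨Jt, i1, red, Fr, ⟨h1, h2, h3, fun σ hσ x => ?_⟩⟩
  have e := heckeModuleBar_heckeGen_smul hcomm ⟨ℓ, hℓ⟩ (σ • x)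
  exact (congrArg red e).trans (h4 σ hσ x)

end Fermat.Agent.Gateway.Red
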