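/-
P-GATEWAY (c), Tier 2 / S37, package RED-H (helper20): the final ASSEMBLY of `HasRedData N p`
(`Gateway/Red/S37Final.lean`; `s37_of_redData` turns it into the frozen S37) from

* (I1)-(I3) `RedInputs M ℓ A`: at a good level `M` (`4 ∣ M` for odd `ℓ`, `9 ∣ M` for `ℓ = 2`,
  `ℓ ∤ M`) a reduction map `r` on ALL places with the two properties of
  `ReductionInputsAlong`, Galois equivariance for the decomposition group (GAL) and the
  Eichler-Shimura congruence on divisors (ES4);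
* (I4) `Kummer.KummerRedInj M A m` at good levels (+ the constants lemma `FkBasics.hconstk_residueField`,
  landed) for the injectivity on `p`-power torsion (`S18Glue.eq_zero_of_reductionPic0Along_eq_zero`);
* (I5) helper38's Descent `pullbackPic` (landed: injectivity and Galois equivariance) and
  (D3) `pullbackPic_heckeOperatorBar` (hypothesis `hD3`).
-/
import Fermat.Agent.Gateway.Red.S37Final
import Fermat.Agent.Gateway.S18Glue
import Fermat.Agent.Gateway.ES.GaloisRed
import Fermat.Agent.Gateway.ES.ResidueField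
import Fermat.Agent.Gateway.Hecke.Inputs
import Fermat.Agent.Gateway.Descent.PicIncl
import Fermat.Agent.Gateway.FkBasics.Modular
import Fermat.Agent.Gateway.Descent.S37Descent
import Fermat.Agent.Gateway.Kummer.AssembleS18

set_option autoImplicit false
set_option linter.unusedSectionVars false
set_option linter.style.haveILetI false

noncomputable section

namespace Fermat.Agent.Gateway.Red

open ModularCurve AlgebraicCurve HahnSeries IntermediateField
open Fermat.Agent.Gateway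

local notation "Qb" => AlgebraicClosure ℚ

section Level

set_option synthInstance.maxHeartbeats 400000
set_option maxHeartbeats 1600000

variable (M ℓ : ℕ) [NeZero M] [hℓ : Fact ℓ.Prime] (A : ValuationSubring Qb)
  [CharP (IsLocalRing.ResidueField A) ℓ] [PerfectRing (IsLocalRing.ResidueField A) ℓ]

local notation "kA" => IsLocalRing.ResidueField A
local notation "πA" => IsLocalRing.residue A

/-- The inputs (I1)-(I3) at a level `M` prime to `ℓ`: a reduction map on all places of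
`X₀(M)_{ℚ̄}` which computes divisors of integral functions (I1), is equivariant for the
decomposition group of `A` (I2 = GAL) and satisfies the Eichler-Shimura congruence on divisors
(I3 = ES4). -/
structure RedInputs where
  /-- the reduction map on places -/
  r : Place Qb (laurentBaseChange Qb (modularFunctionFieldFull M)) →
    Place kA (modularFunctionFieldFullC kA M)
  isRed : IsPlaceReductionAlong A πA M r
  gen : PrincipalGeneratedByIntegral A πA M
  gal : ∀ (g : A.decompositionSubgroup ℚ)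
    (P : Place Qb (laurentBaseChange Qb (modularFunctionFieldFull M))),
    r (arithmeticGalois (modularFunctionFieldFull M) (g : Qb ≃ₐ[ℚ] Qb) • P) =
      ES.coeffGaloisC kA M (MulSemiringAction.toRingAut (A.decompositionSubgroup ℚ) kA g) • r P
  es : ∀ D : Divisor Qb (laurentBaseChange Qb (modularFunctionFieldFull M)),
    Finsupp.mapDomain r
        (heckeDivBar (Hecke.heckeAlphaBarIntegral Qb M ℓ) (Hecke.heckeBetaBarIntegral Qb M ℓ) D) =
      ES.frobC kA M ℓ • Finsupp.mapDomain r D +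
        (ℓ : ℤ) • ((ES.frobC kA M ℓ)⁻¹ • Finsupp.mapDomain r D)

variable {M ℓ A}

namespace RedInputs

variable (I : RedInputs M ℓ A)

/-- The reduction map `J₀(M)(ℚ̄) → J₀(M)(k_A)` attached to the inputs. -/
def red : JZero M →+ JZeroC kA M :=
  reductionPic0Along I.r I.isRed I.gen

theorem red_mk (D : Divisor.degZero (K := Qb)
    (F := laurentBaseChange Qb (modularFunctionFieldFull M))) :
    I.red (Pic0.mk D) = Pic0.mk (reductionDegZeroAlong I.r I.isRed.1 D) := rfl

/-- The Frobenius endomorphism of `J₀(M)(k_A)`. -/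
def Fr : JZeroC kA M →+ JZeroC kA M :=
  DistribSMul.toAddMonoidHom (JZeroC kA M) (ES.frobC kA M ℓ)

theorem Fr_apply (y : JZeroC kA M) :
    (Fr (M := M) (ℓ := ℓ) (A := A)) y = ES.frobC kA M ℓ • y := rfl

/-- (GAL) on divisors. -/
theorem mapDomain_galois_smul (g : A.decompositionSubgroup ℚ)
    (D : Divisor Qb (laurentBaseChange Qb (modularFunctionFieldFull M))) :
    Finsupp.mapDomain I.r (arithmeticGalois (modularFunctionFieldFull M) (g : Qb ≃ₐ[ℚ] Qb) • D) =
      ES.coeffGaloisC kA M (MulSemiringAction.toRingAut (A.decompositionSubgroup ℚ) kA g) •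
        Finsupp.mapDomain I.r D := by
  rw [SemilinearAut.divisor_smul_def, SemilinearAut.divisor_smul_def, ← Finsupp.mapDomain_comp,
    ← Finsupp.mapDomain_comp]
  congr 1
  funext P
  exact I.gal g P

/-- (GAL) on `Pic⁰`: equivariance for the decomposition group. -/
theorem red_decomposition_smul (g : A.decompositionSubgroup ℚ) (x : JZero M) :
    I.red ((g : Qb ≃ₐ[ℚ] Qb) • x) =
      ES.coeffGaloisC kA M (MulSemiringAction.toRingAut (A.decompositionSubgroup ℚ) kA g) •
        I.red x := by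
  obtain ⟨D, rfl⟩ := Pic0.mk_surjective x
  rw [galois_smul_pic0_def, SemilinearAut.pic0_smul_mk, red_mk, red_mk,
    SemilinearAut.pic0_smul_mk]
  exact congrArg Pic0.mk (Subtype.ext (I.mapDomain_galois_smul g D))

/-- (R2), inertia. -/
theorem red_inertia_smul {σ : Qb ≃ₐ[ℚ] Qb} (hσ : σ ∈ A.inertiaSubgroupIn ℚ) (x : JZero M) :
    I.red (σ • x) = I.red x := by
  obtain ⟨g, hg, rfl⟩ := hσ
  have h1 : MulSemiringAction.toRingAut (A.decompositionSubgroup ℚ) kA g = 1 := hg
  have := I.red_decomposition_smul g x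
  rw [h1, map_one, one_smul] at this
  exact this

/-- (R2), Frobenius. -/
theorem red_frobenius_smul {σ : Qb ≃ₐ[ℚ] Qb} (hσ : A.IsFrobeniusAt σ ℓ) (x : JZero M) :
    I.red (σ • x) = Fr (I.red x) := by
  obtain ⟨hmem, hfrob⟩ := hσ
  have h1 : MulSemiringAction.toRingAut (A.decompositionSubgroup ℚ) kA ⟨σ, hmem⟩ =
      frobeniusEquiv kA ℓ := by
    ext z
    rw [MulSemiringAction.toRingAut_apply]
    exact (hfrob z).trans (by rw [frobeniusEquiv_apply, frobenius_def])
  have := I.red_decomposition_smul ⟨σ, hmem⟩ x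
  rw [h1] at this
  exact this

/-- (ES4) on `Pic⁰`: `red ∘ T_ℓ = Fr ∘ red + ℓ • Fr⁻¹ ∘ red`. -/
theorem red_heckeOperatorBar (x : JZero M) :
    I.red (heckeOperatorBar M (⟨ℓ, hℓ.out⟩ : Nat.Primes) x) =
      ES.frobC kA M ℓ • I.red x + (ℓ : ℤ) • ((ES.frobC kA M ℓ)⁻¹ • I.red x) := by
  obtain ⟨D, rfl⟩ := Pic0.mk_surjective x
  have h0 : heckeOperatorBar M (⟨ℓ, hℓ.out⟩ : Nat.Primes) (Pic0.mk D) =
      heckeOperatorAlong Qb M ℓ (Pic0.mk D) := rfl
  have h1 := Hecke.heckeOperatorAlong_mk Qb M ℓ D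
  rw [h0, h1, red_mk, red_mk, SemilinearAut.pic0_smul_mk, SemilinearAut.pic0_smul_mk]
  refine (congrArg Pic0.mk (Subtype.ext ?_) :
    Pic0.mk _ = Pic0.mk (SemilinearAut.degZeroSMulHom (ES.frobC kA M ℓ) _ +
      (ℓ : ℤ) • SemilinearAut.degZeroSMulHom (ES.frobC kA M ℓ)⁻¹ _))
  exact I.es D

/-- (R4) at level `M`. -/
theorem red_hecke_frobenius {σ : Qb ≃ₐ[ℚ] Qb} (hσ : A.IsFrobeniusAt σ ℓ) (x : JZero M) :
    I.red (heckeOperatorBar M (⟨ℓ, hℓ.out⟩ : Nat.Primes) (σ • x)) =
      Fr (Fr (I.red x)) + ℓ • I.red x := by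
  rw [I.red_heckeOperatorBar, I.red_frobenius_smul hσ, Fr_apply, Fr_apply, inv_smul_smul,
    natCast_zsmul]

/-- (R3) at level `M`: injectivity on `m`-torsion, given (C0) and the constants lemma. -/
theorem eq_zero_of_red_eq_zero (hconst : S18Glue.ConstOfOrdZeroC kA M) {m : ℕ} (hm : m ≠ 0)
    (hC0 : Kummer.KummerRedInj M A m) (z : JZero M) (hmz : m • z = 0) (hz : I.red z = 0) :
    z = 0 :=
  S18Glue.eq_zero_of_reductionPic0Along_eq_zero A M I.isRed I.gen hconst hm hC0 z hmz hz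

end RedInputs

end Level

section Descend

variable {N M : ℕ} [NeZero N] [NeZero M]

/-- The good-level condition: `4 ∣ M` for odd `ℓ`, `9 ∣ M` for `ℓ = 2`. -/
def IsGoodLevel (M ℓ : ℕ) : Prop := (ℓ ≠ 2 ∧ 4 ∣ M) ∨ (ℓ = 2 ∧ 9 ∣ M)

/-- The good level above `N` for the prime `ℓ`. -/
def goodLevel (N ℓ : ℕ) : ℕ := if ℓ = 2 then Nat.lcm N 9 else Nat.lcm N 4

theorem goodLevel_eq (N ℓ : ℕ) :
    goodLevel N ℓ = Nat.lcm N 4 ∨ goodLevel N ℓ = Nat.lcm N 9 := by
  unfold goodLevel
  split_ifs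
  · exact Or.inr rfl
  · exact Or.inl rfl

theorem isGoodLevel_goodLevel (N ℓ : ℕ) : IsGoodLevel (goodLevel N ℓ) ℓ := by
  unfold goodLevel IsGoodLevel
  split_ifs with h
  · exact Or.inr ⟨h, Nat.dvd_lcm_right N 9⟩
  · exact Or.inl ⟨h, Nat.dvd_lcm_right N 4⟩

theorem goodLevel_ne_zero (N ℓ : ℕ) [NeZero N] : goodLevel N ℓ ≠ 0 := by
  unfold goodLevel
  split_ifs
  · exact Nat.lcm_ne_zero (NeZero.ne N) (by norm_num)
  · exact Nat.lcm_ne_zero (NeZero.ne N) (by norm_num)

theorem not_dvd_goodLevel {N ℓ : ℕ} (hℓ : ℓ.Prime) (hℓN : ¬ ℓ ∣ N) : ¬ ℓ ∣ goodLevel N ℓ := by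
  unfold goodLevel
  split_ifs with h
  · intro hd
    have hd' : ℓ ∣ N * 9 := hd.trans (Nat.lcm_dvd_mul N 9)
    rcases (Nat.Prime.dvd_mul hℓ).mp hd' with hd'' | hd''
    · exact hℓN hd''
    · subst h
      omega
  · intro hd
    have hd' : ℓ ∣ N * 4 := hd.trans (Nat.lcm_dvd_mul N 4)
    rcases (Nat.Prime.dvd_mul hℓ).mp hd' with hd'' | hd''
    · exact hℓN hd''
    · have h4 : ℓ ∣ 2 ^ 2 := by norm_num; exact hd''
      exact h ((Nat.prime_dvd_prime_iff_eq hℓ Nat.prime_two).mp (hℓ.dvd_of_dvd_pow h4))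

end Descend

section Main

set_option synthInstance.maxHeartbeats 400000
set_option maxHeartbeats 1600000

/-- **RED-H: assembly of `HasRedData N p`.** -/
theorem hasRedData_of_inputs (N p : ℕ) [NeZero N]
    (hC0 : ∀ (M : ℕ) [NeZero M] (m ℓ : ℕ), ℓ.Prime → ¬ ℓ ∣ m * M → IsGoodLevel M ℓ →
      ∀ A : ValuationSubring Qb, A.LiesOverPrime ℓ → Kummer.KummerRedInj M A m)
    (hRed : ∀ (M : ℕ) [NeZero M] (ℓ : ℕ) [Fact ℓ.Prime], ¬ ℓ ∣ M → IsGoodLevel M ℓ →
      ∀ (A : ValuationSubring Qb) (hA : A.LiesOverPrime ℓ),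
        haveI := ES.charP_residueField_of_liesOverPrime A hA
        Nonempty (RedInputs M ℓ A))
    (hD3 : ∀ (M : ℕ) [NeZero M] (h : N ∣ M) (l : Nat.Primes), ¬ (l : ℕ) ∣ M →
      ∀ x : JZero N, Descent.pullbackPic h (heckeOperatorBar N l x) =
        heckeOperatorBar M l (Descent.pullbackPic h x)) :
    HasRedData N p := by
  intro ℓ hℓ hℓNp A hA
  haveI : Fact ℓ.Prime := ⟨hℓ⟩
  have hℓN : ¬ ℓ ∣ N := fun h => hℓNp (Dvd.dvd.mul_right h p)
  have hℓp : ¬ ℓ ∣ p := fun h => hℓNp (Dvd.dvd.mul_left h N)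
  have hp0 : p ≠ 0 := by
    rintro rfl
    exact hℓp (dvd_zero ℓ)
  set M := goodLevel N ℓ with hM
  haveI : NeZero M := ⟨goodLevel_ne_zero N ℓ⟩
  have hMor : M = Nat.lcm N 4 ∨ M = Nat.lcm N 9 := goodLevel_eq N ℓ
  have hNM : N ∣ M := Descent.dvd_of_eq_lcm_or hMor
  have hℓM : ¬ ℓ ∣ M := not_dvd_goodLevel hℓ hℓN
  have hgood : IsGoodLevel M ℓ := isGoodLevel_goodLevel N ℓ
  haveI := ES.charP_residueField_of_liesOverPrime A hA
  obtain ⟨I⟩ := hRed M ℓ hℓM hgood A hA
  have hconst : S18Glue.ConstOfOrdZeroC (IsLocalRing.ResidueField A) M :=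
    FkBasics.hconstk_residueField M hℓM A hA
  refine ⟨JZeroC (IsLocalRing.ResidueField A) M, inferInstance,
    I.red.comp (Descent.pullbackPic hNM), RedInputs.Fr, ?_, ?_, ?_, ?_⟩
  · intro σ hσ x
    show I.red (Descent.pullbackPic hNM (σ • x)) = I.red (Descent.pullbackPic hNM x)
    rw [Descent.pullbackPic_smul, I.red_inertia_smul hσ]
  · intro σ hσ x
    show I.red (Descent.pullbackPic hNM (σ • x)) = RedInputs.Fr (I.red (Descent.pullbackPic hNM x))
    rw [Descent.pullbackPic_smul, I.red_frobenius_smul hσ]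
  · rintro x ⟨n, hn⟩ hx
    have hx' : I.red (Descent.pullbackPic hNM x) = 0 := hx
    have hpn : p ^ n ≠ 0 := pow_ne_zero n hp0
    have hdvd : ¬ ℓ ∣ p ^ n * M := by
      intro hd
      rcases (Nat.Prime.dvd_mul hℓ).mp hd with hd | hd
      · exact hℓp (hℓ.dvd_of_dvd_pow hd)
      · exact hℓM hd
    have hz : p ^ n • Descent.pullbackPic hNM x = 0 := by
      rw [← map_nsmul, hn, map_zero]
    have h0 := I.eq_zero_of_red_eq_zero hconst hpn (hC0 M (p ^ n) ℓ hℓ hdvd hgood A hA) _ hz hx'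
    exact Descent.pullbackPic_injective hMor (h0.trans (map_zero _).symm)
  · intro σ hσ x
    show I.red (Descent.pullbackPic hNM (heckeOperatorBar N ⟨ℓ, hℓ⟩ (σ • x))) =
      RedInputs.Fr (RedInputs.Fr (I.red (Descent.pullbackPic hNM x))) +
        ℓ • I.red (Descent.pullbackPic hNM x)
    rw [hD3 M hNM ⟨ℓ, hℓ⟩ hℓM, Descent.pullbackPic_smul]
    exact I.red_hecke_frobenius hσ _

end Main

section Final

set_option synthInstance.maxHeartbeats 400000
set_option maxHeartbeats 1600000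

/-- The shape of the last ES step (helper13, `hasRedDataAt_of_reductionInputs`): at a level `M`
prime to `ℓ`, the reduction inputs of `A` together with injectivity of `reductionModL` on
`p`-power torsion give the reduction data `Descent.HasRedDataAt M p ℓ hℓ A`
(ES4 and GAL on all divisors come from `ES/Bounded.lean`). -/
def RedDataAtOfReductionInputs : Prop :=
  ∀ (M p ℓ : ℕ) [NeZero M] (hℓ : ℓ.Prime), ¬ ℓ ∣ M * p →
    ∀ A : ValuationSubring Qb, A.LiesOverPrime ℓ → ReductionInputsModL A M →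
      (∀ x : JZero M, (∃ n : ℕ, p ^ n • x = 0) → reductionModL A M x = 0 → x = 0) →
      Descent.HasRedDataAt M p ℓ hℓ A

/-- Injectivity of `reductionModL` on `p`-power torsion at a level `M` with `ℓ ∤ M p`, from (C0) at
the good levels (the frozen S18 at level `M`, `Kummer.s18_of_C0`). -/
theorem reductionModL_injective_on_ppow (hC0 : Kummer.C0AtGoodLevels) (M p ℓ : ℕ) [NeZero M]
    (hℓ : ℓ.Prime) (hℓMp : ¬ ℓ ∣ M * p) (A : ValuationSubring Qb) (hA : A.LiesOverPrime ℓ)
    (hred : ReductionInputsModL A M) :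
    ∀ x : JZero M, (∃ n : ℕ, p ^ n • x = 0) → reductionModL A M x = 0 → x = 0 := by
  rintro x ⟨n, hn⟩ hx
  haveI : Fact ℓ.Prime := ⟨hℓ⟩
  have hℓM : ¬ ℓ ∣ M := fun h => hℓMp (Dvd.dvd.mul_right h p)
  have hℓp : ¬ ℓ ∣ p := fun h => hℓMp (Dvd.dvd.mul_left h M)
  have hm : ¬ ℓ ∣ p ^ n := fun h => hℓp (hℓ.dvd_of_dvd_pow h)
  exact Kummer.s18_of_C0 hC0 M hℓM A hA hred (p ^ n) hm x hn hx

/-- **RED-H, final glue.** The frozen S37 from: the last ES step `hAt` (helper13), the reduction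
inputs at all good levels (RED-G/RED-F), and (C0) at the good levels (Tier 1). -/
theorem s37_of_reductionInputs_of (hAt : RedDataAtOfReductionInputs) (N p : ℕ) [NeZero N]
    (hcomm : HeckeOperatorsCommuteBar N)
    (hred : ∀ (M : ℕ) [NeZero M] (ℓ : ℕ), ℓ.Prime → ¬ ℓ ∣ M →
      ((ℓ ≠ 2 ∧ 4 ∣ M) ∨ (ℓ = 2 ∧ 9 ∣ M)) →
      ∀ A : ValuationSubring Qb, A.LiesOverPrime ℓ → ReductionInputsModL A M)
    (hC0 : Kummer.C0AtGoodLevels) :
    letI := heckeModuleBar N
    ∀ (_ : SMulCommClass (Qb ≃ₐ[ℚ] Qb) HeckeAlg (JZero N)),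
      SpecializationExists (K := ℚ) (L := Qb) N p (JZero N) :=
  Descent.s37_of_good N p hcomm fun M _ ℓ hℓ hℓMp hgood A hA =>
    have hℓM : ¬ ℓ ∣ M := fun h => hℓMp (Dvd.dvd.mul_right h p)
    hAt M p ℓ hℓ hℓMp A hA (hred M ℓ hℓ hℓM hgood A hA)
      (reductionModL_injective_on_ppow hC0 M p ℓ hℓ hℓMp A hA (hred M ℓ hℓ hℓM hgood A hA))

end Final

end Fermat.Agent.Gateway.Red
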