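/-
P-GATEWAY (c), RED block (helper37): the ABSTRACT MODEL of an affine chart of a curve with good
reduction over a (non-discrete) valuation ring, in pure commutative algebra (Mathlib only).

* `K ⊇ A` a field with a valuation subring, `π : A →+* k` the residue map;
* `R` a Dedekind `K`-algebra all of whose residue fields are `K` (functions regular on the chart of
  the generic fibre), `Rb` the same over `k` (special fibre);
* `𝓡 ⊆ R` the subring of functions regular on the chart of the MODEL, `res : 𝓡 →+* Rb` the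
  reduction, surjective with kernel `m_A 𝓡`;
* `t ∈ 𝓡` the chart coordinate; `𝓡` is a finitely generated `A[t]`-module.

Defined here: evaluation `ev 𝔭 : R →+* K` at a prime, integral points (`t(𝔭) ∈ A`), and the
reduction `redPrime 𝔭 : HeightOneSpectrum Rb` of an integral point, with its characterisation
`res f ∈ redPrime 𝔭 ↔ f(𝔭) ∈ m_A`.
-/
import Mathlib

set_option autoImplicit false

noncomputable section

namespace Fermat.Agent.Gateway.Red

open IsDedekindDomain Polynomial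

/-- Abstract model data of an affine chart (see the file header). -/
structure ModelData (K : Type*) [Field K] (A : ValuationSubring K) (k : Type*) [Field k]
    (R : Type*) [CommRing R] [Algebra K R] (Rb : Type*) [CommRing Rb] [Algebra k Rb] where
  /-- the residue map of `A` -/
  π : A →+* k
  π_surj : Function.Surjective π
  π_ker : ∀ a : A, π a = 0 ↔ a ∈ IsLocalRing.maximalIdeal A
  /-- functions regular on the chart of the model -/
  𝓡 : Subring R
  algebraMap_mem : ∀ a : A, algebraMap K R (a : K) ∈ 𝓡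
  /-- the chart coordinate -/
  t : R
  t_mem : t ∈ 𝓡
  /-- reduction of functions -/
  res : 𝓡 →+* Rb
  res_surj : Function.Surjective res
  res_algebraMap : ∀ a : A, res ⟨algebraMap K R (a : K), algebraMap_mem a⟩ = algebraMap k Rb (π a)
  /-- the kernel of the reduction is `m_A 𝓡` -/
  res_ker : ∀ f : 𝓡, res f = 0 →
    ∃ (c : A) (g : 𝓡), c ∈ IsLocalRing.maximalIdeal A ∧ (f : R) = (c : K) • (g : R)
  /-- `𝓡` spans `R` over `K` -/
  span : ∀ f : R, ∃ c : K, c ≠ 0 ∧ c • f ∈ 𝓡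
  /-- `𝓡 = R ∩ O` for a valuation ring `O` in which elements with nonzero reduction are units -/
  mem_of_mul_mem : ∀ u : 𝓡, res u ≠ 0 → ∀ h : R, (u : R) * h ∈ 𝓡 → h ∈ 𝓡
  /-- the reduction of the coordinate is not constant -/
  res_t_ne : ∀ c : k, res ⟨t, t_mem⟩ ≠ algebraMap k Rb c
  /-- `𝓡` is a finitely generated `A[t]`-module -/
  fg : ∃ s : Finset R, (∀ x ∈ s, x ∈ 𝓡) ∧ ∀ f ∈ 𝓡, ∃ p : R → Polynomial A,
    f = ∑ x ∈ s, aeval t ((p x).map (algebraMap A K)) * x

section Points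

variable {K : Type*} [Field K] {R : Type*} [CommRing R] [Algebra K R] [IsDedekindDomain R]

/-- all residue fields of `R` are `K` -/
def AllPointsRational (K : Type*) [Field K] (R : Type*) [CommRing R] [Algebra K R]
    [IsDedekindDomain R] : Prop :=
  ∀ 𝔭 : HeightOneSpectrum R, Function.Bijective (algebraMap K (R ⧸ 𝔭.asIdeal))

variable (hR : AllPointsRational K R)

/-- evaluation at a point -/
def ev (𝔭 : HeightOneSpectrum R) : R →+* K :=
  ((RingEquiv.ofBijective (algebraMap K (R ⧸ 𝔭.asIdeal)) (hR 𝔭)).symm : (R ⧸ 𝔭.asIdeal) →+* K).comp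
    (Ideal.Quotient.mk 𝔭.asIdeal)

theorem algebraMap_ev (𝔭 : HeightOneSpectrum R) (f : R) :
    algebraMap K (R ⧸ 𝔭.asIdeal) (ev hR 𝔭 f) = Ideal.Quotient.mk 𝔭.asIdeal f := by
  unfold ev
  simp only [RingHom.coe_comp, Function.comp_apply, RingHom.coe_coe]
  exact (RingEquiv.ofBijective (algebraMap K (R ⧸ 𝔭.asIdeal)) (hR 𝔭)).apply_symm_apply _

theorem ev_algebraMap (𝔭 : HeightOneSpectrum R) (c : K) : ev hR 𝔭 (algebraMap K R c) = c := by
  apply (hR 𝔭).1
  rw [algebraMap_ev]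
  rfl

theorem ev_eq_zero_iff (𝔭 : HeightOneSpectrum R) (f : R) : ev hR 𝔭 f = 0 ↔ f ∈ 𝔭.asIdeal := by
  rw [← Ideal.Quotient.eq_zero_iff_mem, ← algebraMap_ev hR 𝔭 f]
  constructor
  · intro h; rw [h, map_zero]
  · intro h
    exact (hR 𝔭).1 (by rw [h, map_zero])

theorem sub_ev_mem (𝔭 : HeightOneSpectrum R) (f : R) :
    f - algebraMap K R (ev hR 𝔭 f) ∈ 𝔭.asIdeal := by
  rw [← ev_eq_zero_iff hR, map_sub, ev_algebraMap, sub_self]

theorem ev_smul (𝔭 : HeightOneSpectrum R) (c : K) (f : R) : ev hR 𝔭 (c • f) = c * ev hR 𝔭 f := by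
  rw [Algebra.smul_def, map_mul, ev_algebraMap]

end Points

section Reduction

variable {K : Type*} [Field K] {A : ValuationSubring K} {k : Type*} [Field k]
  {R : Type*} [CommRing R] [Algebra K R] [IsDedekindDomain R]
  {Rb : Type*} [CommRing Rb] [Algebra k Rb] [IsDedekindDomain Rb]
  (D : ModelData K A k R Rb) (hR : AllPointsRational K R)

/-- a point of the generic fibre is integral on the chart if its coordinate is integral -/
def ModelData.IsIntegralPt (𝔭 : HeightOneSpectrum R) : Prop := ev hR 𝔭 D.t ∈ A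

/-- **(Int)** functions of the model take integral values at integral points
(to be proved from `D.fg`: RED-B1). -/
def ModelData.IntegralValues : Prop :=
  ∀ 𝔭 : HeightOneSpectrum R, D.IsIntegralPt hR 𝔭 → ∀ f ∈ D.𝓡, ev hR 𝔭 f ∈ A

variable (hint : D.IntegralValues hR)

/-- the character `f ↦ π (f(𝔭))` of `𝓡` attached to an integral point -/
def ModelData.chi (𝔭 : HeightOneSpectrum R) (h𝔭 : D.IsIntegralPt hR 𝔭) : D.𝓡 →+* k :=
  D.π.comp (((ev hR 𝔭).comp D.𝓡.subtype).codRestrict A.toSubring fun f => hint 𝔭 h𝔭 f f.2)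

theorem ModelData.chi_apply (𝔭 : HeightOneSpectrum R) (h𝔭 : D.IsIntegralPt hR 𝔭) (f : D.𝓡) :
    D.chi hR hint 𝔭 h𝔭 f = D.π ⟨ev hR 𝔭 f, hint 𝔭 h𝔭 f f.2⟩ := rfl

theorem ModelData.chi_eq_zero_of_res_eq_zero (𝔭 : HeightOneSpectrum R)
    (h𝔭 : D.IsIntegralPt hR 𝔭) (f : D.𝓡) (hf : D.res f = 0) : D.chi hR hint 𝔭 h𝔭 f = 0 := by
  obtain ⟨c, g, hc, hfg⟩ := D.res_ker f hf
  rw [D.chi_apply, D.π_ker]
  have h1 : ev hR 𝔭 (f : R) = (c : K) * ev hR 𝔭 (g : R) := by rw [hfg, ev_smul]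
  have h2 : (⟨ev hR 𝔭 f, hint 𝔭 h𝔭 f f.2⟩ : A) = c * ⟨ev hR 𝔭 g, hint 𝔭 h𝔭 g g.2⟩ :=
    Subtype.ext h1
  rw [h2]
  exact Ideal.mul_mem_right _ _ hc

/-- the character of `Rb` induced by an integral point -/
def ModelData.chiBar (𝔭 : HeightOneSpectrum R) (h𝔭 : D.IsIntegralPt hR 𝔭) : Rb →+* k :=
  RingHom.liftOfRightInverse D.res (Function.surjInv D.res_surj)
    (Function.rightInverse_surjInv D.res_surj)
    ⟨D.chi hR hint 𝔭 h𝔭, fun f hf => D.chi_eq_zero_of_res_eq_zero hR hint 𝔭 h𝔭 f hf⟩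

theorem ModelData.chiBar_res (𝔭 : HeightOneSpectrum R) (h𝔭 : D.IsIntegralPt hR 𝔭) (f : D.𝓡) :
    D.chiBar hR hint 𝔭 h𝔭 (D.res f) = D.π ⟨ev hR 𝔭 f, hint 𝔭 h𝔭 f f.2⟩ := by
  unfold ModelData.chiBar
  rw [RingHom.liftOfRightInverse_comp_apply]
  rfl

theorem ModelData.chiBar_algebraMap (𝔭 : HeightOneSpectrum R) (h𝔭 : D.IsIntegralPt hR 𝔭)
    (c : k) : D.chiBar hR hint 𝔭 h𝔭 (algebraMap k Rb c) = c := by
  obtain ⟨a, rfl⟩ := D.π_surj c
  rw [← D.res_algebraMap, D.chiBar_res]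
  congr 1
  exact Subtype.ext (ev_algebraMap hR 𝔭 _)

theorem ModelData.chiBar_surjective (𝔭 : HeightOneSpectrum R) (h𝔭 : D.IsIntegralPt hR 𝔭) :
    Function.Surjective (D.chiBar hR hint 𝔭 h𝔭) := fun c =>
  ⟨algebraMap k Rb c, D.chiBar_algebraMap hR hint 𝔭 h𝔭 c⟩

/-- **the reduction of an integral point** -/
def ModelData.redPrime (𝔭 : HeightOneSpectrum R) (h𝔭 : D.IsIntegralPt hR 𝔭) :
    HeightOneSpectrum Rb where
  asIdeal := RingHom.ker (D.chiBar hR hint 𝔭 h𝔭)
  isPrime := RingHom.ker_isPrime _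
  ne_bot := by
    intro hbot
    -- `res t - π (t(𝔭))` lies in the kernel
    set c : k := D.π ⟨ev hR 𝔭 D.t, h𝔭⟩ with hc
    have h1 : D.res ⟨D.t, D.t_mem⟩ - algebraMap k Rb c ∈ RingHom.ker (D.chiBar hR hint 𝔭 h𝔭) := by
      rw [RingHom.mem_ker, map_sub, D.chiBar_algebraMap, D.chiBar_res, sub_self]
    rw [hbot, Ideal.mem_bot, sub_eq_zero] at h1
    exact D.res_t_ne c h1

theorem ModelData.mem_redPrime_iff (𝔭 : HeightOneSpectrum R) (h𝔭 : D.IsIntegralPt hR 𝔭)
    (g : Rb) : g ∈ (D.redPrime hR hint 𝔭 h𝔭).asIdeal ↔ D.chiBar hR hint 𝔭 h𝔭 g = 0 :=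
  RingHom.mem_ker

/-- characterisation of the reduction of a point: `res f` vanishes at `redPrime 𝔭` iff `f(𝔭)` is
in the maximal ideal. -/
theorem ModelData.res_mem_redPrime_iff (𝔭 : HeightOneSpectrum R) (h𝔭 : D.IsIntegralPt hR 𝔭)
    (f : D.𝓡) : D.res f ∈ (D.redPrime hR hint 𝔭 h𝔭).asIdeal ↔
      (⟨ev hR 𝔭 f, hint 𝔭 h𝔭 f f.2⟩ : A) ∈ IsLocalRing.maximalIdeal A := by
  rw [D.mem_redPrime_iff, D.chiBar_res, D.π_ker]

end Reduction

section Targets

/-! ### Pinned statements of the RED block (to be proved in `Red/Integral.lean`, `Red/Separation.lean`,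
`Red/Count.lean`, `Red/SemiLocal.lean`; consumers may assume them as hypotheses meanwhile). -/

variable {K : Type*} [Field K] {A : ValuationSubring K} {k : Type*} [Field k]
  {R : Type*} [CommRing R] [Algebra K R] [IsDedekindDomain R]
  {Rb : Type*} [CommRing Rb] [Algebra k Rb] [IsDedekindDomain Rb]
  (D : ModelData K A k R Rb) (hR : AllPointsRational K R) (hRb : AllPointsRational k Rb)
  (hint : D.IntegralValues hR)

/-- the integral points reducing to `𝔮` -/
def ModelData.fibre (𝔮 : HeightOneSpectrum Rb) : Set (HeightOneSpectrum R) :=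
  {𝔭 | ∃ h : D.IsIntegralPt hR 𝔭, D.redPrime hR hint 𝔭 h = 𝔮}

/-- **value compatibility**: `(res f)(redPrime 𝔭) = π (f(𝔭))`. -/
def ModelData.ValueCompat : Prop :=
  ∀ (𝔭 : HeightOneSpectrum R) (h : D.IsIntegralPt hR 𝔭) (f : D.𝓡),
    ev hRb (D.redPrime hR hint 𝔭 h) (D.res f) = D.π ⟨ev hR 𝔭 f, hint 𝔭 h f f.2⟩

/-- **separation**: a point can be cut out by a function of the model whose reduction does not
vanish at a prescribed point of the special fibre different from its reduction; non-integral points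
are cut out by functions reducing to `1`. -/
def ModelData.Separation : Prop :=
  (∀ (𝔭 : HeightOneSpectrum R) (h : D.IsIntegralPt hR 𝔭) (𝔮 : HeightOneSpectrum Rb),
      D.redPrime hR hint 𝔭 h ≠ 𝔮 → ∃ f : D.𝓡, (f : R) ∈ 𝔭.asIdeal ∧ D.res f ∉ 𝔮.asIdeal) ∧
    (∀ 𝔭 : HeightOneSpectrum R, ¬ D.IsIntegralPt hR 𝔭 →
      ∃ f : D.𝓡, (f : R) ∈ 𝔭.asIdeal ∧ D.res f = 1)

/-- **conservation of number**: for `u` with nonzero reduction, the order of `res u` at `𝔮` is the
sum of the orders of `u` at the integral points reducing to `𝔮`. -/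
def ModelData.Count : Prop :=
  ∀ (u : D.𝓡), D.res u ≠ 0 → ∀ 𝔮 : HeightOneSpectrum Rb,
    (D.fibre hR hint 𝔮 ∩ {𝔭 | (u : R) ∈ 𝔭.asIdeal}).Finite ∧
    ∑ᶠ 𝔭 ∈ D.fibre hR hint 𝔮, multiplicity 𝔭.asIdeal (Ideal.span {(u : R)}) =
      multiplicity 𝔮.asIdeal (Ideal.span {D.res u})

/-- **semi-local rings**: a function `f = a₀ / b₀` (`b₀` with nonzero reduction) which is regular at
all integral points reducing to `𝔮` can be written `a / b` with `res b` not vanishing at `𝔮`. -/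
def ModelData.SemiLocal (F : Type*) [Field F] [Algebra R F] [IsFractionRing R F] : Prop :=
  ∀ (f : F) (𝔮 : HeightOneSpectrum Rb),
    (∃ a₀ b₀ : D.𝓡, D.res b₀ ≠ 0 ∧ f * algebraMap R F b₀ = algebraMap R F a₀) →
    (∀ 𝔭 ∈ D.fibre hR hint 𝔮, 𝔭.valuation F f ≤ 1) →
    ∃ a b : D.𝓡, D.res b ∉ 𝔮.asIdeal ∧ f * algebraMap R F b = algebraMap R F a

/-- **lifting**: a function on the special fibre regular at finitely many points is `res a / res b`
with `res b` nonvanishing at these points. -/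
def ModelData.Lifting (Fb : Type*) [Field Fb] [Algebra Rb Fb] [IsFractionRing Rb Fb] : Prop :=
  ∀ (g : Fb) (Sig : Finset (HeightOneSpectrum Rb)), (∀ 𝔮 ∈ Sig, 𝔮.valuation Fb g ≤ 1) →
    ∃ a b : D.𝓡, (∀ 𝔮 ∈ Sig, D.res b ∉ 𝔮.asIdeal) ∧
      g * algebraMap Rb Fb (D.res b) = algebraMap Rb Fb (D.res a)

end Targets

end Fermat.Agent.Gateway.Red
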