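/-
helper64 (P-GATEWAY (c), RED block, package RED-D part 1): from a CONCRETE chart
(`F / K`, `Fk / k` function fields, `O` a valuation subring of `F` with residue map
`res : O →+* Fk`, chart coordinate `t ∈ O`) to the ABSTRACT `ModelData` of `Red/Model.lean`, with
`R := integralClosure K[t] F`, `Rb := integralClosure k[tb] Fk`, `𝓡 := R ∩ O`.
-/
import Fermat.Agent.Gateway.Red.Model
import Fermat.Agent.Gateway.GoodRed.PlacesIntegral
import Fermat.Agent.S24.PrincipalDiv

set_option autoImplicit false

noncomputable section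

namespace Fermat.Agent.Gateway.Red

open IsDedekindDomain Polynomial IntermediateField

section CoordinateRing

open scoped IntermediateField.algebraAdjoinAdjoin

variable {K F : Type*} [Field K] [Field F] [Algebra K F] (x : F)
  [FiniteDimensional K⟮x⟯ F] [Algebra.IsSeparable K⟮x⟯ F]

/-- the coordinate ring `integralClosure K[x] F` is a finite `K[x]`-module (any characteristic,
`F / K(x)` finite separable) -/
theorem finite_integralClosure_of_separable (hx : Transcendental K x) :
    Module.Finite (Algebra.adjoin K {x}) (integralClosure (Algebra.adjoin K {x}) F) := by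
  have := Fermat.Agent.S24.ZP.isPrincipalIdealRing_adjoin x hx
  exact IsIntegralClosure.finite (Algebra.adjoin K {x}) K⟮x⟯ F _

/-- the coordinate ring is a finitely generated `K`-algebra -/
theorem finiteType_integralClosure_of_separable (hx : Transcendental K x) :
    Algebra.FiniteType K (integralClosure (Algebra.adjoin K {x}) F) := by
  have h1 : Algebra.FiniteType K (Algebra.adjoin K {x}) := by
    rw [← Subalgebra.fg_iff_finiteType]
    exact Subalgebra.fg_adjoin_finset {x} |> fun h => by simpa using h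
  have h2 := finite_integralClosure_of_separable x hx
  have h3 : Algebra.FiniteType (Algebra.adjoin K {x})
      (integralClosure (Algebra.adjoin K {x}) F) := inferInstance
  exact Algebra.FiniteType.trans h1 h3

/-- all points of the chart are rational over an algebraically closed field -/
theorem allPointsRational_integralClosure [IsAlgClosed K] (hx : Transcendental K x)
    [IsDedekindDomain (integralClosure (Algebra.adjoin K {x}) F)] :
    AllPointsRational K (integralClosure (Algebra.adjoin K {x}) F) := by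
  intro 𝔭
  have := finiteType_integralClosure_of_separable x hx
  have : 𝔭.asIdeal.IsMaximal := 𝔭.isMaximal
  exact Fermat.Agent.S24.PD.bijective_algebraMap_quotient_of_isMaximal 𝔭.asIdeal

end CoordinateRing

/-- **Concrete chart input** (hypothesis style): a valuation subring `O` of the function field `F`
over `K` extending the valuation subring `A` of `K`, with residue map `res` onto the function field
`Fk` over `k = A / m_A`, and a chart coordinate `t ∈ O` whose reduction `tb` is not constant.
`(sc)`: reduction preserves integrality over the coordinate rings; `(eq)`: every function regular on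
the chart of the special fibre lifts; `(fg)`: the model chart ring is a finite `A[t]`-module. -/
structure ChartInput (K : Type*) [Field K] (A : ValuationSubring K) (k : Type*) [Field k]
    (F : Type*) [Field F] [Algebra K F] (Fk : Type*) [Field Fk] [Algebra k Fk] where
  /-- the residue map of `A` -/
  π : A →+* k
  π_surj : Function.Surjective π
  π_ker : ∀ a : A, π a = 0 ↔ a ∈ IsLocalRing.maximalIdeal A
  /-- the (Gauss) valuation ring of the model -/
  O : ValuationSubring F
  /-- reduction of functions -/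
  res : O →+* Fk
  res_ker : ∀ f : O, res f = 0 ↔ f ∈ IsLocalRing.maximalIdeal O
  algebraMap_mem : ∀ a : A, algebraMap K F (a : K) ∈ O
  res_algebraMap : ∀ a : A,
    res ⟨algebraMap K F (a : K), algebraMap_mem a⟩ = algebraMap k Fk (π a)
  /-- normalisation: every nonzero function is a constant times a function with nonzero
  reduction -/
  scal : ∀ f : F, f ≠ 0 → ∃ c : K, c ≠ 0 ∧ ∃ h : c • f ∈ O, res ⟨c • f, h⟩ ≠ 0
  /-- the chart coordinate -/
  t : F
  t_mem : t ∈ O
  t_transcendental : Transcendental K t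
  tb_transcendental : Transcendental k (res ⟨t, t_mem⟩)
  /-- (SC) reduction of a function regular on the chart is regular on the chart -/
  sc : ∀ f : O, IsIntegral (Algebra.adjoin K {t}) (f : F) →
    IsIntegral (Algebra.adjoin k {res ⟨t, t_mem⟩}) (res f)
  /-- (EQ) functions regular on the chart of the special fibre lift -/
  eq : ∀ g : Fk, IsIntegral (Algebra.adjoin k {res ⟨t, t_mem⟩}) g →
    ∃ f : O, IsIntegral (Algebra.adjoin K {t}) (f : F) ∧ res f = g
  /-- (FG) the chart ring of the model is a finitely generated `A[t]`-module -/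
  fg : ∃ s : Finset F, (∀ x ∈ s, x ∈ O ∧ IsIntegral (Algebra.adjoin K {t}) x) ∧
    ∀ f : F, f ∈ O → IsIntegral (Algebra.adjoin K {t}) f → ∃ p : F → Polynomial A,
      f = ∑ x ∈ s, aeval t ((p x).map (algebraMap A K)) * x

namespace ChartInput

variable {K : Type*} [Field K] {A : ValuationSubring K} {k : Type*} [Field k]
  {F : Type*} [Field F] [Algebra K F] {Fk : Type*} [Field Fk] [Algebra k Fk]
  (C : ChartInput K A k F Fk)

/-- the reduction of the chart coordinate -/
abbrev tb : Fk := C.res ⟨C.t, C.t_mem⟩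

/-- the coordinate ring of the chart of the generic fibre -/
abbrev R : Type _ := ↥(integralClosure ↥(Algebra.adjoin K {C.t}) F)

/-- the coordinate ring of the chart of the special fibre -/
abbrev Rb : Type _ := ↥(integralClosure ↥(Algebra.adjoin k {C.tb}) Fk)

theorem res_ne_zero_iff (f : C.O) : C.res f ≠ 0 ↔ IsUnit f := by
  rw [Ne, C.res_ker, IsLocalRing.mem_maximalIdeal, mem_nonunits_iff, not_not]

theorem inv_mem_of_res_ne_zero {f : F} (hf : f ∈ C.O) (h : C.res ⟨f, hf⟩ ≠ 0) : f⁻¹ ∈ C.O := by
  obtain ⟨u, hu⟩ := (C.res_ne_zero_iff _).mp h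
  have h1 : ((u : C.O) : F) = f := by rw [hu]
  have h2 : ((u : C.O) : F) * ((u⁻¹ : (C.O)ˣ) : F) = 1 := by
    rw [← MulMemClass.coe_mul, Units.mul_inv]; rfl
  rw [h1] at h2
  rw [inv_eq_of_mul_eq_one_right h2]
  exact SetLike.coe_mem _

/-- `O ∩ K = A` -/
theorem mem_of_algebraMap_mem {c : K} (hc : algebraMap K F c ∈ C.O) : c ∈ A := by
  by_contra hcA
  have hinv : c⁻¹ ∈ A := (A.mem_or_inv_mem c).resolve_left hcA
  have hc0 : c ≠ 0 := fun h => hcA (h ▸ A.zero_mem)
  have hnu : (⟨c⁻¹, hinv⟩ : A) ∈ IsLocalRing.maximalIdeal A := by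
    rw [IsLocalRing.mem_maximalIdeal, mem_nonunits_iff]
    intro hu
    apply hcA
    obtain ⟨u, hu⟩ := hu
    have h1 : ((u : A) : K) = c⁻¹ := by rw [hu]
    have h2 : ((u : A) : K) * ((u⁻¹ : Aˣ) : K) = 1 := by
      rw [← MulMemClass.coe_mul, Units.mul_inv]; rfl
    rw [h1] at h2
    have h3 : ((u⁻¹ : Aˣ) : K) = c := by
      rw [← inv_inv c]
      exact (inv_eq_of_mul_eq_one_right h2).symm
    rw [← h3]
    exact SetLike.coe_mem _
  have h0 : C.res ⟨algebraMap K F ((⟨c⁻¹, hinv⟩ : A) : K), C.algebraMap_mem _⟩ = 0 := by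
    rw [C.res_algebraMap, (C.π_ker _).mpr hnu, map_zero]
  rw [C.res_ker, IsLocalRing.mem_maximalIdeal, mem_nonunits_iff] at h0
  apply h0
  refine ⟨⟨⟨algebraMap K F c⁻¹, C.algebraMap_mem ⟨c⁻¹, hinv⟩⟩, ⟨algebraMap K F c, hc⟩, ?_, ?_⟩, rfl⟩
  · ext
    show algebraMap K F c⁻¹ * algebraMap K F c = 1
    rw [← map_mul, inv_mul_cancel₀ hc0, map_one]
  · ext
    show algebraMap K F c * algebraMap K F c⁻¹ = 1
    rw [← map_mul, mul_inv_cancel₀ hc0, map_one]

/-- `m_O ∩ K = m_A` -/
theorem mem_maximalIdeal_of_res_eq_zero {c : K} (hc : algebraMap K F c ∈ C.O)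
    (h : C.res ⟨algebraMap K F c, hc⟩ = 0) :
    ∃ hcA : c ∈ A, (⟨c, hcA⟩ : A) ∈ IsLocalRing.maximalIdeal A := by
  have hcA := C.mem_of_algebraMap_mem hc
  refine ⟨hcA, ?_⟩
  rw [← C.π_ker]
  have h1 := C.res_algebraMap ⟨c, hcA⟩
  have h2 : algebraMap k Fk (C.π ⟨c, hcA⟩) = 0 := by
    rw [← h1]
    exact h
  exact (map_eq_zero_iff _ (algebraMap k Fk).injective).mp h2

/-- the chart coordinate as an element of `R` -/
def tR : C.R :=
  ⟨C.t, isIntegral_algebraMap (x := (⟨C.t, Algebra.subset_adjoin rfl⟩ : Algebra.adjoin K {C.t}))⟩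

/-- the reduced chart coordinate as an element of `Rb` -/
def tbR : C.Rb :=
  ⟨C.tb,
    isIntegral_algebraMap (x := (⟨C.tb, Algebra.subset_adjoin rfl⟩ : Algebra.adjoin k {C.tb}))⟩

/-- functions regular on the chart of the model: `𝓡 = R ∩ O` -/
def modelRing : Subring C.R := C.O.toSubring.comap (algebraMap C.R F)

theorem mem_modelRing_iff (f : C.R) : f ∈ C.modelRing ↔ (f : F) ∈ C.O := Iff.rfl

/-- the inclusion `𝓡 → O` -/
def modelRingToO : C.modelRing →+* C.O :=
  ((algebraMap C.R F).comp C.modelRing.subtype).codRestrict C.O.toSubring fun f => f.2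

theorem coe_modelRingToO (f : C.modelRing) : ((C.modelRingToO f : C.O) : F) = ((f : C.R) : F) :=
  rfl

/-- reduction of functions regular on the chart of the model -/
def resModel : C.modelRing →+* C.Rb :=
  (C.res.comp C.modelRingToO).codRestrict (integralClosure ↥(Algebra.adjoin k {C.tb}) Fk)
    fun f => C.sc (C.modelRingToO f) (f : C.R).2

theorem coe_resModel (f : C.modelRing) :
    ((C.resModel f : C.Rb) : Fk) = C.res (C.modelRingToO f) := rfl

theorem resModel_eq_zero_iff (f : C.modelRing) : C.resModel f = 0 ↔ C.res (C.modelRingToO f) = 0 := by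
  rw [← C.coe_resModel]
  exact ⟨fun h => by rw [h]; rfl, fun h => Subtype.ext h⟩

theorem coe_algebraMap_R (c : K) : ((algebraMap K C.R c : C.R) : F) = algebraMap K F c := rfl

theorem coe_algebraMap_Rb (c : k) : ((algebraMap k C.Rb c : C.Rb) : Fk) = algebraMap k Fk c := rfl

theorem coe_smul_R (c : K) (f : C.R) : ((c • f : C.R) : F) = c • (f : F) := rfl

theorem algebraMap_mem_modelRing (a : A) : algebraMap K C.R (a : K) ∈ C.modelRing :=
  C.algebraMap_mem a

theorem resModel_surjective : Function.Surjective C.resModel := by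
  intro g
  obtain ⟨f, hf, hfg⟩ := C.eq (g : Fk) g.2
  refine ⟨⟨⟨(f : F), hf⟩, f.2⟩, ?_⟩
  apply Subtype.ext
  rw [coe_resModel, ← hfg]
  rfl

theorem resModel_algebraMap (a : A) :
    C.resModel ⟨algebraMap K C.R (a : K), C.algebraMap_mem_modelRing a⟩ =
      algebraMap k C.Rb (C.π a) := by
  apply Subtype.ext
  rw [coe_resModel, coe_algebraMap_Rb, ← C.res_algebraMap]
  rfl

theorem resModel_ker (f : C.modelRing) (hf : C.resModel f = 0) :
    ∃ (c : A) (g : C.modelRing), c ∈ IsLocalRing.maximalIdeal A ∧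
      (f : C.R) = (c : K) • (g : C.R) := by
  rcases eq_or_ne ((f : C.R) : F) 0 with h0 | h0
  · refine ⟨0, 0, Ideal.zero_mem _, ?_⟩
    apply Subtype.ext
    rw [h0]
    simp
  · obtain ⟨c', hc'0, hmem, hres⟩ := C.scal _ h0
    have hfO : ((f : C.R) : F) ∈ C.O := f.2
    have hinv : (c' • ((f : C.R) : F))⁻¹ ∈ C.O := C.inv_mem_of_res_ne_zero hmem hres
    have hcF : algebraMap K F c'⁻¹ = ((f : C.R) : F) * (c' • ((f : C.R) : F))⁻¹ := by
      rw [Algebra.smul_def, mul_inv, ← mul_assoc, mul_comm ((f : C.R) : F), mul_assoc,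
        mul_inv_cancel₀ h0, mul_one, map_inv₀]
    have hcO : algebraMap K F c'⁻¹ ∈ C.O := by
      rw [hcF]
      exact C.O.mul_mem _ _ hfO hinv
    have hres0 : C.res ⟨algebraMap K F c'⁻¹, hcO⟩ = 0 := by
      have h1 : (⟨algebraMap K F c'⁻¹, hcO⟩ : C.O) =
          C.modelRingToO f * ⟨(c' • ((f : C.R) : F))⁻¹, hinv⟩ := Subtype.ext hcF
      rw [h1, map_mul, (C.resModel_eq_zero_iff f).mp hf, zero_mul]
    obtain ⟨hcA, hcm⟩ := C.mem_maximalIdeal_of_res_eq_zero hcO hres0
    refine ⟨⟨c'⁻¹, hcA⟩, ⟨c' • (f : C.R), hmem⟩, hcm, ?_⟩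
    show (f : C.R) = c'⁻¹ • (c' • (f : C.R))
    rw [smul_smul, inv_mul_cancel₀ hc'0, one_smul]

theorem modelRing_span (f : C.R) : ∃ c : K, c ≠ 0 ∧ c • f ∈ C.modelRing := by
  rcases eq_or_ne (f : F) 0 with h0 | h0
  · refine ⟨1, one_ne_zero, ?_⟩
    rw [one_smul, mem_modelRing_iff, h0]
    exact C.O.zero_mem
  · obtain ⟨c, hc0, hmem, -⟩ := C.scal _ h0
    exact ⟨c, hc0, hmem⟩

theorem modelRing_mem_of_mul_mem (u : C.modelRing) (hu : C.resModel u ≠ 0) (h : C.R)
    (huh : (u : C.R) * h ∈ C.modelRing) : h ∈ C.modelRing := by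
  have hu' : C.res (C.modelRingToO u) ≠ 0 := fun h0 => hu ((C.resModel_eq_zero_iff u).mpr h0)
  have hinv : (((u : C.R) : F))⁻¹ ∈ C.O := C.inv_mem_of_res_ne_zero u.2 hu'
  have hu0 : ((u : C.R) : F) ≠ 0 := by
    intro h0
    apply hu'
    have : C.modelRingToO u = 0 := Subtype.ext h0
    rw [this, map_zero]
  have h1 : (h : F) = (((u : C.R) : F))⁻¹ * (((u : C.R) * h : C.R) : F) := by
    show (h : F) = (((u : C.R) : F))⁻¹ * (((u : C.R) : F) * (h : F))
    rw [← mul_assoc, inv_mul_cancel₀ hu0, one_mul]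
  rw [mem_modelRing_iff, h1]
  exact C.O.mul_mem _ _ hinv huh

theorem resModel_tR_ne (c : k) : C.resModel ⟨C.tR, C.t_mem⟩ ≠ algebraMap k C.Rb c := by
  intro h
  have h1 := congrArg (fun x : C.Rb => (x : Fk)) h
  simp only [coe_resModel, coe_algebraMap_Rb] at h1
  have h2 : C.tb = algebraMap k Fk c := h1
  have h3 : IsAlgebraic k C.tb := by
    rw [h2]
    exact isAlgebraic_algebraMap c
  exact C.tb_transcendental h3

theorem coe_aeval_tR (q : K[X]) : ((aeval C.tR q : C.R) : F) = aeval C.t q := by
  have h := Polynomial.aeval_algebraMap_apply (A := C.R) F C.tR q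
  exact h.symm

theorem modelRing_fg : ∃ s : Finset C.R, (∀ x ∈ s, x ∈ C.modelRing) ∧
    ∀ f ∈ C.modelRing, ∃ p : C.R → Polynomial A,
      f = ∑ x ∈ s, aeval C.tR ((p x).map (algebraMap A K)) * x := by
  classical
  obtain ⟨s₀, hs₀, hgen⟩ := C.fg
  refine ⟨s₀.subtype (· ∈ integralClosure ↥(Algebra.adjoin K {C.t}) F), ?_, ?_⟩
  · intro x hx
    rw [Finset.mem_subtype] at hx
    exact (hs₀ _ hx).1
  · intro f hf
    obtain ⟨p₀, hp₀⟩ := hgen (f : F) hf f.2
    refine ⟨fun x => p₀ (x : F), ?_⟩
    apply Subtype.ext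
    rw [hp₀, AddSubmonoidClass.coe_finsetSum]
    have h1 : ∀ i ∈ s₀.subtype (· ∈ integralClosure ↥(Algebra.adjoin K {C.t}) F),
        ((aeval C.tR ((p₀ (i : F)).map (algebraMap A K)) * i : C.R) : F) =
          (fun x : F => aeval C.t ((p₀ x).map (algebraMap A K)) * x) (i : F) := by
      intro i _
      rw [MulMemClass.coe_mul, coe_aeval_tR]
    rw [Finset.sum_congr rfl h1]
    exact (Finset.sum_subtype_of_mem
      (p := fun x => x ∈ integralClosure ↥(Algebra.adjoin K {C.t}) F)
      (fun x : F => aeval C.t ((p₀ x).map (algebraMap A K)) * x)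
      (fun x hx => (hs₀ x hx).2)).symm

/-- **The abstract model attached to a concrete chart.** -/
def modelData : ModelData K A k C.R C.Rb where
  π := C.π
  π_surj := C.π_surj
  π_ker := C.π_ker
  𝓡 := C.modelRing
  algebraMap_mem := C.algebraMap_mem_modelRing
  t := C.tR
  t_mem := C.t_mem
  res := C.resModel
  res_surj := C.resModel_surjective
  res_algebraMap := C.resModel_algebraMap
  res_ker := C.resModel_ker
  span := C.modelRing_span
  mem_of_mul_mem := C.modelRing_mem_of_mul_mem
  res_t_ne := C.resModel_tR_ne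
  fg := C.modelRing_fg

section Instances

open Fermat.Agent.Gateway.GoodRed.PlacesIntegral

/-- the chart ring of the generic fibre is a Dedekind domain -/
instance isDedekindDomain_R [FiniteDimensional K⟮C.t⟯ F] [Algebra.IsSeparable K⟮C.t⟯ F] :
    IsDedekindDomain C.R :=
  isDedekindDomain_integralClosure_of_separable C.t C.t_transcendental

instance isFractionRing_R [FiniteDimensional K⟮C.t⟯ F] : IsFractionRing C.R F :=
  isFractionRing_integralClosure_of_finite (k := K) (E := F) C.t

/-- the chart ring of the special fibre is a Dedekind domain -/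
instance isDedekindDomain_Rb [FiniteDimensional k⟮C.tb⟯ Fk] [Algebra.IsSeparable k⟮C.tb⟯ Fk] :
    IsDedekindDomain C.Rb :=
  isDedekindDomain_integralClosure_of_separable C.tb C.tb_transcendental

instance isFractionRing_Rb [FiniteDimensional k⟮C.tb⟯ Fk] : IsFractionRing C.Rb Fk :=
  isFractionRing_integralClosure_of_finite (k := k) (E := Fk) C.tb

/-- all points of the chart of the generic fibre are rational -/
theorem allPointsRational_R [IsAlgClosed K] [FiniteDimensional K⟮C.t⟯ F]
    [Algebra.IsSeparable K⟮C.t⟯ F] : AllPointsRational K C.R :=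
  allPointsRational_integralClosure C.t C.t_transcendental

/-- all points of the chart of the special fibre are rational -/
theorem allPointsRational_Rb [IsAlgClosed k] [FiniteDimensional k⟮C.tb⟯ Fk]
    [Algebra.IsSeparable k⟮C.tb⟯ Fk] : AllPointsRational k C.Rb :=
  allPointsRational_integralClosure C.tb C.tb_transcendental

end Instances

end ChartInput

end Fermat.Agent.Gateway.Red
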