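/-
helper64 (P-GATEWAY (c), RED block, package RED-D part 2): the chart theorems of `Red/Model.lean`
in the Prelude `Place` language, for the concrete chart `ChartInput` of `Red/ChartModel.lean`.
-/
import Fermat.Agent.Gateway.Red.ChartModel
import Fermat.Agent.S24.PlacesDedekind

set_option autoImplicit false
set_option linter.unusedSectionVars false

noncomputable section

namespace Fermat.Agent.Gateway.Red

open IsDedekindDomain Polynomial IntermediateField AlgebraicCurve
open Fermat.Agent.S24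

section Value

variable {K F : Type*} [Field K] [Field F] [Algebra K F]

/-- `f(P) = c`: the function `f` is regular at the place `P` with value `c`. -/
def HasValue (P : Place K F) (f : F) (c : K) : Prop :=
  f - algebraMap K F c ∈ P.toValuationSubring.nonunits

variable {P : Place K F} {f g : F} {c d : K}

theorem nonunits_mem {x : F} (h : x ∈ P.toValuationSubring.nonunits) :
    x ∈ P.toValuationSubring := by
  rw [ValuationSubring.mem_nonunits_iff_exists_mem_maximalIdeal] at h
  exact h.1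

theorem nonunits_mul_mem {O : ValuationSubring F} {x y : F} (hx : x ∈ O) (hy : y ∈ O.nonunits) :
    x * y ∈ O.nonunits := by
  rw [ValuationSubring.mem_nonunits_iff_exists_mem_maximalIdeal] at hy ⊢
  obtain ⟨hy, hym⟩ := hy
  exact ⟨O.mul_mem _ _ hx hy, Ideal.mul_mem_left _ ⟨x, hx⟩ hym⟩

theorem HasValue.mem (h : HasValue P f c) : f ∈ P.toValuationSubring := by
  have h1 : f = (f - algebraMap K F c) + algebraMap K F c := by ring
  rw [h1]
  exact P.toValuationSubring.add_mem _ _ (nonunits_mem h) (P.algebraMap_mem' c)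

/-- `HasValue` in terms of the residue map -/
theorem hasValue_iff : HasValue P f c ↔ ∃ hf : f ∈ P.toValuationSubring,
    IsLocalRing.residue P.toValuationSubring ⟨f, hf⟩ =
      IsLocalRing.residue P.toValuationSubring (algebraMap K P.toValuationSubring c) := by
  constructor
  · intro h
    refine ⟨h.mem, ?_⟩
    rw [← sub_eq_zero, ← map_sub, IsLocalRing.residue_eq_zero_iff,
      ← ValuationSubring.coe_mem_nonunits_iff]
    exact h
  · rintro ⟨hf, h⟩
    rw [← sub_eq_zero, ← map_sub, IsLocalRing.residue_eq_zero_iff,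
      ← ValuationSubring.coe_mem_nonunits_iff] at h
    exact h

theorem hasValue_algebraMap (P : Place K F) (c : K) : HasValue P (algebraMap K F c) c := by
  rw [HasValue, sub_self]
  exact P.toValuationSubring.nonunits.zero_mem

theorem hasValue_zero_iff : HasValue P f 0 ↔ f ∈ P.toValuationSubring.nonunits := by
  rw [HasValue, map_zero, sub_zero]

theorem HasValue.add (hf : HasValue P f c) (hg : HasValue P g d) : HasValue P (f + g) (c + d) := by
  rw [hasValue_iff] at hf hg ⊢
  obtain ⟨hf, hf'⟩ := hf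
  obtain ⟨hg, hg'⟩ := hg
  refine ⟨P.toValuationSubring.add_mem _ _ hf hg, ?_⟩
  have : (⟨f + g, P.toValuationSubring.add_mem _ _ hf hg⟩ : P.toValuationSubring) =
      ⟨f, hf⟩ + ⟨g, hg⟩ := rfl
  rw [this, map_add, map_add, map_add, hf', hg']

theorem HasValue.mul (hf : HasValue P f c) (hg : HasValue P g d) : HasValue P (f * g) (c * d) := by
  rw [hasValue_iff] at hf hg ⊢
  obtain ⟨hf, hf'⟩ := hf
  obtain ⟨hg, hg'⟩ := hg
  refine ⟨P.toValuationSubring.mul_mem _ _ hf hg, ?_⟩
  have : (⟨f * g, P.toValuationSubring.mul_mem _ _ hf hg⟩ : P.toValuationSubring) =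
      ⟨f, hf⟩ * ⟨g, hg⟩ := rfl
  rw [this, map_mul, map_mul, map_mul, hf', hg']

theorem HasValue.neg (hf : HasValue P f c) : HasValue P (-f) (-c) := by
  have h := (hasValue_algebraMap P (-1 : K)).mul hf
  simpa using h

theorem HasValue.sub (hf : HasValue P f c) (hg : HasValue P g d) : HasValue P (f - g) (c - d) := by
  rw [sub_eq_add_neg, sub_eq_add_neg]
  exact hf.add hg.neg

/-- the value is unique -/
theorem HasValue.unique (h1 : HasValue P f c) (h2 : HasValue P f d) : c = d := by
  by_contra hne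
  have h3 : HasValue P 0 (c - d) := by
    have := h1.sub h2
    rwa [sub_self] at this
  rw [HasValue, zero_sub] at h3
  have hcd : c - d ≠ 0 := sub_ne_zero.mpr hne
  have h4 : (algebraMap K F (c - d))⁻¹ ∈ P.toValuationSubring := by
    rw [← map_inv₀]
    exact P.algebraMap_mem' _
  have h5 : -algebraMap K F (c - d) ≠ 0 := by
    rw [neg_ne_zero]
    exact (map_ne_zero (algebraMap K F)).mpr hcd
  rw [ValuationSubring.mem_nonunits_iff_or] at h3
  rcases h3 with h3 | h3
  · exact h5 h3
  · apply h3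
    rw [inv_neg]
    exact P.toValuationSubring.neg_mem _ h4

/-- nonvanishing value means unit -/
theorem HasValue.inv_mem (hf : HasValue P f c) (hc : c ≠ 0) : f⁻¹ ∈ P.toValuationSubring := by
  by_contra hinv
  have hfn : f ∈ P.toValuationSubring.nonunits := by
    rw [ValuationSubring.mem_nonunits_iff_or]
    exact Or.inr hinv
  have h0 : HasValue P f 0 := hasValue_zero_iff.mpr hfn
  exact hc (hf.unique h0)

theorem HasValue.inv (hf : HasValue P f c) (hc : c ≠ 0) : HasValue P f⁻¹ c⁻¹ := by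
  have hinv := hf.inv_mem hc
  have hf0 : f ≠ 0 := by
    rintro rfl
    exact hc (hf.unique (by simpa using hasValue_algebraMap P (0 : K)))
  have hc0 : algebraMap K F c ≠ 0 := by simpa using hc
  -- `f⁻¹ - c⁻¹ = - f⁻¹ c⁻¹ (f - c)`
  have h1 : f⁻¹ - algebraMap K F c⁻¹ =
      (-(f⁻¹ * algebraMap K F c⁻¹)) * (f - algebraMap K F c) := by
    rw [map_inv₀]
    field_simp
    ring
  rw [HasValue, h1]
  have hmem : -(f⁻¹ * algebraMap K F c⁻¹) ∈ P.toValuationSubring :=
    P.toValuationSubring.neg_mem _ (P.toValuationSubring.mul_mem _ _ hinv (P.algebraMap_mem' _))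
  exact nonunits_mul_mem hmem hf

theorem HasValue.div (hf : HasValue P f c) (hg : HasValue P g d) (hd : d ≠ 0) :
    HasValue P (f / g) (c / d) := by
  rw [div_eq_mul_inv, div_eq_mul_inv]
  exact hf.mul (hg.inv hd)

end Value

section ChartRing

variable {K F : Type*} [Field K] [Field F] [Algebra K F] (x : F)
  [IsDedekindDomain ↥(integralClosure ↥(Algebra.adjoin K {x}) F)]
  [IsFractionRing ↥(integralClosure ↥(Algebra.adjoin K {x}) F) F]

/-- the prime of the chart ring `integralClosure K[x] F` cut out by a place at which `x` is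
regular -/
def chartPrime (P : Place K F) (hP : x ∈ P.toValuationSubring) :
    HeightOneSpectrum ↥(integralClosure ↥(Algebra.adjoin K {x}) F) :=
  PD.primeOfPlace P (ZP.integralClosure_le_place x P hP)

/-- the place of a prime of the chart ring -/
def chartPlace (𝔭 : HeightOneSpectrum ↥(integralClosure ↥(Algebra.adjoin K {x}) F)) :
    Place K F :=
  PD.placeOfPrime 𝔭

theorem chartPlace_chartPrime (P : Place K F) (hP : x ∈ P.toValuationSubring) :
    chartPlace x (chartPrime x P hP) = P :=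
  PD.placeOfPrime_primeOfPlace P _

theorem coe_mem_chartPlace (𝔭 : HeightOneSpectrum ↥(integralClosure ↥(Algebra.adjoin K {x}) F))
    (b : ↥(integralClosure ↥(Algebra.adjoin K {x}) F)) :
    (b : F) ∈ (chartPlace (K := K) x 𝔭).toValuationSubring :=
  PD.algebraMap_mem_placeOfPrime 𝔭 b

theorem x_mem_chartPlace (𝔭 : HeightOneSpectrum ↥(integralClosure ↥(Algebra.adjoin K {x}) F)) :
    x ∈ (chartPlace (K := K) x 𝔭).toValuationSubring :=
  coe_mem_chartPlace x 𝔭 ⟨x, isIntegral_algebraMap
    (x := (⟨x, Algebra.subset_adjoin rfl⟩ : Algebra.adjoin K {x}))⟩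

theorem chartPrime_chartPlace
    (𝔭 : HeightOneSpectrum ↥(integralClosure ↥(Algebra.adjoin K {x}) F)) :
    chartPrime x (chartPlace (K := K) x 𝔭) (x_mem_chartPlace x 𝔭) = 𝔭 :=
  PD.primeOfPlace_placeOfPrime 𝔭 _

theorem chartPlace_injective : Function.Injective (chartPlace (K := K) (F := F) x) := by
  intro 𝔭 𝔭' h
  rw [← chartPrime_chartPlace x 𝔭, ← chartPrime_chartPlace x 𝔭']
  congr 1

theorem mem_chartPrime_iff (P : Place K F) (hP : x ∈ P.toValuationSubring)
    (b : ↥(integralClosure ↥(Algebra.adjoin K {x}) F)) :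
    b ∈ (chartPrime x P hP).asIdeal ↔ (b : F) ∈ P.toValuationSubring.nonunits := by
  refine Iff.trans (PD.mem_primeOfPlace_iff P _ b) ?_
  exact (ValuationSubring.coe_mem_nonunits_iff (A := P.toValuationSubring)
    (a := ⟨(b : F), ZP.integralClosure_le_place x P hP b⟩)).symm

theorem mem_asIdeal_iff (𝔭 : HeightOneSpectrum ↥(integralClosure ↥(Algebra.adjoin K {x}) F))
    (b : ↥(integralClosure ↥(Algebra.adjoin K {x}) F)) :
    b ∈ 𝔭.asIdeal ↔ (b : F) ∈ (chartPlace (K := K) x 𝔭).toValuationSubring.nonunits := by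
  rw [← mem_chartPrime_iff x _ (x_mem_chartPlace x 𝔭), chartPrime_chartPlace]

theorem mem_chartPlace_iff (𝔭 : HeightOneSpectrum ↥(integralClosure ↥(Algebra.adjoin K {x}) F))
    (f : F) : f ∈ (chartPlace (K := K) x 𝔭).toValuationSubring ↔ 𝔭.valuation F f ≤ 1 :=
  Iff.rfl

theorem chartPlace_ord_coe (𝔭 : HeightOneSpectrum ↥(integralClosure ↥(Algebra.adjoin K {x}) F))
    {b : ↥(integralClosure ↥(Algebra.adjoin K {x}) F)} (hb : b ≠ 0) :
    (chartPlace (K := K) x 𝔭).ord (b : F) = (multiplicity 𝔭.asIdeal (Ideal.span {b}) : ℤ) :=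
  PD.placeOfPrime_ord_algebraMap 𝔭 hb

variable (hR : AllPointsRational K ↥(integralClosure ↥(Algebra.adjoin K {x}) F))

theorem ev_eq_iff (𝔭 : HeightOneSpectrum ↥(integralClosure ↥(Algebra.adjoin K {x}) F))
    (b : ↥(integralClosure ↥(Algebra.adjoin K {x}) F)) (c : K) :
    ev hR 𝔭 b = c ↔ HasValue (chartPlace (K := K) x 𝔭) (b : F) c := by
  rw [HasValue]
  have h1 : (b : F) - algebraMap K F c =
      ((b - algebraMap K ↥(integralClosure ↥(Algebra.adjoin K {x}) F) c :
        ↥(integralClosure ↥(Algebra.adjoin K {x}) F)) : F) := rfl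
  rw [h1, ← mem_asIdeal_iff, ← ev_eq_zero_iff hR, map_sub, ev_algebraMap, sub_eq_zero]

theorem hasValue_ev (𝔭 : HeightOneSpectrum ↥(integralClosure ↥(Algebra.adjoin K {x}) F))
    (b : ↥(integralClosure ↥(Algebra.adjoin K {x}) F)) :
    HasValue (chartPlace (K := K) x 𝔭) (b : F) (ev hR 𝔭 b) :=
  (ev_eq_iff x hR 𝔭 b _).mp rfl

end ChartRing

namespace ChartInput

variable {K : Type*} [Field K] {A : ValuationSubring K} {k : Type*} [Field k]
  {F : Type*} [Field F] [Algebra K F] {Fk : Type*} [Field Fk] [Algebra k Fk]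
  (C : ChartInput K A k F Fk)

/-- the place `P` lies on the chart and its coordinate is integral: `t(P) ∈ A` -/
def IsIntegralPlace (P : Place K F) : Prop := ∃ a : A, HasValue P C.t (a : K)

variable {C} in
theorem IsIntegralPlace.t_mem {P : Place K F} (h : C.IsIntegralPlace P) :
    C.t ∈ P.toValuationSubring := by
  obtain ⟨a, ha⟩ := h
  exact ha.mem

variable [IsAlgClosed K] [FiniteDimensional K⟮C.t⟯ F] [Algebra.IsSeparable K⟮C.t⟯ F]
  [IsAlgClosed k] [FiniteDimensional k⟮C.tb⟯ Fk] [Algebra.IsSeparable k⟮C.tb⟯ Fk]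

/-- the prime of the chart ring attached to an integral place -/
def primeOf (P : Place K F) (hP : C.IsIntegralPlace P) : HeightOneSpectrum C.R :=
  chartPrime C.t P hP.t_mem

theorem chartPlace_primeOf (P : Place K F) (hP : C.IsIntegralPlace P) :
    chartPlace C.t (C.primeOf P hP) = P :=
  chartPlace_chartPrime C.t P hP.t_mem

theorem isIntegralPt_primeOf (P : Place K F) (hP : C.IsIntegralPlace P) :
    C.modelData.IsIntegralPt C.allPointsRational_R (C.primeOf P hP) := by
  obtain ⟨a, ha⟩ := id hP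
  have h1 : ev C.allPointsRational_R (C.primeOf P hP) C.tR = (a : K) := by
    rw [ev_eq_iff, chartPlace_primeOf]
    exact ha
  show ev C.allPointsRational_R (C.primeOf P hP) C.tR ∈ A
  rw [h1]
  exact a.2

theorem isIntegralPlace_chartPlace {𝔭 : HeightOneSpectrum C.R}
    (h : C.modelData.IsIntegralPt C.allPointsRational_R 𝔭) :
    C.IsIntegralPlace (chartPlace C.t 𝔭) :=
  ⟨⟨ev C.allPointsRational_R 𝔭 C.tR, h⟩, hasValue_ev C.t C.allPointsRational_R 𝔭 C.tR⟩

theorem primeOf_chartPlace {𝔭 : HeightOneSpectrum C.R}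
    (h : C.IsIntegralPlace (chartPlace C.t 𝔭)) : C.primeOf (chartPlace C.t 𝔭) h = 𝔭 :=
  chartPrime_chartPlace C.t 𝔭

variable (hint : C.modelData.IntegralValues C.allPointsRational_R)

/-- **the reduction of an integral place of the chart** -/
def placeRed (P : Place K F) (hP : C.IsIntegralPlace P) : Place k Fk :=
  chartPlace C.tb (C.modelData.redPrime C.allPointsRational_R hint (C.primeOf P hP)
    (C.isIntegralPt_primeOf P hP))

theorem tb_mem_placeRed (P : Place K F) (hP : C.IsIntegralPlace P) :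
    C.tb ∈ (C.placeRed hint P hP).toValuationSubring :=
  x_mem_chartPlace C.tb _

/-- an element of `O` regular on the chart, as an element of the model ring -/
def toModelRing (f : C.O) (hf : IsIntegral (Algebra.adjoin K {C.t}) (f : F)) : C.modelData.𝓡 :=
  ⟨⟨(f : F), hf⟩, f.2⟩

theorem coe_res_toModelRing (f : C.O) (hf : IsIntegral (Algebra.adjoin K {C.t}) (f : F)) :
    ((C.modelData.res (C.toModelRing f hf) : C.Rb) : Fk) = C.res f := rfl

/-- **value compatibility**: `(res f)(red P) = π (f(P))` for `f` regular on the chart of the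
model. -/
theorem hasValue_placeRed (P : Place K F) (hP : C.IsIntegralPlace P) (f : C.O)
    (hf : IsIntegral (Algebra.adjoin K {C.t}) (f : F)) (a : A) (h : HasValue P (f : F) (a : K)) :
    HasValue (C.placeRed hint P hP) (C.res f) (C.π a) := by
  set D := C.modelData with hD
  set 𝔭 := C.primeOf P hP with h𝔭
  have h𝔭i := C.isIntegralPt_primeOf P hP
  have hev : ev C.allPointsRational_R 𝔭 ((C.toModelRing f hf : D.𝓡) : C.R) = (a : K) := by
    rw [ev_eq_iff, h𝔭, chartPlace_primeOf]
    exact h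
  have hmem : D.res (C.toModelRing f hf) - algebraMap k C.Rb (C.π a) ∈
      (D.redPrime C.allPointsRational_R hint 𝔭 h𝔭i).asIdeal := by
    rw [D.mem_redPrime_iff, map_sub, D.chiBar_res, D.chiBar_algebraMap, sub_eq_zero]
    congr 1
    exact Subtype.ext hev
  rw [mem_asIdeal_iff C.tb] at hmem
  exact hmem

/-- **uniqueness of the reduction**: a place of the special fibre on the chart which is value
compatible with `P` is the reduction of `P`. -/
theorem eq_placeRed (P : Place K F) (hP : C.IsIntegralPlace P) (Q : Place k Fk)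
    (hQ : C.tb ∈ Q.toValuationSubring)
    (h : ∀ (f : C.O), IsIntegral (Algebra.adjoin K {C.t}) (f : F) → ∀ a : A,
      HasValue P (f : F) (a : K) → HasValue Q (C.res f) (C.π a)) :
    Q = C.placeRed hint P hP := by
  set D := C.modelData with hD
  set 𝔭 := C.primeOf P hP with h𝔭
  have h𝔭i := C.isIntegralPt_primeOf P hP
  have hle : (D.redPrime C.allPointsRational_R hint 𝔭 h𝔭i).asIdeal ≤
      (chartPrime C.tb Q hQ).asIdeal := by
    intro g hg
    obtain ⟨f, rfl⟩ := D.res_surj g
    rw [D.mem_redPrime_iff, D.chiBar_res] at hg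
    have h1 := h ⟨((f : C.R) : F), f.2⟩ (f : C.R).2
      ⟨ev C.allPointsRational_R 𝔭 (f : C.R), hint 𝔭 h𝔭i f f.2⟩ (by
        have := hasValue_ev C.t C.allPointsRational_R 𝔭 (f : C.R)
        rwa [h𝔭, chartPlace_primeOf] at this)
    have hg' : C.π ⟨ev C.allPointsRational_R 𝔭 (f : C.R), hint 𝔭 h𝔭i f f.2⟩ = 0 := hg
    rw [hg', hasValue_zero_iff] at h1
    rw [mem_chartPrime_iff]
    exact h1
  have hmax : (D.redPrime C.allPointsRational_R hint 𝔭 h𝔭i).asIdeal.IsMaximal :=
    (D.redPrime C.allPointsRational_R hint 𝔭 h𝔭i).isMaximal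
  have hne : (chartPrime C.tb Q hQ).asIdeal ≠ ⊤ := (chartPrime C.tb Q hQ).isPrime.ne_top
  have heq : D.redPrime C.allPointsRational_R hint 𝔭 h𝔭i = chartPrime C.tb Q hQ :=
    HeightOneSpectrum.ext (hmax.eq_of_le hne hle)
  rw [placeRed, heq, chartPlace_chartPrime]

/-- the fibre of the reduction map of the chart over a place of the special fibre -/
def fibre (Q : Place k Fk) : Set (Place K F) :=
  {P | ∃ hP : C.IsIntegralPlace P, C.placeRed hint P hP = Q}

theorem redPrime_congr {𝔭 𝔭' : HeightOneSpectrum C.R} (h : 𝔭 = 𝔭')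
    (h1 : C.modelData.IsIntegralPt C.allPointsRational_R 𝔭)
    (h2 : C.modelData.IsIntegralPt C.allPointsRational_R 𝔭') :
    C.modelData.redPrime C.allPointsRational_R hint 𝔭 h1 =
      C.modelData.redPrime C.allPointsRational_R hint 𝔭' h2 := by
  subst h
  rfl

theorem placeRed_chartPlace {𝔭 : HeightOneSpectrum C.R}
    (h : C.modelData.IsIntegralPt C.allPointsRational_R 𝔭)
    (hP : C.IsIntegralPlace (chartPlace C.t 𝔭)) :
    C.placeRed hint (chartPlace C.t 𝔭) hP =
      chartPlace C.tb (C.modelData.redPrime C.allPointsRational_R hint 𝔭 h) := by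
  rw [placeRed]
  congr 1
  exact C.redPrime_congr hint (C.primeOf_chartPlace hP) _ _

/-- the fibre in terms of the abstract model -/
theorem fibre_chartPlace (𝔮 : HeightOneSpectrum C.Rb) :
    C.fibre hint (chartPlace C.tb 𝔮) =
      chartPlace C.t '' (C.modelData.fibre C.allPointsRational_R hint 𝔮) := by
  ext P
  constructor
  · rintro ⟨hP, hPQ⟩
    refine ⟨C.primeOf P hP, ⟨C.isIntegralPt_primeOf P hP, ?_⟩, C.chartPlace_primeOf P hP⟩
    exact chartPlace_injective C.tb hPQ
  · rintro ⟨𝔭, ⟨h, h𝔮⟩, rfl⟩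
    refine ⟨C.isIntegralPlace_chartPlace h, ?_⟩
    rw [C.placeRed_chartPlace hint h, h𝔮]

theorem coe_ne_zero_of_res_ne_zero (u : C.modelData.𝓡) (hu : C.modelData.res u ≠ 0) :
    (u : C.R) ≠ 0 := by
  intro h0
  apply hu
  have : u = 0 := Subtype.ext h0
  rw [this, map_zero]

variable (hcount : C.modelData.Count C.allPointsRational_R hint)

include hcount in
/-- conservation of number for functions of the model ring, in the language of places -/
theorem count_modelRing (u : C.modelData.𝓡) (hu : C.modelData.res u ≠ 0)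
    (𝔮 : HeightOneSpectrum C.Rb) :
    (C.fibre hint (chartPlace C.tb 𝔮) ∩ {P | P.ord (((u : C.R) : F)) ≠ 0}).Finite ∧
      ∑ᶠ P ∈ C.fibre hint (chartPlace C.tb 𝔮), P.ord (((u : C.R) : F)) =
        (chartPlace (K := k) C.tb 𝔮).ord ((C.modelData.res u : C.Rb) : Fk) := by
  obtain ⟨hfin, hsum⟩ := hcount u hu 𝔮
  have hu0 : (u : C.R) ≠ 0 := C.coe_ne_zero_of_res_ne_zero u hu
  rw [C.fibre_chartPlace hint 𝔮]
  have hsupp : ∀ 𝔭 : HeightOneSpectrum C.R,
      (chartPlace (K := K) C.t 𝔭).ord (((u : C.R) : F)) ≠ 0 → (u : C.R) ∈ 𝔭.asIdeal := by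
    intro 𝔭 h
    rw [chartPlace_ord_coe C.t 𝔭 hu0] at h
    have h1 : multiplicity 𝔭.asIdeal (Ideal.span {(u : C.R)}) ≠ 0 := by exact_mod_cast h
    rw [multiplicity_ne_zero, Ideal.dvd_span_singleton] at h1
    exact h1
  constructor
  · refine ((hfin.image (chartPlace (K := K) C.t))).subset ?_
    rintro _ ⟨⟨𝔭, h𝔭, rfl⟩, hP⟩
    exact ⟨𝔭, ⟨h𝔭, hsupp 𝔭 hP⟩, rfl⟩
  · rw [finsum_mem_image (chartPlace_injective C.t).injOn]
    have h1 : ∀ 𝔭 ∈ C.modelData.fibre C.allPointsRational_R hint 𝔮,
        (chartPlace (K := K) C.t 𝔭).ord (((u : C.R) : F)) =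
          ((multiplicity 𝔭.asIdeal (Ideal.span {(u : C.R)}) : ℕ) : ℤ) :=
      fun 𝔭 _ => chartPlace_ord_coe C.t 𝔭 hu0
    rw [finsum_mem_congr rfl h1]
    have hfin' : (C.modelData.fibre C.allPointsRational_R hint 𝔮 ∩
        Function.support fun 𝔭 : HeightOneSpectrum C.R =>
          multiplicity 𝔭.asIdeal (Ideal.span {(u : C.R)})).Finite := by
      refine hfin.subset ?_
      rintro 𝔭 ⟨h𝔭, hs⟩
      refine ⟨h𝔭, ?_⟩
      rw [Function.mem_support, multiplicity_ne_zero, Ideal.dvd_span_singleton] at hs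
      exact hs
    have h2 := (Nat.castAddMonoidHom ℤ).map_finsum_mem' hfin'
    simp only [Nat.coe_castAddMonoidHom] at h2
    rw [← h2, chartPlace_ord_coe C.tb 𝔮 hu, ← hsum]

/-- every element of `O` is a quotient of two functions of the model ring, the denominator having
nonzero reduction -/
theorem exists_modelRing_div (u : C.O) :
    ∃ a b : C.modelData.𝓡, C.modelData.res b ≠ 0 ∧
      (u : F) * ((b : C.R) : F) = ((a : C.R) : F) := by
  obtain ⟨a', b', hb', hab⟩ := IsFractionRing.div_surjective (A := C.R) (u : F)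
  have hb0 : ((b' : C.R) : F) ≠ 0 := by
    intro h0
    exact nonZeroDivisors.ne_zero hb' (Subtype.ext h0)
  have hab' : (u : F) * ((b' : C.R) : F) = ((a' : C.R) : F) := by
    rw [← hab]
    exact div_mul_cancel₀ _ hb0
  obtain ⟨c, hc0, hmem, hres⟩ := C.scal _ hb0
  have hmema : ((c • a' : C.R) : F) ∈ C.O := by
    have h1 : ((c • a' : C.R) : F) = (u : F) * (c • ((b' : C.R) : F)) := by
      rw [C.coe_smul_R, ← hab', mul_smul_comm]
    rw [h1]
    exact C.O.mul_mem _ _ u.2 hmem
  refine ⟨⟨c • a', hmema⟩, ⟨c • b', hmem⟩, ?_, ?_⟩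
  · intro h0
    exact hres ((C.resModel_eq_zero_iff _).mp h0)
  · show (u : F) * (c • ((b' : C.R) : F)) = c • ((a' : C.R) : F)
    rw [← hab', mul_smul_comm]

include hcount in
/-- **Conservation of number on the chart (chart theorem)**: for `u ∈ O` with nonzero reduction
and a place `Q` of the special fibre on the chart, the orders of `u` at the integral places
reducing to `Q` add up to the order of `res u` at `Q`. -/
theorem count (u : C.O) (hu : C.res u ≠ 0) (Q : Place k Fk) (hQ : C.tb ∈ Q.toValuationSubring) :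
    (C.fibre hint Q ∩ {P | P.ord (u : F) ≠ 0}).Finite ∧
      ∑ᶠ P ∈ C.fibre hint Q, P.ord (u : F) = Q.ord (C.res u) := by
  obtain ⟨a, b, hb, hab⟩ := C.exists_modelRing_div u
  have hQ' : chartPlace C.tb (chartPrime C.tb Q hQ) = Q := chartPlace_chartPrime C.tb Q hQ
  rw [← hQ']
  set 𝔮 := chartPrime C.tb Q hQ with h𝔮
  -- reductions
  have hresab : ((C.modelData.res a : C.Rb) : Fk) = C.res u * ((C.modelData.res b : C.Rb) : Fk) := by
    show C.res (C.modelRingToO a) = C.res u * C.res (C.modelRingToO b)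
    rw [← map_mul]
    congr 1
    exact Subtype.ext hab.symm
  have hbF : ((C.modelData.res b : C.Rb) : Fk) ≠ 0 := fun h => hb (Subtype.ext h)
  have ha : C.modelData.res a ≠ 0 := by
    intro h0
    have h1 : ((C.modelData.res a : C.Rb) : Fk) = 0 := by rw [h0]; rfl
    rw [hresab] at h1
    rcases mul_eq_zero.mp h1 with h | h
    · exact hu h
    · exact hbF h
  obtain ⟨hfa, hsa⟩ := C.count_modelRing hint hcount a ha 𝔮
  obtain ⟨hfb, hsb⟩ := C.count_modelRing hint hcount b hb 𝔮
  have ha0 : ((a : C.R) : F) ≠ 0 := fun h => C.coe_ne_zero_of_res_ne_zero a ha (Subtype.ext h)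
  have hb0 : ((b : C.R) : F) ≠ 0 := fun h => C.coe_ne_zero_of_res_ne_zero b hb (Subtype.ext h)
  have hu0 : (u : F) ≠ 0 := by
    intro h
    rw [h, zero_mul] at hab
    exact ha0 hab.symm
  have hord : ∀ P : Place K F,
      P.ord ((a : C.R) : F) = P.ord (u : F) + P.ord ((b : C.R) : F) := by
    intro P
    rw [← hab, P.ord_mul hu0 hb0]
  have hfu : (C.fibre hint (chartPlace C.tb 𝔮) ∩ {P | P.ord (u : F) ≠ 0}).Finite := by
    refine (hfa.union hfb).subset ?_
    rintro P ⟨hP, hPu⟩
    by_cases h : P.ord ((b : C.R) : F) = 0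
    · left
      refine ⟨hP, ?_⟩
      show P.ord ((a : C.R) : F) ≠ 0
      rw [hord, h, add_zero]
      exact hPu
    · right
      exact ⟨hP, h⟩
  refine ⟨hfu, ?_⟩
  have h1 : ∑ᶠ P ∈ C.fibre hint (chartPlace C.tb 𝔮), P.ord ((a : C.R) : F) =
      ∑ᶠ P ∈ C.fibre hint (chartPlace C.tb 𝔮), P.ord (u : F) +
        ∑ᶠ P ∈ C.fibre hint (chartPlace C.tb 𝔮), P.ord ((b : C.R) : F) := by
    rw [← finsum_mem_add_distrib' hfu hfb]
    exact finsum_mem_congr rfl fun P _ => hord P
  have h2 : (chartPlace (K := k) C.tb 𝔮).ord ((C.modelData.res a : C.Rb) : Fk) =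
      (chartPlace (K := k) C.tb 𝔮).ord (C.res u) +
        (chartPlace (K := k) C.tb 𝔮).ord ((C.modelData.res b : C.Rb) : Fk) := by
    rw [hresab, Place.ord_mul _ hu hbF]
  rw [hsa, hsb, h2] at h1
  linarith

/-- functions of the model ring have integral values at integral places, compatible with
reduction -/
theorem exists_hasValue_modelRing (P : Place K F) (hP : C.IsIntegralPlace P)
    (b : C.modelData.𝓡) :
    ∃ β : A, HasValue P ((b : C.R) : F) (β : K) ∧
      HasValue (C.placeRed hint P hP) ((C.modelData.res b : C.Rb) : Fk) (C.π β) := by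
  have h𝔭i := C.isIntegralPt_primeOf P hP
  have hv : HasValue P ((b : C.R) : F) (ev C.allPointsRational_R (C.primeOf P hP) (b : C.R)) := by
    have := hasValue_ev C.t C.allPointsRational_R (C.primeOf P hP) (b : C.R)
    rwa [chartPlace_primeOf] at this
  refine ⟨⟨ev C.allPointsRational_R (C.primeOf P hP) (b : C.R),
    hint (C.primeOf P hP) h𝔭i b b.2⟩, hv, ?_⟩
  exact C.hasValue_placeRed hint P hP ⟨((b : C.R) : F), b.2⟩ (b : C.R).2 _ hv

/-- the reduction map `O → Fk` is surjective -/
theorem res_surjective : Function.Surjective C.res := by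
  intro g
  obtain ⟨g₁, g₂, hg₂, hg⟩ := IsFractionRing.div_surjective (A := C.Rb) g
  obtain ⟨a, rfl⟩ := C.modelData.res_surj g₁
  obtain ⟨b, rfl⟩ := C.modelData.res_surj g₂
  have hb : C.modelData.res b ≠ 0 := nonZeroDivisors.ne_zero hg₂
  have hb' : C.res (C.modelRingToO b) ≠ 0 := fun h0 => hb ((C.resModel_eq_zero_iff b).mpr h0)
  have hinv : (((b : C.R) : F))⁻¹ ∈ C.O := C.inv_mem_of_res_ne_zero b.2 hb'
  refine ⟨C.modelRingToO a * ⟨_, hinv⟩, ?_⟩
  have h1 : C.res (⟨_, hinv⟩ : C.O) * C.res (C.modelRingToO b) = 1 := by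
    rw [← map_mul, ← map_one C.res]
    congr 1
    apply Subtype.ext
    show (((b : C.R) : F))⁻¹ * ((b : C.R) : F) = 1
    refine inv_mul_cancel₀ ?_
    intro h0
    apply hb'
    have : C.modelRingToO b = 0 := Subtype.ext h0
    rw [this, map_zero]
  rw [map_mul, ← hg]
  show C.res (C.modelRingToO a) * _ = C.res (C.modelRingToO a) / C.res (C.modelRingToO b)
  rw [div_eq_mul_inv]
  congr 1
  exact eq_inv_of_mul_eq_one_left h1

include hcount in
/-- **surjectivity of the reduction of places on the chart** -/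
theorem exists_placeRed_eq (Q : Place k Fk) (hQ : C.tb ∈ Q.toValuationSubring) :
    ∃ (P : Place K F) (hP : C.IsIntegralPlace P), C.placeRed hint P hP = Q := by
  set 𝔮 := chartPrime C.tb Q hQ with h𝔮
  have hQ' : chartPlace C.tb 𝔮 = Q := chartPlace_chartPrime C.tb Q hQ
  obtain ⟨a, ha⟩ := C.π_surj (ev C.allPointsRational_Rb 𝔮 C.tbR)
  have hval : HasValue Q C.tb (C.π a) := by
    have := hasValue_ev C.tb C.allPointsRational_Rb 𝔮 C.tbR
    rwa [hQ', ← ha] at this
  have hmem : C.t - algebraMap K F (a : K) ∈ C.O := sub_mem C.t_mem (C.algebraMap_mem a)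
  have hres : C.res ⟨_, hmem⟩ = C.tb - algebraMap k Fk (C.π a) := by
    rw [← C.res_algebraMap, ← map_sub]
    rfl
  have hne : C.res ⟨_, hmem⟩ ≠ 0 := by
    rw [hres, sub_ne_zero]
    intro h
    apply C.tb_transcendental
    have h3 : IsAlgebraic k C.tb := by
      rw [h]
      exact isAlgebraic_algebraMap _
    exact h3
  obtain ⟨-, hsum⟩ := C.count hint hcount ⟨_, hmem⟩ hne Q hQ
  have hpos : 0 < Q.ord (C.res ⟨_, hmem⟩) := by
    rw [ZP.ord_pos_iff Q hne, hres]
    exact hval
  rcases Set.eq_empty_or_nonempty (C.fibre hint Q) with hempty | ⟨P, hP, hPQ⟩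
  · rw [hempty, finsum_mem_empty] at hsum
    omega
  · exact ⟨P, hP, hPQ⟩

section SemiLocal

variable (hsl : C.modelData.SemiLocal C.allPointsRational_R hint F)

include hsl in
/-- **(S2) semi-local value compatibility**: a function of `O` which is regular at all integral
places reducing to `Q` has a reduction regular at `Q`, integral values at these places, and the
values are compatible with reduction. -/
theorem semiLocal (f : C.O) (Q : Place k Fk) (hQ : C.tb ∈ Q.toValuationSubring)
    (hreg : ∀ P ∈ C.fibre hint Q, (f : F) ∈ P.toValuationSubring) :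
    C.res f ∈ Q.toValuationSubring ∧
      ∀ P ∈ C.fibre hint Q, ∃ a : A, HasValue P (f : F) (a : K) ∧
        HasValue Q (C.res f) (C.π a) := by
  set 𝔮 := chartPrime C.tb Q hQ with h𝔮
  have hQ' : chartPlace C.tb 𝔮 = Q := chartPlace_chartPrime C.tb Q hQ
  obtain ⟨a₀, b₀, hb₀, hab₀⟩ := C.exists_modelRing_div f
  have hreg' : ∀ 𝔭 ∈ C.modelData.fibre C.allPointsRational_R hint 𝔮, 𝔭.valuation F (f : F) ≤ 1 := by
    intro 𝔭 h𝔭
    rw [← mem_chartPlace_iff (K := K) C.t 𝔭]
    apply hreg
    rw [← hQ', C.fibre_chartPlace hint 𝔮]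
    exact ⟨𝔭, h𝔭, rfl⟩
  obtain ⟨a, b, hb, hab⟩ := hsl (f : F) 𝔮 ⟨a₀, b₀, hb₀, hab₀⟩ hreg'
  have hab' : (f : F) * ((b : C.R) : F) = ((a : C.R) : F) := hab
  -- reductions
  have hresab : ((C.modelData.res a : C.Rb) : Fk) = C.res f * ((C.modelData.res b : C.Rb) : Fk) := by
    show C.res (C.modelRingToO a) = C.res f * C.res (C.modelRingToO b)
    rw [← map_mul]
    congr 1
    exact Subtype.ext hab'.symm
  have hbQ : ((C.modelData.res b : C.Rb) : Fk) ∉ Q.toValuationSubring.nonunits := by
    rw [← mem_chartPrime_iff C.tb Q hQ]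
    exact hb
  have hbF : ((C.modelData.res b : C.Rb) : Fk) ≠ 0 := by
    intro h0
    apply hbQ
    rw [h0]
    exact Q.toValuationSubring.nonunits.zero_mem
  have hbinv : (((C.modelData.res b : C.Rb) : Fk))⁻¹ ∈ Q.toValuationSubring := by
    by_contra hcon
    apply hbQ
    rw [ValuationSubring.mem_nonunits_iff_or]
    exact Or.inr hcon
  have hresf : C.res f = ((C.modelData.res a : C.Rb) : Fk) * (((C.modelData.res b : C.Rb) : Fk))⁻¹ := by
    rw [hresab, mul_assoc, mul_inv_cancel₀ hbF, mul_one]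
  have hbF0 : ((b : C.R) : F) ≠ 0 := by
    intro h0
    apply hbF
    have : b = 0 := Subtype.ext (Subtype.ext h0)
    rw [this, map_zero]
    rfl
  have hf : (f : F) = ((a : C.R) : F) / ((b : C.R) : F) := by
    rw [← hab', mul_div_assoc, div_self hbF0, mul_one]
  constructor
  · rw [hresf]
    refine Q.toValuationSubring.mul_mem _ _ ?_ hbinv
    rw [← hQ']
    exact coe_mem_chartPlace C.tb 𝔮 _
  · rintro P ⟨hP, hPQ⟩
    obtain ⟨α, hα, hα'⟩ := C.exists_hasValue_modelRing hint P hP a
    obtain ⟨β, hβ, hβ'⟩ := C.exists_hasValue_modelRing hint P hP b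
    rw [hPQ] at hα' hβ'
    have hπβ : C.π β ≠ 0 := by
      intro h0
      rw [h0, hasValue_zero_iff] at hβ'
      exact hbQ hβ'
    have hβ0 : (β : K) ≠ 0 := by
      intro h0
      apply hπβ
      have : β = 0 := Subtype.ext h0
      rw [this, map_zero]
    have hβu : IsUnit β := by
      by_contra hnu
      exact hπβ ((C.π_ker β).mpr hnu)
    obtain ⟨βu, hβu⟩ := hβu
    set γ : A := α * ((βu⁻¹ : Aˣ) : A) with hγ
    have hγβ : γ * β = α := by
      rw [hγ, mul_assoc, ← hβu, Units.inv_mul, mul_one]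
    have hγK : (γ : K) = (α : K) / (β : K) := by
      rw [eq_div_iff hβ0, ← hγβ]
      rfl
    have hπγ : C.π γ = C.π α / C.π β := by
      rw [eq_div_iff hπβ, ← map_mul, hγβ]
    refine ⟨γ, ?_, ?_⟩
    · rw [hf, hγK]
      exact hα.div hβ hβ0
    · rw [hresf, hπγ, ← div_eq_mul_inv]
      exact hα'.div hβ' hπβ

end SemiLocal

section Lifting

variable (hlift : C.modelData.Lifting Fk)

include hlift in
/-- **(S3) lifting**: a function on the special fibre regular at finitely many places of the chart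
lifts to a function of `O` regular at all integral places reducing to one of them. -/
theorem lifting (g : Fk) (Sig : Finset (Place k Fk))
    (hSig : ∀ Q ∈ Sig, C.tb ∈ Q.toValuationSubring ∧ g ∈ Q.toValuationSubring) :
    ∃ f : C.O, C.res f = g ∧
      ∀ Q ∈ Sig, ∀ P ∈ C.fibre hint Q, (f : F) ∈ P.toValuationSubring := by
  classical
  set Sig' : Finset (HeightOneSpectrum C.Rb) :=
    Sig.attach.image fun Q => chartPrime C.tb Q.1 (hSig Q.1 Q.2).1 with hSig'
  have hreg : ∀ 𝔮 ∈ Sig', 𝔮.valuation Fk g ≤ 1 := by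
    intro 𝔮 h𝔮
    rw [hSig', Finset.mem_image] at h𝔮
    obtain ⟨Q, -, rfl⟩ := h𝔮
    rw [← mem_chartPlace_iff (K := k) C.tb, chartPlace_chartPrime]
    exact (hSig Q.1 Q.2).2
  obtain ⟨a, b, hb, hab⟩ := hlift g Sig' hreg
  by_cases hb0 : C.modelData.res b = 0
  · -- then `Sig` is empty
    obtain ⟨f, hf⟩ := C.res_surjective g
    refine ⟨f, hf, ?_⟩
    intro Q hQ
    exfalso
    have h𝔮 : chartPrime C.tb Q (hSig Q hQ).1 ∈ Sig' := by
      rw [hSig', Finset.mem_image]
      exact ⟨⟨Q, hQ⟩, Finset.mem_attach _ _, rfl⟩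
    apply hb _ h𝔮
    rw [hb0]
    exact Ideal.zero_mem _
  · have hb' : C.res (C.modelRingToO b) ≠ 0 := fun h0 => hb0 ((C.resModel_eq_zero_iff b).mpr h0)
    have hinv : (((b : C.R) : F))⁻¹ ∈ C.O := C.inv_mem_of_res_ne_zero b.2 hb'
    have hbF0 : ((b : C.R) : F) ≠ 0 := by
      intro h0
      apply hb'
      have : C.modelRingToO b = 0 := Subtype.ext h0
      rw [this, map_zero]
    have h1 : C.res (⟨_, hinv⟩ : C.O) * C.res (C.modelRingToO b) = 1 := by
      rw [← map_mul, ← map_one C.res]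
      congr 1
      apply Subtype.ext
      show (((b : C.R) : F))⁻¹ * ((b : C.R) : F) = 1
      exact inv_mul_cancel₀ hbF0
    have hab' : g * C.res (C.modelRingToO b) = C.res (C.modelRingToO a) := hab
    refine ⟨C.modelRingToO a * ⟨_, hinv⟩, ?_, ?_⟩
    · rw [map_mul, ← hab', mul_assoc, mul_comm (C.res (C.modelRingToO b)), h1, mul_one]
    · rintro Q hQ P ⟨hP, hPQ⟩
      have h𝔮 : chartPrime C.tb Q (hSig Q hQ).1 ∈ Sig' := by
        rw [hSig', Finset.mem_image]
        exact ⟨⟨Q, hQ⟩, Finset.mem_attach _ _, rfl⟩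
      have hbQ : ((C.modelData.res b : C.Rb) : Fk) ∉ Q.toValuationSubring.nonunits := by
        rw [← mem_chartPrime_iff C.tb Q (hSig Q hQ).1]
        exact hb _ h𝔮
      obtain ⟨α, hα, -⟩ := C.exists_hasValue_modelRing hint P hP a
      obtain ⟨β, hβ, hβ'⟩ := C.exists_hasValue_modelRing hint P hP b
      rw [hPQ] at hβ'
      have hβ0 : (β : K) ≠ 0 := by
        intro h0
        have : β = 0 := Subtype.ext h0
        rw [this, map_zero, hasValue_zero_iff] at hβ'
        exact hbQ hβ'
      show ((a : C.R) : F) * (((b : C.R) : F))⁻¹ ∈ P.toValuationSubring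
      exact P.toValuationSubring.mul_mem _ _ hα.mem (hβ.inv_mem hβ0)

end Lifting

end ChartInput

end Fermat.Agent.Gateway.Red
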