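/-
P-GATEWAY (c), RED block (helper37): the CONCRETE input of the reduction theory of a function field
`F / K` over a valuation ring `A ⊆ K` with residue function field `Fk / k`, in the language of
valuation subrings and integral closures (no places, no models):

* `RedBase K A k F Fk`: a valuation subring `O` of `F` (the "Gauss valuation") with `O ∩ K = A`, a
  surjective reduction `res : O →+* Fk` whose kernel is the maximal ideal, compatible with `π` on
  constants, and the normalisation property (value group of `O` = value group of `A`);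
* `B.IsChart t`: `t ∈ O` is a chart coordinate: functions of `O` regular on the chart `t ≠ ∞` of
  the generic fibre (= integral over `K[t]`) reduce to functions regular on the chart of the special
  fibre, every such function on the special fibre lifts, and the ring `𝓡_t` of these functions is a
  finitely generated `A[t]`-module.

`Red/ChartModel.lean` (RED-D) turns `(B, t, B.IsChart t)` into the abstract `ModelData` of
`Red/Model.lean`; `Red/Filtered.lean` produces `IsChart` for `t` and `t⁻¹` from the filtered lifting
property of the spaces `L(m (t)_∞)`.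
-/
import Mathlib

set_option autoImplicit false

noncomputable section

namespace Fermat.Agent.Gateway.Red

open Polynomial

/-- base data of the reduction theory (shared by all charts) -/
structure RedBase (K : Type*) [Field K] (A : ValuationSubring K) (k : Type*) [Field k]
    (F : Type*) [Field F] [Algebra K F] (Fk : Type*) [Field Fk] [Algebra k Fk] where
  /-- the residue map of `A` -/
  π : A →+* k
  π_surj : Function.Surjective π
  π_ker : ∀ a : A, π a = 0 ↔ a ∈ IsLocalRing.maximalIdeal A
  /-- the Gauss valuation ring -/
  O : ValuationSubring F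
  /-- the reduction map -/
  res : O →+* Fk
  res_surj : Function.Surjective res
  res_eq_zero_iff : ∀ f : O, res f = 0 ↔ f ∈ IsLocalRing.maximalIdeal O
  algebraMap_mem_iff : ∀ c : K, algebraMap K F c ∈ O ↔ c ∈ A
  res_algebraMap : ∀ (a : A) (h : algebraMap K F (a : K) ∈ O),
    res ⟨algebraMap K F (a : K), h⟩ = algebraMap k Fk (π a)
  /-- the value group of `O` is the value group of `A` -/
  normalize : ∀ f : F, f ≠ 0 → ∃ c : K, c ≠ 0 ∧ ∃ h : c • f ∈ O, res ⟨c • f, h⟩ ≠ 0

section Chart

variable {K : Type*} [Field K] {A : ValuationSubring K} {k : Type*} [Field k]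
  {F : Type*} [Field F] [Algebra K F] {Fk : Type*} [Field Fk] [Algebra k Fk]
  (B : RedBase K A k F Fk)

/-- the functions of `O` regular on the chart `t ≠ ∞` of the generic fibre -/
def RedBase.chartRing (t : F) : Subring F where
  carrier := {f | f ∈ B.O ∧ IsIntegral (Algebra.adjoin K {t}) f}
  zero_mem' := ⟨B.O.zero_mem, isIntegral_zero⟩
  one_mem' := ⟨B.O.one_mem, isIntegral_one⟩
  add_mem' := fun hf hg => ⟨B.O.add_mem _ _ hf.1 hg.1, hf.2.add hg.2⟩
  mul_mem' := fun hf hg => ⟨B.O.mul_mem _ _ hf.1 hg.1, hf.2.mul hg.2⟩
  neg_mem' := fun hf => ⟨B.O.neg_mem _ hf.1, hf.2.neg⟩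

theorem RedBase.mem_chartRing_iff (t f : F) :
    f ∈ B.chartRing t ↔ f ∈ B.O ∧ IsIntegral (Algebra.adjoin K {t}) f := Iff.rfl

/-- `t` is a chart coordinate for the reduction data `B`. -/
structure RedBase.IsChart (t : F) : Prop where
  t_mem : t ∈ B.O
  /-- (SC) regular functions reduce to regular functions -/
  sc : ∀ f : B.O, IsIntegral (Algebra.adjoin K {t}) (f : F) →
    IsIntegral (Algebra.adjoin k {B.res ⟨t, t_mem⟩}) (B.res f)
  /-- (EQ) every regular function on the special fibre lifts -/
  lift : ∀ g : Fk, IsIntegral (Algebra.adjoin k {B.res ⟨t, t_mem⟩}) g →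
    ∃ f : B.O, IsIntegral (Algebra.adjoin K {t}) (f : F) ∧ B.res f = g
  /-- (FG) the chart ring is a finitely generated `A[t]`-module -/
  fg : ∃ s : Finset F, (∀ x ∈ s, x ∈ B.chartRing t) ∧ ∀ f ∈ B.chartRing t,
    ∃ p : F → Polynomial A, f = ∑ x ∈ s, aeval t ((p x).map (algebraMap A K)) * x

end Chart

end Fermat.Agent.Gateway.Red
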