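import Mathlib
import Fermat.Agent.Gateway.Red.Model

/-!
# RED-B1: integral values and value compatibility for the abstract model

* `ModelData.integralValues`: functions of the model take values in `A` at integral points
  (`𝓡` is a finitely generated `A[t]`-module, hence integral over `A[t]`; evaluate; `A` is
  integrally closed).
* `ModelData.valueCompat`: `(res f)(redPrime 𝔭) = π (f(𝔭))`.
-/

set_option autoImplicit false

noncomputable section

namespace Fermat.Agent.Gateway.Red

open IsDedekindDomain Polynomial

section Integral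

variable {K : Type*} [Field K] {A : ValuationSubring K} {k : Type*} [Field k]
  {R : Type*} [CommRing R] [Algebra K R]
  {Rb : Type*} [CommRing Rb] [Algebra k Rb]
  (D : ModelData K A k R Rb)

/-- the ring hom `A[X] → R`, `p ↦ p(t)`. -/
def ModelData.polyHom : Polynomial A →+* R :=
  (aeval (R := K) D.t).toRingHom.comp (mapRingHom (algebraMap A K))

theorem ModelData.polyHom_apply (p : Polynomial A) :
    D.polyHom p = aeval D.t (p.map (algebraMap A K)) := rfl

theorem ModelData.polyHom_mem (p : Polynomial A) : D.polyHom p ∈ D.𝓡 := by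
  induction p using Polynomial.induction_on' with
  | add p q hp hq =>
    rw [map_add]
    exact D.𝓡.add_mem hp hq
  | monomial n a =>
    rw [D.polyHom_apply, Polynomial.map_monomial, aeval_monomial]
    exact D.𝓡.mul_mem (D.algebraMap_mem a) (D.𝓡.pow_mem D.t_mem n)

/-- every function of the model is integral over `A[t]`. -/
theorem ModelData.isIntegralElem_polyHom {f : R} (hf : f ∈ D.𝓡) :
    D.polyHom.IsIntegralElem f := by
  let _ : Algebra (Polynomial A) R := D.polyHom.toAlgebra
  obtain ⟨s, hs, hgen⟩ := D.fg
  -- the subalgebra with carrier `𝓡`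
  let S : Subalgebra (Polynomial A) R :=
    { D.𝓡.toSubsemiring with
      algebraMap_mem' := fun p => D.polyHom_mem p }
  have hS : ∀ x : R, x ∈ S ↔ x ∈ D.𝓡 := fun x => Iff.rfl
  have hfg : S.toSubmodule.FG := by
    refine ⟨s, le_antisymm ?_ ?_⟩
    · rw [Submodule.span_le]
      intro x hx
      exact (hS x).mpr (hs x hx)
    · intro f hf
      obtain ⟨p, hp⟩ := hgen f ((hS f).mp hf)
      rw [hp]
      refine Submodule.sum_mem _ fun x hx => ?_
      have : aeval D.t ((p x).map (algebraMap A K)) * x = (p x) • x := by
        rw [Algebra.smul_def]; rfl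
      rw [this]
      exact Submodule.smul_mem _ _ (Submodule.subset_span hx)
  exact IsIntegral.of_mem_of_fg S hfg f ((hS f).mpr hf)

end Integral

section Values

variable {K : Type*} [Field K] {A : ValuationSubring K} {k : Type*} [Field k]
  {R : Type*} [CommRing R] [Algebra K R] [IsDedekindDomain R]
  {Rb : Type*} [CommRing Rb] [Algebra k Rb] [IsDedekindDomain Rb]
  (D : ModelData K A k R Rb) (hR : AllPointsRational K R)

omit [IsDedekindDomain Rb] in
/-- evaluation of `p(t)` at a point with integral coordinate -/
theorem ModelData.ev_polyHom (𝔭 : HeightOneSpectrum R) (h𝔭 : D.IsIntegralPt hR 𝔭)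
    (p : Polynomial A) :
    ev hR 𝔭 (D.polyHom p) = ((p.eval ⟨ev hR 𝔭 D.t, h𝔭⟩ : A) : K) := by
  induction p using Polynomial.induction_on' with
  | add p q hp hq =>
    rw [map_add, map_add, hp, hq, eval_add]
    rfl
  | monomial n a =>
    rw [D.polyHom_apply, Polynomial.map_monomial, aeval_monomial, map_mul, map_pow,
      ev_algebraMap, eval_monomial]
    rfl

omit [IsDedekindDomain Rb] in
/-- **(Int)** functions of the model take integral values at integral points. -/
theorem ModelData.integralValues : D.IntegralValues hR := by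
  intro 𝔭 h𝔭 f hf
  obtain ⟨P, hP, hPf⟩ := D.isIntegralElem_polyHom hf
  -- specialise the coefficients at the point
  set τ : A := ⟨ev hR 𝔭 D.t, h𝔭⟩ with hτ
  have hint : IsIntegral A (ev hR 𝔭 f) := by
    refine ⟨P.map (evalRingHom τ), hP.map _, ?_⟩
    rw [eval₂_map]
    have h1 : (algebraMap A K).comp (evalRingHom τ) = (ev hR 𝔭).comp D.polyHom := by
      refine RingHom.ext fun p => ?_
      rw [RingHom.comp_apply, RingHom.comp_apply, D.ev_polyHom hR 𝔭 h𝔭 p]
      rfl
    rw [h1, ← Polynomial.hom_eval₂, hPf, map_zero]
  obtain ⟨y, hy⟩ := IsIntegrallyClosed.isIntegral_iff.mp hint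
  rw [← hy]
  exact y.2

/-- evaluation at the reduction of an integral point is the induced character. -/
theorem ModelData.ev_redPrime (hRb : AllPointsRational k Rb) (hint : D.IntegralValues hR)
    (𝔭 : HeightOneSpectrum R) (h : D.IsIntegralPt hR 𝔭) (g : Rb) :
    ev hRb (D.redPrime hR hint 𝔭 h) g = D.chiBar hR hint 𝔭 h g := by
  have h1 := sub_ev_mem hRb (D.redPrime hR hint 𝔭 h) g
  rw [D.mem_redPrime_iff, map_sub, D.chiBar_algebraMap, sub_eq_zero] at h1
  exact h1.symm

/-- **value compatibility**: `(res f)(redPrime 𝔭) = π (f(𝔭))`. -/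
theorem ModelData.valueCompat (hRb : AllPointsRational k Rb) :
    D.ValueCompat hR hRb (D.integralValues hR) := by
  intro 𝔭 h f
  rw [D.ev_redPrime hR hRb (D.integralValues hR) 𝔭 h, D.chiBar_res]

end Values

end Fermat.Agent.Gateway.Red
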