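/-
P-GATEWAY (c), RED block, package RED-B2 (helper67): the SEPARATION property of the abstract model
`ModelData` of `Red/Model.lean`.

* an integral point `𝔭` of the generic fibre whose reduction is different from a given point `𝔮` of
  the special fibre is cut out by a function of the model whose reduction does not vanish at `𝔮`;
* a non-integral point is cut out by a function of the model whose reduction is `1`.
-/
import Fermat.Agent.Gateway.Red.Model

set_option autoImplicit false

noncomputable section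

namespace Fermat.Agent.Gateway.Red

open IsDedekindDomain

section Const

variable {K : Type*} [Field K] {A : ValuationSubring K} {k : Type*} [Field k]
  {R : Type*} [CommRing R] [Algebra K R] {Rb : Type*} [CommRing Rb] [Algebra k Rb]
  (D : ModelData K A k R Rb)

/-- the constant function with an integral value, as an element of the model ring -/
def ModelData.constOf (a : A) : D.𝓡 := ⟨algebraMap K R (a : K), D.algebraMap_mem a⟩

@[simp] theorem ModelData.coe_constOf (a : A) : ((D.constOf a : D.𝓡) : R) = algebraMap K R (a : K) := rfl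

theorem ModelData.res_constOf (a : A) : D.res (D.constOf a) = algebraMap k Rb (D.π a) :=
  D.res_algebraMap a

theorem ModelData.res_constOf_of_mem_maximalIdeal {a : A} (ha : a ∈ IsLocalRing.maximalIdeal A) :
    D.res (D.constOf a) = 0 := by
  rw [D.res_constOf, (D.π_ker a).2 ha, map_zero]

end Const

section Separation

variable {K : Type*} [Field K] {A : ValuationSubring K} {k : Type*} [Field k]
  {R : Type*} [CommRing R] [Algebra K R] [IsDedekindDomain R]
  {Rb : Type*} [CommRing Rb] [Algebra k Rb] [IsDedekindDomain Rb]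
  (D : ModelData K A k R Rb) (hR : AllPointsRational K R) (hint : D.IntegralValues hR)

/-- two different points of a Dedekind domain: the first is not contained in the second -/
theorem exists_mem_not_mem_of_ne {S : Type*} [CommRing S] [IsDedekindDomain S]
    {𝔮' 𝔮 : HeightOneSpectrum S} (h : 𝔮' ≠ 𝔮) : ∃ g : S, g ∈ 𝔮'.asIdeal ∧ g ∉ 𝔮.asIdeal := by
  by_contra hcon
  have hle : 𝔮'.asIdeal ≤ 𝔮.asIdeal := fun g hg => by_contra fun hg' => hcon ⟨g, hg, hg'⟩
  have hmax : 𝔮'.asIdeal.IsMaximal := 𝔮'.isMaximal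
  have heq : 𝔮'.asIdeal = 𝔮.asIdeal := hmax.eq_of_le 𝔮.isPrime.ne_top hle
  exact h (HeightOneSpectrum.ext heq)

/-- **separation, integral points**. -/
theorem ModelData.separation_integral (𝔭 : HeightOneSpectrum R) (h : D.IsIntegralPt hR 𝔭)
    (𝔮 : HeightOneSpectrum Rb) (hne : D.redPrime hR hint 𝔭 h ≠ 𝔮) :
    ∃ f : D.𝓡, (f : R) ∈ 𝔭.asIdeal ∧ D.res f ∉ 𝔮.asIdeal := by
  obtain ⟨gb, hgb, hgb'⟩ := exists_mem_not_mem_of_ne hne
  obtain ⟨g, rfl⟩ := D.res_surj gb
  -- the value of `g` at `𝔭` lies in the maximal ideal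
  have hval : (⟨ev hR 𝔭 g, hint 𝔭 h g g.2⟩ : A) ∈ IsLocalRing.maximalIdeal A :=
    (D.res_mem_redPrime_iff hR hint 𝔭 h g).1 hgb
  refine ⟨g - D.constOf ⟨ev hR 𝔭 g, hint 𝔭 h g g.2⟩, ?_, ?_⟩
  · have : ((g - D.constOf ⟨ev hR 𝔭 g, hint 𝔭 h g g.2⟩ : D.𝓡) : R)
        = (g : R) - algebraMap K R (ev hR 𝔭 g) := rfl
    rw [this]
    exact sub_ev_mem hR 𝔭 g
  · rw [map_sub, D.res_constOf_of_mem_maximalIdeal hval, sub_zero]
    exact hgb'

omit [IsDedekindDomain Rb] in
/-- **separation, non-integral points**. -/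
theorem ModelData.separation_nonintegral (𝔭 : HeightOneSpectrum R) (h : ¬ D.IsIntegralPt hR 𝔭) :
    ∃ f : D.𝓡, (f : R) ∈ 𝔭.asIdeal ∧ D.res f = 1 := by
  have ht : ev hR 𝔭 D.t ∉ A := h
  -- the inverse of the coordinate value lies in the maximal ideal
  have hinv : (ev hR 𝔭 D.t)⁻¹ ∈ A := by
    rcases A.mem_or_inv_mem (ev hR 𝔭 D.t) with h1 | h1
    · exact absurd h1 ht
    · exact h1
  have ht0 : ev hR 𝔭 D.t ≠ 0 := by
    intro h0
    exact ht (h0 ▸ A.zero_mem)
  set c : A := ⟨(ev hR 𝔭 D.t)⁻¹, hinv⟩ with hc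
  have hcmax : c ∈ IsLocalRing.maximalIdeal A := by
    rw [IsLocalRing.mem_maximalIdeal, mem_nonunits_iff]
    intro hu
    obtain ⟨d, hd⟩ := hu.exists_right_inv
    have hd' : (ev hR 𝔭 D.t)⁻¹ * (d : K) = 1 := by
      have := congrArg (fun x : A => (x : K)) hd
      simpa [hc] using this
    have : (d : K) = ev hR 𝔭 D.t := by
      field_simp at hd'
      exact hd'
    exact ht (this ▸ d.2)
  refine ⟨1 - D.constOf c * ⟨D.t, D.t_mem⟩, ?_, ?_⟩
  · have : ((1 - D.constOf c * ⟨D.t, D.t_mem⟩ : D.𝓡) : R)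
        = 1 - algebraMap K R ((ev hR 𝔭 D.t)⁻¹) * D.t := rfl
    rw [this, ← ev_eq_zero_iff hR, map_sub, map_one, map_mul, ev_algebraMap,
      inv_mul_cancel₀ ht0, sub_self]
  · rw [map_sub, map_one, map_mul, D.res_constOf_of_mem_maximalIdeal hcmax, zero_mul, sub_zero]

/-- **RED-B2, separation**: the pinned statement `ModelData.Separation` of `Red/Model.lean`. -/
theorem ModelData.separation : D.Separation hR hint :=
  ⟨fun 𝔭 h 𝔮 hne => D.separation_integral hR hint 𝔭 h 𝔮 hne,
    fun 𝔭 h => D.separation_nonintegral hR 𝔭 h⟩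

end Separation

end Fermat.Agent.Gateway.Red
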