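/-
P-GATEWAY (c), RED block, package RED-B2 (helper67): the SEMI-LOCAL and LIFTING properties of the
abstract model `ModelData` of `Red/Model.lean`.

The common core is a statement on Dedekind domains: if a submonoid `M` of `R` meets every prime at
which `f ∈ Frac R` has a pole, then `f` has a denominator in `M`.
-/
import Fermat.Agent.Gateway.Red.Separation

set_option autoImplicit false

noncomputable section

namespace Fermat.Agent.Gateway.Red

open IsDedekindDomain WithZero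

section Dedekind

variable {R : Type*} [CommRing R] [IsDedekindDomain R] {F : Type*} [Field F] [Algebra R F]
  [IsFractionRing R F]

/-- **denominators in a submonoid**: if the submonoid `M` of the Dedekind domain `R` meets every
prime at which `f` has a pole, then `f = a / b` with `b ∈ M`. -/
theorem exists_denominator_mem (M : Submonoid R) (f : F)
    (hM : ∀ 𝔭 : HeightOneSpectrum R, 1 < 𝔭.valuation F f → ∃ h : R, h ∈ M ∧ h ∈ 𝔭.asIdeal) :
    ∃ b ∈ M, ∃ a : R, f * algebraMap R F b = algebraMap R F a := by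
  classical
  choose! h hh using hM
  have hfin : (HeightOneSpectrum.Support R f).Finite := HeightOneSpectrum.Support.finite R f
  set S : Finset (HeightOneSpectrum R) := hfin.toFinset with hS
  have hmemS : ∀ 𝔭 : HeightOneSpectrum R, 𝔭 ∈ S ↔ 1 < 𝔭.valuation F f := by
    intro 𝔭
    rw [hS, Set.Finite.mem_toFinset]
    rfl
  -- the exponents
  set n : HeightOneSpectrum R → ℕ := fun 𝔭 => (WithZero.log (𝔭.valuation F f)).toNat with hn
  set b : R := ∏ 𝔭 ∈ S, h 𝔭 ^ n 𝔭 with hb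
  have hbM : b ∈ M :=
    Submonoid.prod_mem M fun 𝔭 h𝔭 => M.pow_mem (hh 𝔭 ((hmemS 𝔭).1 h𝔭)).1 _
  refine ⟨b, hbM, ?_⟩
  have hall : ∀ v : HeightOneSpectrum R, v.valuation F (f * algebraMap R F b) ≤ 1 := by
    intro v
    rw [Valuation.map_mul, HeightOneSpectrum.valuation_of_algebraMap]
    by_cases hv : v ∈ S
    · have hpole : 1 < v.valuation F f := (hmemS v).1 hv
      have hf0 : v.valuation F f ≠ 0 := fun h0 => by
        rw [h0] at hpole
        exact absurd hpole (by simp)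
      -- `b ∈ v ^ n v`
      have hbv : b ∈ v.asIdeal ^ n v := by
        rw [hb, ← Finset.mul_prod_erase S _ hv]
        exact Ideal.mul_mem_right _ _ (Ideal.pow_mem_pow (hh v hpole).2 _)
      have h1 : v.intValuation b ≤ exp (-(n v : ℤ)) := (v.intValuation_le_pow_iff_mem b (n v)).2 hbv
      have h2 : v.valuation F f ≤ exp ((n v : ℤ)) := by
        conv_lhs => rw [← WithZero.exp_log hf0]
        rw [WithZero.exp_le_exp]
        exact Int.self_le_toNat _
      calc v.valuation F f * v.intValuation b ≤ exp ((n v : ℤ)) * exp (-(n v : ℤ)) :=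
            mul_le_mul' h2 h1
        _ = 1 := by rw [← WithZero.exp_add, add_neg_cancel, WithZero.exp_zero]
    · have hf1 : v.valuation F f ≤ 1 := not_lt.1 fun hlt => hv ((hmemS v).2 hlt)
      exact mul_le_one' hf1 (v.intValuation_le_one b)
  obtain ⟨a, ha⟩ := HeightOneSpectrum.mem_integers_of_valuation_le_one F _ hall
  exact ⟨a, ha.symm⟩

/-- the elements avoiding finitely many primes, as a submonoid -/
def avoidSubmonoid (Sig : Finset (HeightOneSpectrum R)) : Submonoid R where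
  carrier := {b | ∀ 𝔮 ∈ Sig, b ∉ 𝔮.asIdeal}
  one_mem' := fun 𝔮 _ => (Ideal.ne_top_iff_one _).1 𝔮.isPrime.ne_top
  mul_mem' := fun ha hb 𝔮 h𝔮 hab => (𝔮.isPrime.mem_or_mem hab).elim (ha 𝔮 h𝔮) (hb 𝔮 h𝔮)

omit [IsDedekindDomain R] in
theorem mem_avoidSubmonoid {Sig : Finset (HeightOneSpectrum R)} {b : R} :
    b ∈ avoidSubmonoid Sig ↔ ∀ 𝔮 ∈ Sig, b ∉ 𝔮.asIdeal := Iff.rfl

/-- prime avoidance for points of a Dedekind domain: a point outside a finite set of points
contains an element lying in none of them. -/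
theorem exists_mem_avoidSubmonoid (Sig : Finset (HeightOneSpectrum R)) (𝔭 : HeightOneSpectrum R)
    (h𝔭 : 𝔭 ∉ Sig) : ∃ h : R, h ∈ avoidSubmonoid Sig ∧ h ∈ 𝔭.asIdeal := by
  classical
  by_contra hcon
  have hsub : (𝔭.asIdeal : Set R) ⊆ ⋃ 𝔮 ∈ (↑Sig : Set (HeightOneSpectrum R)), (𝔮.asIdeal : Set R) := by
    intro x hx
    by_contra hx'
    apply hcon
    refine ⟨x, ?_, hx⟩
    intro 𝔮 h𝔮 hx𝔮
    apply hx'
    simp only [Set.mem_iUnion]
    exact ⟨𝔮, h𝔮, hx𝔮⟩
  obtain ⟨𝔮, h𝔮, hle⟩ := (Ideal.subset_union_prime (f := fun 𝔮 : HeightOneSpectrum R => 𝔮.asIdeal)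
    𝔭 𝔭 (fun 𝔮 _ _ _ => 𝔮.isPrime)).1 hsub
  have heq : 𝔭.asIdeal = 𝔮.asIdeal := 𝔭.isMaximal.eq_of_le 𝔮.isPrime.ne_top hle
  exact h𝔭 (HeightOneSpectrum.ext heq ▸ h𝔮)

/-- a function regular at finitely many points has a denominator vanishing at none of them -/
theorem exists_denominator_avoiding (Sig : Finset (HeightOneSpectrum R)) (g : F)
    (hreg : ∀ 𝔮 ∈ Sig, 𝔮.valuation F g ≤ 1) :
    ∃ a b : R, (∀ 𝔮 ∈ Sig, b ∉ 𝔮.asIdeal) ∧ g * algebraMap R F b = algebraMap R F a := by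
  obtain ⟨b, hb, a, hab⟩ := exists_denominator_mem (avoidSubmonoid Sig) g (fun 𝔭 hpole =>
    exists_mem_avoidSubmonoid Sig 𝔭 fun h𝔭 => absurd (hreg 𝔭 h𝔭) (not_le.2 hpole))
  exact ⟨a, b, hb, hab⟩

end Dedekind

section Model

variable {K : Type*} [Field K] {A : ValuationSubring K} {k : Type*} [Field k]
  {R : Type*} [CommRing R] [Algebra K R] [IsDedekindDomain R]
  {Rb : Type*} [CommRing Rb] [Algebra k Rb] [IsDedekindDomain Rb]
  (D : ModelData K A k R Rb) (hR : AllPointsRational K R) (hint : D.IntegralValues hR)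

/-- the functions of the model whose reduction does not vanish at `𝔮`, as a submonoid of `R` -/
def ModelData.unitsAt (𝔮 : HeightOneSpectrum Rb) : Submonoid R :=
  Submonoid.map (D.𝓡.subtype : D.𝓡 →* R)
    (Submonoid.comap (D.res : D.𝓡 →* Rb) 𝔮.asIdeal.primeCompl)

omit [IsDedekindDomain R] [IsDedekindDomain Rb] in
theorem ModelData.mem_unitsAt {𝔮 : HeightOneSpectrum Rb} {b : R} :
    b ∈ D.unitsAt 𝔮 ↔ ∃ b' : D.𝓡, D.res b' ∉ 𝔮.asIdeal ∧ (b' : R) = b := by
  unfold ModelData.unitsAt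
  rw [Submonoid.mem_map]
  constructor
  · rintro ⟨b', hb', rfl⟩
    exact ⟨b', hb', rfl⟩
  · rintro ⟨b', hb', rfl⟩
    exact ⟨b', hb', rfl⟩

/-- every point of the generic fibre outside the fibre of `𝔮` is cut out by a function of the model
whose reduction does not vanish at `𝔮`. -/
theorem ModelData.exists_mem_unitsAt (𝔮 : HeightOneSpectrum Rb) (𝔭 : HeightOneSpectrum R)
    (h𝔭 : 𝔭 ∉ D.fibre hR hint 𝔮) : ∃ h : R, h ∈ D.unitsAt 𝔮 ∧ h ∈ 𝔭.asIdeal := by
  by_cases hi : D.IsIntegralPt hR 𝔭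
  · have hne : D.redPrime hR hint 𝔭 hi ≠ 𝔮 := fun heq => h𝔭 ⟨hi, heq⟩
    obtain ⟨f, hf𝔭, hf𝔮⟩ := D.separation_integral hR hint 𝔭 hi 𝔮 hne
    exact ⟨f, D.mem_unitsAt.2 ⟨f, hf𝔮, rfl⟩, hf𝔭⟩
  · obtain ⟨f, hf𝔭, hf1⟩ := D.separation_nonintegral hR 𝔭 hi
    refine ⟨f, D.mem_unitsAt.2 ⟨f, ?_, rfl⟩, hf𝔭⟩
    rw [hf1]
    exact (Ideal.ne_top_iff_one _).1 𝔮.isPrime.ne_top

/-- **RED-B2, semi-local rings**: the pinned statement `ModelData.SemiLocal` of `Red/Model.lean`. -/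
theorem ModelData.semiLocal (F : Type*) [Field F] [Algebra R F] [IsFractionRing R F] :
    D.SemiLocal hR hint F := by
  rintro f 𝔮 ⟨a₀, b₀, hb₀, hfab⟩ hreg
  obtain ⟨b, hbM, a, hab⟩ := exists_denominator_mem (D.unitsAt 𝔮) f (fun 𝔭 hpole =>
    D.exists_mem_unitsAt hR hint 𝔮 𝔭 fun h𝔭 => absurd (hreg 𝔭 h𝔭) (not_le.2 hpole))
  obtain ⟨b', hb', rfl⟩ := D.mem_unitsAt.1 hbM
  have hmul : (b₀ : R) * a = (a₀ : R) * (b' : R) := by
    apply IsFractionRing.injective R F
    rw [map_mul, map_mul, ← hab, ← hfab]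
    ring
  have ha : a ∈ D.𝓡 := D.mem_of_mul_mem b₀ hb₀ a (by
    rw [hmul]
    exact (a₀ * b').2)
  exact ⟨⟨a, ha⟩, b', hb', hab⟩

omit [IsDedekindDomain R] in
/-- **RED-B2, lifting**: the pinned statement `ModelData.Lifting` of `Red/Model.lean`. -/
theorem ModelData.lifting (Fb : Type*) [Field Fb] [Algebra Rb Fb] [IsFractionRing Rb Fb] :
    D.Lifting Fb := by
  intro g Sig hreg
  obtain ⟨ab, bb, hbb, hab⟩ := exists_denominator_avoiding Sig g hreg
  obtain ⟨a, rfl⟩ := D.res_surj ab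
  obtain ⟨b, rfl⟩ := D.res_surj bb
  exact ⟨a, b, hbb, hab⟩

end Model

end Fermat.Agent.Gateway.Red
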