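/-
helper64 (P-GATEWAY (c), RED block, RED-D glue): the `ChartInput` of `Red/ChartModel.lean` attached
to helper37's `RedBase` + `IsChart` of `Red/Chart.lean`, so that every theorem of
`Red/ChartModel.lean` and `Red/ChartPlaces.lean` applies to `(B, t, h : B.IsChart t)`.
-/
import Fermat.Agent.Gateway.Red.Chart
import Fermat.Agent.Gateway.Red.ChartPlaces
import Fermat.Agent.Gateway.Red.Integral
import Fermat.Agent.Gateway.Red.SemiLocal

set_option autoImplicit false
set_option linter.unusedSectionVars false

noncomputable section

namespace Fermat.Agent.Gateway.Red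

open Polynomial IntermediateField AlgebraicCurve IsDedekindDomain

variable {K : Type*} [Field K] {A : ValuationSubring K} {k : Type*} [Field k]
  {F : Type*} [Field F] [Algebra K F] {Fk : Type*} [Field Fk] [Algebra k Fk]

/-- the concrete chart input attached to a chart coordinate of a `RedBase` -/
def RedBase.toChartInput (B : RedBase K A k F Fk) (t : F) (h : B.IsChart t)
    (ht : Transcendental K t) (htb : Transcendental k (B.res ⟨t, h.t_mem⟩)) :
    ChartInput K A k F Fk where
  π := B.π
  π_surj := B.π_surj
  π_ker := B.π_ker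
  O := B.O
  res := B.res
  res_ker := B.res_eq_zero_iff
  algebraMap_mem a := (B.algebraMap_mem_iff (a : K)).mpr a.2
  res_algebraMap a := B.res_algebraMap a _
  scal := B.normalize
  t := t
  t_mem := h.t_mem
  t_transcendental := ht
  tb_transcendental := htb
  sc := h.sc
  eq := h.lift
  fg := by
    obtain ⟨s, hs, hgen⟩ := h.fg
    exact ⟨s, hs, fun f hf hf' => hgen f ⟨hf, hf'⟩⟩

section Simp

variable (B : RedBase K A k F Fk) (t : F) (h : B.IsChart t)
  (ht : Transcendental K t) (htb : Transcendental k (B.res ⟨t, h.t_mem⟩))

@[simp] theorem RedBase.toChartInput_t : (B.toChartInput t h ht htb).t = t := rfl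

@[simp] theorem RedBase.toChartInput_O : (B.toChartInput t h ht htb).O = B.O := rfl

@[simp] theorem RedBase.toChartInput_res : (B.toChartInput t h ht htb).res = B.res := rfl

@[simp] theorem RedBase.toChartInput_π : (B.toChartInput t h ht htb).π = B.π := rfl

@[simp] theorem RedBase.toChartInput_tb :
    (B.toChartInput t h ht htb).tb = B.res ⟨t, h.t_mem⟩ := rfl

end Simp

namespace ChartInput

/-! ### Final chart API: `(Int)`, `(S2)`, `(S3)` are unconditional (RED-B landed); the count and
the surjectivity of the reduction of places take `ModelData.Count` (RED-C) as hypothesis. -/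

variable (C : ChartInput K A k F Fk)
  [IsAlgClosed K] [FiniteDimensional K⟮C.t⟯ F] [Algebra.IsSeparable K⟮C.t⟯ F]
  [IsAlgClosed k] [FiniteDimensional k⟮C.tb⟯ Fk] [Algebra.IsSeparable k⟮C.tb⟯ Fk]

/-- **(Int)** for the model of a chart -/
theorem integralValues : C.modelData.IntegralValues C.allPointsRational_R :=
  C.modelData.integralValues C.allPointsRational_R

/-- **the reduction of an integral place of the chart** (final form) -/
def red (P : Place K F) (hP : C.IsIntegralPlace P) : Place k Fk :=
  C.placeRed C.integralValues P hP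

/-- the integral places reducing to `Q` -/
def redFibre (Q : Place k Fk) : Set (Place K F) := {P | ∃ hP : C.IsIntegralPlace P, C.red P hP = Q}

theorem redFibre_eq (Q : Place k Fk) : C.redFibre Q = C.fibre C.integralValues Q := rfl

theorem tb_mem_red (P : Place K F) (hP : C.IsIntegralPlace P) :
    C.tb ∈ (C.red P hP).toValuationSubring :=
  C.tb_mem_placeRed C.integralValues P hP

/-- **value compatibility** -/
theorem hasValue_red (P : Place K F) (hP : C.IsIntegralPlace P) (f : C.O)
    (hf : IsIntegral (Algebra.adjoin K {C.t}) (f : F)) (a : A) (h : HasValue P (f : F) (a : K)) :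
    HasValue (C.red P hP) (C.res f) (C.π a) :=
  C.hasValue_placeRed C.integralValues P hP f hf a h

/-- functions of `O` regular on the chart have integral values at integral places -/
theorem exists_hasValue (P : Place K F) (hP : C.IsIntegralPlace P) (f : C.O)
    (hf : IsIntegral (Algebra.adjoin K {C.t}) (f : F)) :
    ∃ a : A, HasValue P (f : F) (a : K) ∧ HasValue (C.red P hP) (C.res f) (C.π a) :=
  C.exists_hasValue_modelRing C.integralValues P hP (C.toModelRing f hf)

/-- **uniqueness of the reduction** -/
theorem eq_red (P : Place K F) (hP : C.IsIntegralPlace P) (Q : Place k Fk)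
    (hQ : C.tb ∈ Q.toValuationSubring)
    (h : ∀ (f : C.O), IsIntegral (Algebra.adjoin K {C.t}) (f : F) → ∀ a : A,
      HasValue P (f : F) (a : K) → HasValue Q (C.res f) (C.π a)) :
    Q = C.red P hP :=
  C.eq_placeRed C.integralValues P hP Q hQ h

/-- **(S2) semi-local value compatibility** (unconditional) -/
theorem semiLocal_red (f : C.O) (Q : Place k Fk) (hQ : C.tb ∈ Q.toValuationSubring)
    (hreg : ∀ P ∈ C.redFibre Q, (f : F) ∈ P.toValuationSubring) :
    C.res f ∈ Q.toValuationSubring ∧
      ∀ P ∈ C.redFibre Q, ∃ a : A, HasValue P (f : F) (a : K) ∧ HasValue Q (C.res f) (C.π a) :=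
  C.semiLocal C.integralValues
    (C.modelData.semiLocal C.allPointsRational_R C.integralValues F) f Q hQ hreg

/-- **(S3) lifting** (unconditional) -/
theorem lifting_red (g : Fk) (Sig : Finset (Place k Fk))
    (hSig : ∀ Q ∈ Sig, C.tb ∈ Q.toValuationSubring ∧ g ∈ Q.toValuationSubring) :
    ∃ f : C.O, C.res f = g ∧ ∀ Q ∈ Sig, ∀ P ∈ C.redFibre Q, (f : F) ∈ P.toValuationSubring :=
  C.lifting C.integralValues (C.modelData.lifting Fk) g Sig hSig

variable (hcount : C.modelData.Count C.allPointsRational_R C.integralValues)

include hcount in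
/-- **chart theorem (conservation of number)**, from `ModelData.Count` (RED-C) -/
theorem count_red (u : C.O) (hu : C.res u ≠ 0) (Q : Place k Fk)
    (hQ : C.tb ∈ Q.toValuationSubring) :
    (C.redFibre Q ∩ {P | P.ord (u : F) ≠ 0}).Finite ∧
      ∑ᶠ P ∈ C.redFibre Q, P.ord (u : F) = Q.ord (C.res u) :=
  C.count C.integralValues hcount u hu Q hQ

include hcount in
/-- **surjectivity of the reduction of places on the chart**, from `ModelData.Count` (RED-C) -/
theorem exists_red_eq (Q : Place k Fk) (hQ : C.tb ∈ Q.toValuationSubring) :
    ∃ (P : Place K F) (hP : C.IsIntegralPlace P), C.red P hP = Q :=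
  C.exists_placeRed_eq C.integralValues hcount Q hQ

end ChartInput

end Fermat.Agent.Gateway.Red
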