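/-
P-GATEWAY (c), RED block, RED-C step C1 (helper30): the LATTICE LEMMA over a (non-discrete)
valuation ring.  `A` a valuation subring of `K`, `V` a `K`-vector space, `v : ι → V` a finite
family.  Then the `A`-span of `v` is free: there is a `K`-linearly independent family `b` in the
`A`-span of `v` whose `A`-span contains every `A`-combination of `v`.
(Finitely generated torsion-free modules over a Bezout local domain are flat, hence free.)
-/
import Mathlib

set_option autoImplicit false
set_option linter.style.haveILetI false

namespace Fermat.Agent.Gateway.Red.CountLattice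

variable {K : Type*} [Field K] (A : ValuationSubring K) {V : Type*} [AddCommGroup V] [Module K V]

/-- **Lattice lemma**: the `A`-span of a finite family in a `K`-vector space has an `A`-basis which
is `K`-linearly independent. -/
theorem exists_basis_of_family {ι : Type*} [Fintype ι] (v : ι → V) :
    ∃ (n : ℕ) (b : Fin n → V), LinearIndependent K b ∧
      (∀ j, ∃ c : ι → A, b j = ∑ i, (c i : K) • v i) ∧
      (∀ c : ι → A, ∃ e : Fin n → A, ∑ i, (c i : K) • v i = ∑ j, (e j : K) • b j) := by
  classical
  letI modA : Module A V := Module.compHom V (algebraMap A K)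
  haveI tower : IsScalarTower A K V := ⟨fun a c w => by
    show (a • c) • w = (algebraMap A K a) • (c • w)
    rw [Algebra.smul_def, mul_smul]⟩
  have hsmul : ∀ (a : A) (w : V), a • w = (a : K) • w := fun a w => rfl
  set M : Submodule A V := Submodule.span A (Set.range v) with hM
  haveI hfin : Module.Finite A M := Module.Finite.of_fg (Submodule.fg_span (Set.finite_range v))
  have htors : Submodule.torsion A M = ⊥ := by
    rw [eq_bot_iff]
    intro m hm
    obtain ⟨a, ha⟩ := (Submodule.mem_torsion_iff m).mp hm
    rw [Submodule.mem_bot]
    have h1 : ((a : A) : K) • (m : V) = 0 := congrArg Subtype.val ha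
    have ha0 : ((a : A) : K) ≠ 0 := by
      have := nonZeroDivisors.coe_ne_zero a
      exact fun h => this (Subtype.ext h)
    exact Subtype.ext ((smul_eq_zero.mp h1).resolve_left ha0)
  haveI hflat : Module.Flat A M := (Module.Flat.flat_iff_torsion_eq_bot_of_isBezout).mpr htors
  haveI hfree : Module.Free A M := Module.free_of_flat_of_isLocalRing
  let bM := Module.finBasis A M
  refine ⟨Module.finrank A M, fun j => (bM j : V), ?_, ?_, ?_⟩
  · have h1 : LinearIndependent A fun j => (bM j : V) :=
      bM.linearIndependent.map' M.subtype M.ker_subtype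
    exact (LinearIndependent.iff_fractionRing A K).mp h1
  · intro j
    have hj : (bM j : V) ∈ Submodule.span A (Set.range v) := (bM j).2
    obtain ⟨c, hc⟩ := (Submodule.mem_span_range_iff_exists_fun A).mp hj
    exact ⟨c, hc.symm⟩
  · intro c
    have hm : ∑ i, (c i : K) • v i ∈ M := by
      refine Submodule.sum_mem _ fun i _ => ?_
      rw [← hsmul]
      exact Submodule.smul_mem _ _ (Submodule.subset_span ⟨i, rfl⟩)
    refine ⟨fun j => bM.repr ⟨_, hm⟩ j, ?_⟩
    have h2 := congrArg Subtype.val (bM.sum_repr ⟨_, hm⟩)
    simp only [Submodule.coe_sum, Submodule.coe_smul] at h2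
    exact h2.symm

end Fermat.Agent.Gateway.Red.CountLattice
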