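/-
P-GATEWAY (c), RED block, RED-C (helper30): CONSERVATION OF NUMBER for the abstract model of an
affine chart (`ModelData`, `Red/Model.lean`): for `u ∈ 𝓡` with nonzero reduction, the order of
`res u` at a point `𝔮` of the special fibre is the sum of the orders of `u` at the integral points
reducing to `𝔮` (`ModelData.count`), assuming the separation property (`Red/Separation.lean`).

Steps (note 558): (C1) the lattice lemma (`Red/CountLattice.lean`); (C2) colengths of products of primes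
(`S20/RR/IdealDim.lean`); (C3) for `I = ∏ 𝔭 ^ n 𝔭` over points of the fibre of `𝔮`,
`res (I ∩ 𝓡) = 𝔮 ^ (∑ n 𝔭)`; (C4) assembly.
-/
import Mathlib
import Fermat.Agent.Gateway.Red.Model
import Fermat.Agent.Gateway.Red.CountLattice
import Fermat.Agent.S20.RR.IdealDim

set_option autoImplicit false
set_option linter.unusedSectionVars false
set_option linter.style.haveILetI false

noncomputable section

namespace Fermat.Agent.Gateway.Red

open IsDedekindDomain Polynomial UniqueFactorizationMonoid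

section Basics

variable {K : Type*} [Field K] {A : ValuationSubring K} {k : Type*} [Field k]
  {R : Type*} [CommRing R] [Algebra K R] {Rb : Type*} [CommRing Rb] [Algebra k Rb]
  (D : ModelData K A k R Rb)

/-- the constants of the model -/
def ModelData.constR : A →+* D.𝓡 :=
  ((algebraMap K R).comp A.subtype).codRestrict D.𝓡 D.algebraMap_mem

theorem ModelData.coe_constR (a : A) : (D.constR a : R) = algebraMap K R (a : K) := rfl

theorem ModelData.res_constR (a : A) : D.res (D.constR a) = algebraMap k Rb (D.π a) :=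
  D.res_algebraMap a

theorem ModelData.coe_constR_mul (a : A) (f : D.𝓡) :
    ((D.constR a * f : D.𝓡) : R) = (a : K) • (f : R) := by
  rw [Subring.coe_mul, D.coe_constR, Algebra.smul_def]

theorem ModelData.res_constR_mul (a : A) (f : D.𝓡) :
    D.res (D.constR a * f) = D.π a • D.res f := by
  rw [map_mul, D.res_constR, Algebra.smul_def]

theorem ModelData.res_ne_zero_imp_ne_zero {u : D.𝓡} (hu : D.res u ≠ 0) : (u : R) ≠ 0 := by
  intro h
  apply hu
  have : u = 0 := Subtype.ext h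
  rw [this, map_zero]

end Basics

section Values

variable {K : Type*} [Field K] {A : ValuationSubring K} {k : Type*} [Field k]
  {R : Type*} [CommRing R] [Algebra K R] [IsDedekindDomain R]
  {Rb : Type*} [CommRing Rb] [Algebra k Rb] [IsDedekindDomain Rb]
  (D : ModelData K A k R Rb) (hR : AllPointsRational K R) (hint : D.IntegralValues hR)

/-- the value of a function of the model at an integral point, as an element of `A` -/
def ModelData.valA (𝔭 : HeightOneSpectrum R) (h : D.IsIntegralPt hR 𝔭) (f : D.𝓡) : A :=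
  ⟨ev hR 𝔭 f, hint 𝔭 h f f.2⟩

theorem ModelData.chiBar_res' (𝔭 : HeightOneSpectrum R) (h : D.IsIntegralPt hR 𝔭) (f : D.𝓡) :
    D.chiBar hR hint 𝔭 h (D.res f) = D.π (D.valA hR hint 𝔭 h f) :=
  D.chiBar_res hR hint 𝔭 h f

open Classical in
/-- `f - f(𝔭)` at an integral point `𝔭` (and `0` at the other points) -/
def ModelData.shiftAt (f : D.𝓡) (𝔭 : HeightOneSpectrum R) : D.𝓡 :=
  if h : D.IsIntegralPt hR 𝔭 then f - D.constR (D.valA hR hint 𝔭 h f) else 0

theorem ModelData.coe_shiftAt_mem (f : D.𝓡) (𝔭 : HeightOneSpectrum R) :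
    (D.shiftAt hR hint f 𝔭 : R) ∈ 𝔭.asIdeal := by
  unfold ModelData.shiftAt
  split_ifs with h
  · exact sub_ev_mem hR 𝔭 f
  · exact 𝔭.asIdeal.zero_mem

theorem ModelData.res_shiftAt (f : D.𝓡) (𝔭 : HeightOneSpectrum R) (h : D.IsIntegralPt hR 𝔭) :
    D.res (D.shiftAt hR hint f 𝔭) =
      D.res f - algebraMap k Rb (D.π (D.valA hR hint 𝔭 h f)) := by
  unfold ModelData.shiftAt
  rw [dif_pos h, map_sub, D.res_constR]

theorem ModelData.res_shiftAt_of_mem (f : D.𝓡) {𝔭 : HeightOneSpectrum R}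
    {𝔮 : HeightOneSpectrum Rb} (h𝔭 : 𝔭 ∈ D.fibre hR hint 𝔮) (hf : D.res f ∈ 𝔮.asIdeal) :
    D.res (D.shiftAt hR hint f 𝔭) = D.res f := by
  obtain ⟨h, rfl⟩ := h𝔭
  rw [D.res_shiftAt hR hint f 𝔭 h, ← D.chiBar_res' hR hint 𝔭 h f,
    (D.mem_redPrime_iff hR hint 𝔭 h _).mp hf, map_zero, sub_zero]

end Values

section PrimePow

variable {R : Type*} [CommRing R] [IsDedekindDomain R]

/-- the ideal `∏ 𝔭 ∈ S, 𝔭 ^ n 𝔭` -/
def primePow (S : Finset (HeightOneSpectrum R)) (n : HeightOneSpectrum R → ℕ) : Ideal R :=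
  ∏ 𝔭 ∈ S, 𝔭.asIdeal ^ n 𝔭

theorem primePow_ne_bot (S : Finset (HeightOneSpectrum R)) (n : HeightOneSpectrum R → ℕ) :
    primePow S n ≠ ⊥ := by
  unfold primePow
  rw [← Ideal.zero_eq_bot, Finset.prod_ne_zero_iff]
  intro 𝔭 _
  exact pow_ne_zero _ 𝔭.ne_bot

theorem prod_pow_mem_primePow (S : Finset (HeightOneSpectrum R)) (n : HeightOneSpectrum R → ℕ)
    (x : HeightOneSpectrum R → R) (hx : ∀ 𝔭 ∈ S, x 𝔭 ∈ 𝔭.asIdeal) :
    ∏ 𝔭 ∈ S, x 𝔭 ^ n 𝔭 ∈ primePow S n :=
  Ideal.prod_mem_prod fun 𝔭 h𝔭 => Ideal.pow_mem_pow (hx 𝔭 h𝔭) _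

theorem card_normalizedFactors_primePow (S : Finset (HeightOneSpectrum R))
    (n : HeightOneSpectrum R → ℕ) :
    Multiset.card (normalizedFactors (primePow S n)) = ∑ 𝔭 ∈ S, n 𝔭 := by
  classical
  unfold primePow
  induction S using Finset.induction_on with
  | empty =>
    rw [Finset.prod_empty, Finset.sum_empty, Ideal.one_eq_top, ← Ideal.one_eq_top,
      normalizedFactors_one, Multiset.card_zero]
  | insert 𝔭 S h𝔭 ih =>
    have h0 : ∏ x ∈ S, x.asIdeal ^ n x ≠ 0 := primePow_ne_bot S n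
    rw [Finset.prod_insert h𝔭, Finset.sum_insert h𝔭,
      normalizedFactors_mul (pow_ne_zero _ 𝔭.ne_bot) h0,
      Multiset.card_add, ih, normalizedFactors_pow,
      normalizedFactors_irreducible 𝔭.irreducible, normalize_eq, Multiset.card_nsmul,
      Multiset.card_singleton, mul_one]

end PrimePow

section FG

variable {K : Type*} [Field K] {A : ValuationSubring K} {k : Type*} [Field k]
  {R : Type*} [CommRing R] [Algebra K R] {Rb : Type*} [CommRing Rb] [Algebra k Rb]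
  (D : ModelData K A k R Rb)

/-- evaluation at `t` of a polynomial with coefficients in `A` -/
def ModelData.evalT (p : A[X]) : R := aeval D.t (p.map (algebraMap A K))

theorem ModelData.evalT_add (p q : A[X]) : D.evalT (p + q) = D.evalT p + D.evalT q := by
  unfold ModelData.evalT
  rw [Polynomial.map_add, map_add]

theorem ModelData.evalT_mul (p q : A[X]) : D.evalT (p * q) = D.evalT p * D.evalT q := by
  unfold ModelData.evalT
  rw [Polynomial.map_mul, map_mul]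

theorem ModelData.evalT_eq_sum (p : A[X]) {N : ℕ} (hN : p.natDegree < N) :
    D.evalT p = ∑ i : Fin N, ((p.coeff i : A) : K) • D.t ^ (i : ℕ) := by
  unfold ModelData.evalT
  rw [aeval_eq_sum_range' (lt_of_le_of_lt natDegree_map_le hN), Finset.sum_range]
  refine Finset.sum_congr rfl fun i _ => ?_
  rw [coeff_map]
  rfl

/-- **Finite generation modulo a monic polynomial in `t`**: modulo an ideal `I` of `R` containing
`G(t)` (`G ∈ A[X]` monic), every element of `𝓡` is an `A`-combination of finitely many elements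
of `𝓡`. -/
theorem ModelData.exists_family_mod (I : Ideal R) (G : A[X]) (hG : G.Monic) (hGI : D.evalT G ∈ I) :
    ∃ (m : ℕ) (v : Fin m → D.𝓡), ∀ f : D.𝓡, ∃ c : Fin m → A,
      (f : R) - ∑ z, ((c z : A) : K) • (v z : R) ∈ I := by
  classical
  obtain ⟨s, hs𝓡, hrep⟩ := D.fg
  set N := G.natDegree + 1 with hN
  -- the family indexed by `↥s × Fin N`
  let w : ↥s × Fin N → D.𝓡 := fun z =>
    (⟨D.t, D.t_mem⟩ : D.𝓡) ^ (z.2 : ℕ) * ⟨(z.1 : R), hs𝓡 _ z.1.2⟩
  have key : ∀ f : D.𝓡, ∃ c : ↥s × Fin N → A, (f : R) - ∑ z, ((c z : A) : K) • (w z : R) ∈ I := by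
    intro f
    obtain ⟨p, hp⟩ := hrep f f.2
    refine ⟨fun z => (p z.1 %ₘ G).coeff z.2, ?_⟩
    have h1 : ∑ z : ↥s × Fin N, (((p z.1 %ₘ G).coeff z.2 : A) : K) • (w z : R) =
        ∑ x ∈ s, D.evalT (p x %ₘ G) * x := by
      rw [Fintype.sum_prod_type, ← Finset.sum_coe_sort s]
      refine Finset.sum_congr rfl fun x _ => ?_
      rw [D.evalT_eq_sum (p x %ₘ G) (Nat.lt_succ_of_le (natDegree_modByMonic_le _ hG)),
        Finset.sum_mul]
      refine Finset.sum_congr rfl fun i _ => ?_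
      rw [smul_mul_assoc]
      rfl
    have h2 : (f : R) = ∑ x ∈ s, D.evalT (p x) * x := hp
    rw [h1, h2, ← Finset.sum_sub_distrib]
    refine Ideal.sum_mem _ fun x _ => ?_
    have h3 : D.evalT (p x) = D.evalT (p x %ₘ G) + D.evalT G * D.evalT (p x /ₘ G) := by
      rw [← D.evalT_mul, ← D.evalT_add, modByMonic_add_div]
    rw [h3, add_mul, add_sub_cancel_left, mul_assoc]
    exact Ideal.mul_mem_right _ _ hGI
  -- reindex by `Fin m`
  let e := Fintype.equivFin (↥s × Fin N)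
  refine ⟨Fintype.card (↥s × Fin N), fun i => w (e.symm i), fun f => ?_⟩
  obtain ⟨c, hc⟩ := key f
  refine ⟨fun i => c (e.symm i), ?_⟩
  have : ∑ i, ((c (e.symm i) : A) : K) • (w (e.symm i) : R) = ∑ z, ((c z : A) : K) • (w z : R) :=
    Equiv.sum_comp e.symm fun z => ((c z : A) : K) • (w z : R)
  rw [this]
  exact hc

end FG

section Basis

variable {K : Type*} [Field K] {A : ValuationSubring K} {k : Type*} [Field k]
  {R : Type*} [CommRing R] [Algebra K R] {Rb : Type*} [CommRing Rb] [Algebra k Rb]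
  (D : ModelData K A k R Rb)

theorem quotMk_smul_eq {K R : Type*} [Field K] [CommRing R] [Algebra K R] (I : Ideal R) (c : K)
    (x : R) : Ideal.Quotient.mk I (c • x) = c • Ideal.Quotient.mk I x :=
  map_smul (Ideal.Quotient.mkₐ K I) c x

theorem ModelData.coe_sum_constR_mul {n : ℕ} (c : Fin n → A) (F : Fin n → D.𝓡) :
    ((∑ j, D.constR (c j) * F j : D.𝓡) : R) = ∑ j, ((c j : A) : K) • (F j : R) := by
  rw [← Subring.subtype_apply, map_sum]
  refine Finset.sum_congr rfl fun j _ => ?_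
  rw [Subring.subtype_apply, D.coe_constR_mul]

theorem ModelData.res_sum_constR_mul {n : ℕ} (c : Fin n → A) (F : Fin n → D.𝓡) :
    D.res (∑ j, D.constR (c j) * F j) = ∑ j, D.π (c j) • D.res (F j) := by
  rw [map_sum]
  refine Finset.sum_congr rfl fun j _ => ?_
  rw [D.res_constR_mul]

/-- **The lattice `𝓡 / (I ∩ 𝓡)` is free**: if `𝓡` is finitely generated over `A` modulo `I`, there
are `F j ∈ 𝓡` whose classes are `K`-linearly independent in `R ⧸ I` and generate `𝓡` over `A`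
modulo `I`. -/
theorem ModelData.exists_basis_mod (I : Ideal R) {m : ℕ} (v : Fin m → D.𝓡)
    (hv : ∀ f : D.𝓡, ∃ c : Fin m → A, (f : R) - ∑ z, ((c z : A) : K) • (v z : R) ∈ I) :
    ∃ (n : ℕ) (F : Fin n → D.𝓡),
      LinearIndependent K (fun j => Ideal.Quotient.mk I (F j : R)) ∧
      ∀ f : D.𝓡, ∃ e : Fin n → A, (f : R) - ∑ j, ((e j : A) : K) • (F j : R) ∈ I := by
  classical
  obtain ⟨n, b, hli, hb, hspan⟩ := CountLattice.exists_basis_of_family A (V := R ⧸ I)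
    (fun z => Ideal.Quotient.mk I (v z : R))
  choose c hc using hb
  have hmk : ∀ {r : ℕ} (c : Fin r → A) (G : Fin r → D.𝓡),
      Ideal.Quotient.mk I (∑ z, ((c z : A) : K) • (G z : R)) =
        ∑ z, ((c z : A) : K) • Ideal.Quotient.mk I (G z : R) := by
    intro r c G
    rw [map_sum]
    refine Finset.sum_congr rfl fun z _ => ?_
    rw [quotMk_smul_eq]
  let F : Fin n → D.𝓡 := fun j => ∑ z, D.constR (c j z) * v z
  have hF : ∀ j, Ideal.Quotient.mk I (F j : R) = b j := by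
    intro j
    rw [D.coe_sum_constR_mul, hmk, hc j]
  refine ⟨n, F, ?_, fun f => ?_⟩
  · have : (fun j => Ideal.Quotient.mk I (F j : R)) = b := funext hF
    rw [this]
    exact hli
  · obtain ⟨c', hc'⟩ := hv f
    obtain ⟨e, he⟩ := hspan c'
    refine ⟨e, ?_⟩
    rw [← Ideal.Quotient.eq, hmk]
    rw [← Ideal.Quotient.eq, hmk] at hc'
    rw [hc', he]
    refine Finset.sum_congr rfl fun j _ => ?_
    rw [hF]

open Module in
/-- **Reduction of the lattice**: the `k`-dimension of `Rb ⧸ res (I ∩ 𝓡)` equals the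
`K`-dimension of `R ⧸ I`, as soon as `𝓡 / (I ∩ 𝓡)` is a finitely generated `A`-module. -/
theorem ModelData.finrank_quotient_map_res (I : Ideal R) {m : ℕ} (v : Fin m → D.𝓡)
    (hv : ∀ f : D.𝓡, ∃ c : Fin m → A, (f : R) - ∑ z, ((c z : A) : K) • (v z : R) ∈ I) :
    Module.Finite k (Rb ⧸ (I.comap D.𝓡.subtype).map D.res) ∧ Module.Finite K (R ⧸ I) ∧
    finrank k (Rb ⧸ (I.comap D.𝓡.subtype).map D.res) = finrank K (R ⧸ I) := by
  classical
  obtain ⟨n, F, hli, hF⟩ := D.exists_basis_mod I v hv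
  set J : Ideal Rb := (I.comap D.𝓡.subtype).map D.res with hJ
  have hmemJ : ∀ f : D.𝓡, (f : R) ∈ I → D.res f ∈ J := fun f hf =>
    Ideal.mem_map_of_mem _ (by rwa [Ideal.mem_comap])
  have hmk : ∀ {r : ℕ} (c : Fin r → A) (G : Fin r → D.𝓡),
      Ideal.Quotient.mk I (∑ z, ((c z : A) : K) • (G z : R)) =
        ∑ z, ((c z : A) : K) • Ideal.Quotient.mk I (G z : R) := by
    intro r c G
    rw [map_sum]
    refine Finset.sum_congr rfl fun z _ => ?_
    rw [quotMk_smul_eq]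
  have hmkJ : ∀ (c : Fin n → A),
      Ideal.Quotient.mk J (D.res (∑ j, D.constR (c j) * F j)) =
        ∑ j, D.π (c j) • Ideal.Quotient.mk J (D.res (F j)) := by
    intro c
    rw [D.res_sum_constR_mul, map_sum]
    refine Finset.sum_congr rfl fun z _ => ?_
    rw [quotMk_smul_eq]
  -- the `K`-basis of `R ⧸ I`
  have hspanK : ⊤ ≤ Submodule.span K (Set.range fun j => Ideal.Quotient.mk I (F j : R)) := by
    intro y _
    obtain ⟨r, rfl⟩ := Ideal.Quotient.mk_surjective y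
    obtain ⟨c, hc0, hcr⟩ := D.span r
    obtain ⟨e, he⟩ := hF ⟨c • r, hcr⟩
    rw [← Ideal.Quotient.eq, hmk] at he
    have h1 : Ideal.Quotient.mk I r = c⁻¹ • Ideal.Quotient.mk I (c • r) := by
      rw [quotMk_smul_eq, smul_smul, inv_mul_cancel₀ hc0, one_smul]
    rw [h1]
    refine Submodule.smul_mem _ _ ?_
    change Ideal.Quotient.mk I (c • r) ∈ _
    rw [he]
    exact Submodule.sum_mem _ fun j _ => Submodule.smul_mem _ _ (Submodule.subset_span ⟨j, rfl⟩)
  let bK : Basis (Fin n) K (R ⧸ I) := Basis.mk hli hspanK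
  -- the `k`-basis of `Rb ⧸ J`
  have hspank : ⊤ ≤ Submodule.span k (Set.range fun j => Ideal.Quotient.mk J (D.res (F j))) := by
    intro y _
    obtain ⟨g, rfl⟩ := Ideal.Quotient.mk_surjective y
    obtain ⟨f, rfl⟩ := D.res_surj g
    obtain ⟨e, he⟩ := hF f
    have h1 : D.res (f - ∑ j, D.constR (e j) * F j) ∈ J := by
      apply hmemJ
      have : ((f - ∑ j, D.constR (e j) * F j : D.𝓡) : R) =
          (f : R) - ((∑ j, D.constR (e j) * F j : D.𝓡) : R) := rfl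
      rw [this, D.coe_sum_constR_mul]
      exact he
    rw [map_sub, ← Ideal.Quotient.eq, hmkJ] at h1
    rw [h1]
    exact Submodule.sum_mem _ fun j _ => Submodule.smul_mem _ _ (Submodule.subset_span ⟨j, rfl⟩)
  have hlik : LinearIndependent k fun j => Ideal.Quotient.mk J (D.res (F j)) := by
    rw [Fintype.linearIndependent_iff]
    intro γ hγ
    choose a ha using fun j => D.π_surj (γ j)
    have h1 : D.res (∑ j, D.constR (a j) * F j) ∈ J := by
      rw [← Ideal.Quotient.eq_zero_iff_mem, hmkJ, ← hγ]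
      refine Finset.sum_congr rfl fun j _ => ?_
      rw [ha]
    obtain ⟨h, hhI, hh⟩ := (Ideal.mem_map_iff_of_surjective D.res D.res_surj).mp h1
    replace hhI : (h : R) ∈ I := hhI
    have h2 : D.res (∑ j, D.constR (a j) * F j - h) = 0 := by
      rw [map_sub, hh, sub_self]
    obtain ⟨c, g, hc, hcg⟩ := D.res_ker _ h2
    obtain ⟨e, he⟩ := hF g
    rw [← Ideal.Quotient.eq, hmk] at he
    have h3 : Ideal.Quotient.mk I ((∑ j, D.constR (a j) * F j - h : D.𝓡) : R) =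
        ∑ j, ((a j : A) : K) • Ideal.Quotient.mk I (F j : R) := by
      have : ((∑ j, D.constR (a j) * F j - h : D.𝓡) : R) =
          ((∑ j, D.constR (a j) * F j : D.𝓡) : R) - (h : R) := rfl
      rw [this, map_sub, D.coe_sum_constR_mul, hmk,
        Ideal.Quotient.eq_zero_iff_mem.mpr hhI, sub_zero]
    rw [hcg, quotMk_smul_eq, he, Finset.smul_sum] at h3
    have h4 : ∑ j, (((a j : A) : K) - (c : K) * ((e j : A) : K)) •
        Ideal.Quotient.mk I (F j : R) = 0 := by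
      simp only [sub_smul, Finset.sum_sub_distrib, mul_smul]
      rw [← h3, sub_self]
    have h5 := Fintype.linearIndependent_iff.mp hli _ h4
    intro j
    have h6 : a j = c * e j := Subtype.ext (sub_eq_zero.mp (h5 j))
    rw [← ha j, D.π_ker, h6]
    exact Ideal.mul_mem_right _ _ hc
  let bk : Basis (Fin n) k (Rb ⧸ J) := Basis.mk hlik hspank
  refine ⟨Module.Finite.of_basis bk, Module.Finite.of_basis bK, ?_⟩
  rw [finrank_eq_card_basis bk, finrank_eq_card_basis bK]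

end Basis

section C3

variable {K : Type*} [Field K] {A : ValuationSubring K} {k : Type*} [Field k]
  {R : Type*} [CommRing R] [Algebra K R] [IsDedekindDomain R]
  {Rb : Type*} [CommRing Rb] [Algebra k Rb] [IsDedekindDomain Rb]
  (D : ModelData K A k R Rb) (hR : AllPointsRational K R) (hRb : AllPointsRational k Rb)
  (hint : D.IntegralValues hR)
  (𝔮 : HeightOneSpectrum Rb) (S : Finset (HeightOneSpectrum R)) (n : HeightOneSpectrum R → ℕ)

theorem coe_prod_pow (F : HeightOneSpectrum R → D.𝓡) :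
    ((∏ 𝔭 ∈ S, F 𝔭 ^ n 𝔭 : D.𝓡) : R) = ∏ 𝔭 ∈ S, (F 𝔭 : R) ^ n 𝔭 := by
  rw [← Subring.subtype_apply, map_prod]
  refine Finset.prod_congr rfl fun 𝔭 _ => ?_
  rw [map_pow, Subring.subtype_apply]

/-- a product of powers of functions of the model vanishing at the points of `S` lies in
`∏ 𝔭 ^ n 𝔭` -/
theorem coe_prod_pow_mem (F : HeightOneSpectrum R → D.𝓡)
    (hF : ∀ 𝔭 ∈ S, (F 𝔭 : R) ∈ 𝔭.asIdeal) :
    ((∏ 𝔭 ∈ S, F 𝔭 ^ n 𝔭 : D.𝓡) : R) ∈ primePow S n := by
  rw [coe_prod_pow]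
  exact prod_pow_mem_primePow S n _ hF

/-- **`res (I ∩ 𝓡)` is `𝔮`-primary** for `I = ∏ 𝔭 ^ n 𝔭` over points `𝔭` reducing to `𝔮`. -/
theorem ModelData.exists_res_notMem (hS : ∀ 𝔭 ∈ S, 𝔭 ∈ D.fibre hR hint 𝔮)
    (𝔮' : HeightOneSpectrum Rb) (h𝔮' : 𝔮' ≠ 𝔮) :
    ∃ f : D.𝓡, (f : R) ∈ primePow S n ∧ D.res f ∉ 𝔮'.asIdeal := by
  have hnle : ¬ 𝔮.asIdeal ≤ 𝔮'.asIdeal := by
    intro hle
    apply h𝔮'
    have := 𝔮.isMaximal.eq_of_le 𝔮'.isPrime.ne_top hle
    exact (HeightOneSpectrum.ext this).symm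
  obtain ⟨hb, hb𝔮, hb𝔮'⟩ := Set.not_subset.mp hnle
  obtain ⟨h, rfl⟩ := D.res_surj hb
  refine ⟨∏ 𝔭 ∈ S, D.shiftAt hR hint h 𝔭 ^ n 𝔭,
    coe_prod_pow_mem D S n _ fun 𝔭 _ => D.coe_shiftAt_mem hR hint h 𝔭, ?_⟩
  rw [map_prod]
  have : ∏ 𝔭 ∈ S, D.res (D.shiftAt hR hint h 𝔭 ^ n 𝔭) = ∏ 𝔭 ∈ S, D.res h ^ n 𝔭 := by
    refine Finset.prod_congr rfl fun 𝔭 h𝔭 => ?_
    rw [map_pow, D.res_shiftAt_of_mem hR hint h (hS 𝔭 h𝔭) hb𝔮]
  rw [this, Finset.prod_pow_eq_pow_sum]
  exact fun hmem => hb𝔮' (𝔮'.isPrime.mem_of_pow_mem _ hmem)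

open Classical in
/-- the value of the coordinate at an integral point (and `0` at the other points) -/
def ModelData.tval (𝔭 : HeightOneSpectrum R) : A :=
  if h : D.IsIntegralPt hR 𝔭 then ⟨ev hR 𝔭 D.t, h⟩ else 0

theorem ModelData.sub_tval_mem {𝔭 : HeightOneSpectrum R} (h : D.IsIntegralPt hR 𝔭) :
    D.t - algebraMap K R (D.tval hR 𝔭 : K) ∈ 𝔭.asIdeal := by
  unfold ModelData.tval
  rw [dif_pos h]
  exact sub_ev_mem hR 𝔭 D.t

/-- the monic polynomial `∏ (X - t(𝔭)) ^ n 𝔭` -/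
def ModelData.cutPoly : A[X] := ∏ 𝔭 ∈ S, (X - C (D.tval hR 𝔭)) ^ n 𝔭

theorem ModelData.cutPoly_monic : (D.cutPoly hR S n).Monic :=
  monic_prod_of_monic _ _ fun 𝔭 _ => (monic_X_sub_C _).pow _

theorem ModelData.evalT_cutPoly :
    D.evalT (D.cutPoly hR S n) = ∏ 𝔭 ∈ S, (D.t - algebraMap K R (D.tval hR 𝔭 : K)) ^ n 𝔭 := by
  unfold ModelData.evalT ModelData.cutPoly
  rw [Polynomial.map_prod, map_prod]
  refine Finset.prod_congr rfl fun 𝔭 _ => ?_
  rw [Polynomial.map_pow, Polynomial.map_sub, map_X, map_C, map_pow, map_sub, aeval_X, aeval_C]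
  rfl

theorem ModelData.evalT_cutPoly_mem (hS : ∀ 𝔭 ∈ S, D.IsIntegralPt hR 𝔭) :
    D.evalT (D.cutPoly hR S n) ∈ primePow S n := by
  rw [D.evalT_cutPoly]
  exact prod_pow_mem_primePow S n _ fun 𝔭 h𝔭 => D.sub_tval_mem hR (hS 𝔭 h𝔭)

/-- `res (I ∩ 𝓡) ≠ 0` -/
theorem ModelData.map_res_ne_bot (hS : ∀ 𝔭 ∈ S, D.IsIntegralPt hR 𝔭) :
    ((primePow S n).comap D.𝓡.subtype).map D.res ≠ ⊥ := by
  set T : D.𝓡 := ⟨D.t, D.t_mem⟩ with hT
  set g : D.𝓡 := ∏ 𝔭 ∈ S, (T - D.constR (D.tval hR 𝔭)) ^ n 𝔭 with hg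
  have hgI : (g : R) ∈ primePow S n :=
    coe_prod_pow_mem D S n _ fun 𝔭 h𝔭 => D.sub_tval_mem hR (hS 𝔭 h𝔭)
  have hres : D.res g ≠ 0 := by
    rw [hg, map_prod, Finset.prod_ne_zero_iff]
    intro 𝔭 _
    rw [map_pow]
    refine pow_ne_zero _ ?_
    rw [map_sub, D.res_constR, sub_ne_zero]
    exact D.res_t_ne _
  intro hbot
  apply hres
  have : D.res g ∈ ((primePow S n).comap D.𝓡.subtype).map D.res :=
    Ideal.mem_map_of_mem _ (by rwa [Ideal.mem_comap])
  rwa [hbot, Ideal.mem_bot] at this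

include hRb in
open Module Fermat.Agent.S20.RR.IdealDim in
/-- **(C3)** for `I = ∏ 𝔭 ^ n 𝔭` over points `𝔭` reducing to `𝔮`: `res (I ∩ 𝓡) = 𝔮 ^ (∑ n 𝔭)`. -/
theorem ModelData.map_res_eq_pow (hS : ∀ 𝔭 ∈ S, 𝔭 ∈ D.fibre hR hint 𝔮) :
    ((primePow S n).comap D.𝓡.subtype).map D.res = 𝔮.asIdeal ^ (∑ 𝔭 ∈ S, n 𝔭) := by
  classical
  have hSint : ∀ 𝔭 ∈ S, D.IsIntegralPt hR 𝔭 := fun 𝔭 h𝔭 => (hS 𝔭 h𝔭).1
  obtain ⟨m, v, hv⟩ := D.exists_family_mod (primePow S n) (D.cutPoly hR S n)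
    (D.cutPoly_monic hR S n) (D.evalT_cutPoly_mem hR S n hSint)
  obtain ⟨-, -, hfr⟩ := D.finrank_quotient_map_res (primePow S n) v hv
  set J : Ideal Rb := ((primePow S n).comap D.𝓡.subtype).map D.res with hJ
  have hJ0 : J ≠ ⊥ := D.map_res_ne_bot hR S n hSint
  have hKres : ResidueFieldsEq K R := fun v => (hR v).2
  have hkres : ResidueFieldsEq k Rb := fun v => (hRb v).2
  rw [finrank_quotient hKres (primePow_ne_bot S n), finrank_quotient hkres hJ0,
    card_normalizedFactors_primePow] at hfr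
  have hall : ∀ P ∈ normalizedFactors J, P = 𝔮.asIdeal := by
    intro P hP
    have hPprime : Prime P := prime_of_normalized_factor P hP
    have hJP : J ≤ P := Ideal.le_of_dvd (dvd_of_mem_normalizedFactors hP)
    let 𝔮' : HeightOneSpectrum Rb := ⟨P, Ideal.isPrime_of_prime hPprime, hPprime.ne_zero⟩
    by_contra hne
    have h𝔮' : 𝔮' ≠ 𝔮 := fun h => hne (congrArg HeightOneSpectrum.asIdeal h)
    obtain ⟨f, hfI, hf𝔮'⟩ := D.exists_res_notMem hR hint 𝔮 S n hS 𝔮' h𝔮'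
    apply hf𝔮'
    apply hJP
    exact Ideal.mem_map_of_mem _ (by rwa [Ideal.mem_comap])
  have hrep : normalizedFactors J = Multiset.replicate (∑ 𝔭 ∈ S, n 𝔭) 𝔮.asIdeal :=
    Multiset.eq_replicate.mpr ⟨hfr, hall⟩
  rw [← Ideal.prod_normalizedFactors_eq_self hJ0, hrep, Multiset.prod_replicate]

end C3

section Factorization

variable {R : Type*} [CommRing R] [IsDedekindDomain R]

theorem count_eq_multiplicity {I : Ideal R} (hI : I ≠ ⊥) (v : HeightOneSpectrum R) :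
    Multiset.count v.asIdeal (normalizedFactors I) = multiplicity v.asIdeal I := by
  classical
  symm
  apply multiplicity_eq_of_emultiplicity_eq_some
  rw [emultiplicity_eq_count_normalizedFactors v.irreducible hI, normalize_eq]

/-- the factorisation of a nonzero ideal, indexed by a finite set of points containing its
zeros -/
theorem eq_primePow_multiplicity {I : Ideal R} (hI : I ≠ ⊥) (Z : Finset (HeightOneSpectrum R))
    (hZ : ∀ v : HeightOneSpectrum R, v.asIdeal ∣ I → v ∈ Z) :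
    I = primePow Z fun v => multiplicity v.asIdeal I := by
  classical
  conv_lhs => rw [← Ideal.finprod_heightOneSpectrum_factorization hI]
  rw [finprod_eq_prod_of_mulSupport_subset (s := Z)]
  · unfold primePow
    refine Finset.prod_congr rfl fun v _ => ?_
    rw [v.maxPowDividing_eq_pow_multiset_count hI, count_eq_multiplicity hI]
  · intro v hv
    by_contra hvZ
    apply hv
    have h1 : ¬ v.asIdeal ∣ I := fun h => hvZ (hZ v h)
    show v.maxPowDividing I = 1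
    rw [v.maxPowDividing_eq_pow_multiset_count hI, count_eq_multiplicity hI,
      multiplicity_eq_zero.mpr h1, pow_zero]

end Factorization

section C4

variable {K : Type*} [Field K] {A : ValuationSubring K} {k : Type*} [Field k]
  {R : Type*} [CommRing R] [Algebra K R] [IsDedekindDomain R]
  {Rb : Type*} [CommRing Rb] [Algebra k Rb] [IsDedekindDomain Rb]
  (D : ModelData K A k R Rb) (hR : AllPointsRational K R) (hRb : AllPointsRational k Rb)
  (hint : D.IntegralValues hR)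

/-- a point not reducing to `𝔮` is cut out by a function of the model whose reduction does not
vanish at `𝔮` -/
theorem ModelData.exists_sep (hsep : D.Separation hR hint) (𝔮 : HeightOneSpectrum Rb)
    (𝔭 : HeightOneSpectrum R) (h𝔭 : 𝔭 ∉ D.fibre hR hint 𝔮) :
    ∃ f : D.𝓡, (f : R) ∈ 𝔭.asIdeal ∧ D.res f ∉ 𝔮.asIdeal := by
  by_cases h : D.IsIntegralPt hR 𝔭
  · exact hsep.1 𝔭 h 𝔮 fun hq => h𝔭 ⟨h, hq⟩
  · obtain ⟨f, hf, hf1⟩ := hsep.2 𝔭 h
    refine ⟨f, hf, ?_⟩
    rw [hf1]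
    exact (Ideal.ne_top_iff_one _).mp 𝔮.isPrime.ne_top

include hRb in
/-- (C4) the count for a given factorisation `(u) = ∏ 𝔭 ∈ Z, 𝔭 ^ n 𝔭`, the zeros being split into
those reducing to `𝔮` (`Zq`) and the others (`Zr`). -/
theorem ModelData.count_aux (hsep : D.Separation hR hint) (u : D.𝓡) (hu : D.res u ≠ 0)
    (𝔮 : HeightOneSpectrum Rb) (Zq Zr : Finset (HeightOneSpectrum R))
    (n : HeightOneSpectrum R → ℕ)
    (hfac : Ideal.span {(u : R)} = primePow Zq n * primePow Zr n)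
    (hZq : ∀ 𝔭 ∈ Zq, 𝔭 ∈ D.fibre hR hint 𝔮) (hZr : ∀ 𝔭 ∈ Zr, 𝔭 ∉ D.fibre hR hint 𝔮) :
    multiplicity 𝔮.asIdeal (Ideal.span {D.res u}) = ∑ 𝔭 ∈ Zq, n 𝔭 := by
  classical
  -- (C3)
  have hC3 : ((primePow Zq n).comap D.𝓡.subtype).map D.res = 𝔮.asIdeal ^ (∑ 𝔭 ∈ Zq, n 𝔭) :=
    D.map_res_eq_pow hR hRb hint 𝔮 Zq n hZq
  generalize (∑ 𝔭 ∈ Zq, n 𝔭) = d at hC3 ⊢
  apply multiplicity_eq_of_dvd_of_not_dvd
  · -- `res u ∈ 𝔮 ^ d`
    rw [Ideal.dvd_span_singleton, ← hC3]
    have h1 : (u : R) ∈ primePow Zq n * primePow Zr n := by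
      rw [← hfac]
      exact Ideal.mem_span_singleton_self _
    have h2 : primePow Zq n * primePow Zr n ≤ primePow Zq n := Ideal.mul_le_left
    have h3 : (u : R) ∈ primePow Zq n := h2 h1
    exact Ideal.mem_map_of_mem _ h3
  · -- `res u ∉ 𝔮 ^ (d + 1)`
    rw [Ideal.dvd_span_singleton]
    intro hmem
    -- `f` with `ord_𝔮 (res f) = d`
    obtain ⟨y, hyd, hyd1⟩ := SetLike.exists_of_lt
      (Ideal.pow_succ_lt_pow (P := 𝔮.asIdeal) 𝔮.ne_bot d)
    rw [← hC3] at hyd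
    obtain ⟨f, hfI, rfl⟩ := (Ideal.mem_map_iff_of_surjective D.res D.res_surj).mp hyd
    replace hfI : (f : R) ∈ primePow Zq n := hfI
    -- `f'` vanishing on the other zeros of `u`
    have hex : ∀ 𝔭 : HeightOneSpectrum R, ∃ φ : D.𝓡,
        𝔭 ∉ D.fibre hR hint 𝔮 → (φ : R) ∈ 𝔭.asIdeal ∧ D.res φ ∉ 𝔮.asIdeal := by
      intro 𝔭
      by_cases h𝔭 : 𝔭 ∈ D.fibre hR hint 𝔮
      · exact ⟨0, fun h => absurd h𝔭 h⟩
      · obtain ⟨φ, h1, h2⟩ := D.exists_sep hR hint hsep 𝔮 𝔭 h𝔭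
        exact ⟨φ, fun _ => ⟨h1, h2⟩⟩
    choose φ hφ using hex
    have hf'I : ((∏ 𝔭 ∈ Zr, φ 𝔭 ^ n 𝔭 : D.𝓡) : R) ∈ primePow Zr n :=
      coe_prod_pow_mem D Zr n φ fun 𝔭 h𝔭 => (hφ 𝔭 (hZr 𝔭 h𝔭)).1
    have hf'q : D.res (∏ 𝔭 ∈ Zr, φ 𝔭 ^ n 𝔭) ∉ 𝔮.asIdeal := by
      rw [map_prod]
      intro hmem'
      obtain ⟨𝔭, h𝔭, h1⟩ := (Ideal.IsPrime.prod_mem_iff (hp := 𝔮.isPrime)).mp hmem'
      rw [map_pow] at h1
      exact (hφ 𝔭 (hZr 𝔭 h𝔭)).2 (𝔮.isPrime.mem_of_pow_mem _ h1)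
    generalize (∏ 𝔭 ∈ Zr, φ 𝔭 ^ n 𝔭 : D.𝓡) = f' at hf'I hf'q
    -- `f f' = u h`
    have hprod : (f : R) * (f' : R) ∈ Ideal.span {(u : R)} := by
      rw [hfac]
      exact Ideal.mul_mem_mul hfI hf'I
    obtain ⟨h, hh⟩ := Ideal.mem_span_singleton'.mp hprod
    have hh𝓡 : h ∈ D.𝓡 := by
      apply D.mem_of_mul_mem u hu h
      rw [mul_comm, hh]
      exact (f * f').2
    have heq : D.res f * D.res f' = D.res u * D.res ⟨h, hh𝓡⟩ := by
      rw [← map_mul, ← map_mul]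
      congr 1
      apply Subtype.ext
      show (f : R) * (f' : R) = (u : R) * h
      rw [← hh, mul_comm]
    have h1 : D.res f * D.res f' ∈ 𝔮.asIdeal ^ (d + 1) := by
      rw [heq]
      exact Ideal.mul_mem_right _ _ hmem
    have h2 : 𝔮.asIdeal ^ (d + 1) ∣ Ideal.span {D.res f} * Ideal.span {D.res f'} := by
      rw [Ideal.span_singleton_mul_span_singleton, Ideal.dvd_span_singleton]
      exact h1
    have h3 : ¬ 𝔮.asIdeal ∣ Ideal.span {D.res f'} := by
      rw [Ideal.dvd_span_singleton]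
      exact hf'q
    have h4 := 𝔮.prime.pow_dvd_of_dvd_mul_right (d + 1) h3 h2
    rw [Ideal.dvd_span_singleton] at h4
    exact hyd1 h4

include hRb in
/-- **Conservation of number** (RED-C): for `u ∈ 𝓡` with nonzero reduction, the order of `res u`
at `𝔮` is the sum of the orders of `u` at the integral points reducing to `𝔮`. -/
theorem ModelData.count (hsep : D.Separation hR hint) : D.Count hR hint := by
  classical
  intro u hu 𝔮
  have hu0 : (u : R) ≠ 0 := D.res_ne_zero_imp_ne_zero hu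
  have hIu : Ideal.span {(u : R)} ≠ ⊥ := by
    rwa [Ne, Ideal.span_singleton_eq_bot]
  obtain ⟨Z, hZ⟩ : ∃ Z : Finset (HeightOneSpectrum R),
      ∀ v : HeightOneSpectrum R, v ∈ Z ↔ v.asIdeal ∣ Ideal.span {(u : R)} :=
    ⟨(Ideal.finite_factors hIu).toFinset, fun v => Set.Finite.mem_toFinset _⟩
  have hfac := eq_primePow_multiplicity hIu Z fun v hv => (hZ v).mpr hv
  have hsupp : ∀ 𝔭 : HeightOneSpectrum R,
      multiplicity 𝔭.asIdeal (Ideal.span {(u : R)}) ≠ 0 → 𝔭 ∈ Z := by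
    intro 𝔭 h𝔭
    by_contra hnZ
    exact h𝔭 (multiplicity_eq_zero.mpr fun hdvd => hnZ ((hZ 𝔭).mpr hdvd))
  refine ⟨Z.finite_toSet.subset fun 𝔭 h𝔭 => ?_, ?_⟩
  · rw [Finset.mem_coe, hZ, Ideal.dvd_span_singleton]
    exact h𝔭.2
  change ∑ᶠ 𝔭 ∈ D.fibre hR hint 𝔮,
    (fun v : HeightOneSpectrum R => multiplicity v.asIdeal (Ideal.span {(u : R)})) 𝔭 = _
  change ∀ 𝔭 : HeightOneSpectrum R,
    (fun v : HeightOneSpectrum R => multiplicity v.asIdeal (Ideal.span {(u : R)})) 𝔭 ≠ 0 →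
      𝔭 ∈ Z at hsupp
  generalize (fun v : HeightOneSpectrum R => multiplicity v.asIdeal (Ideal.span {(u : R)})) = n
    at hfac hsupp ⊢
  have hsplit : primePow Z n =
      primePow (Z.filter fun 𝔭 => 𝔭 ∈ D.fibre hR hint 𝔮) n *
        primePow (Z.filter fun 𝔭 => ¬ 𝔭 ∈ D.fibre hR hint 𝔮) n := by
    unfold primePow
    rw [Finset.prod_filter_mul_prod_filter_not]
  rw [hsplit] at hfac
  rw [D.count_aux hR hRb hint hsep u hu 𝔮 _ _ n hfac
    (fun 𝔭 h𝔭 => (Finset.mem_filter.mp h𝔭).2) (fun 𝔭 h𝔭 => (Finset.mem_filter.mp h𝔭).2)]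
  apply finsum_mem_eq_sum_of_inter_support_eq
  ext 𝔭
  simp only [Set.mem_inter_iff, Function.mem_support, Finset.mem_coe, Finset.mem_filter]
  constructor
  · rintro ⟨h1, h2⟩
    exact ⟨⟨hsupp 𝔭 h2, h1⟩, h2⟩
  · rintro ⟨⟨_, h1⟩, h2⟩
    exact ⟨h1, h2⟩

end C4

end Fermat.Agent.Gateway.Red
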