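/-
helper64 (P-GATEWAY (c), RED block, RED-D final): the chart theorem (conservation of number) and the
surjectivity of the reduction of places on a chart, UNCONDITIONALLY, now that
`ModelData.separation` (RED-B2, helper67) and `ModelData.count` (RED-C, helper30/helper26) are
landed.
-/
import Fermat.Agent.Gateway.Red.ChartOfBase
import Fermat.Agent.Gateway.Red.Count

set_option autoImplicit false
set_option linter.unusedSectionVars false

noncomputable section

namespace Fermat.Agent.Gateway.Red

open Polynomial IntermediateField AlgebraicCurve IsDedekindDomain

namespace ChartInput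

variable {K : Type*} [Field K] {A : ValuationSubring K} {k : Type*} [Field k]
  {F : Type*} [Field F] [Algebra K F] {Fk : Type*} [Field Fk] [Algebra k Fk]
  (C : ChartInput K A k F Fk)
  [IsAlgClosed K] [FiniteDimensional K⟮C.t⟯ F] [Algebra.IsSeparable K⟮C.t⟯ F]
  [IsAlgClosed k] [FiniteDimensional k⟮C.tb⟯ Fk] [Algebra.IsSeparable k⟮C.tb⟯ Fk]

/-- `ModelData.Count` for the model of a chart -/
theorem modelCount : C.modelData.Count C.allPointsRational_R C.integralValues :=
  C.modelData.count C.allPointsRational_R C.allPointsRational_Rb C.integralValues
    (C.modelData.separation C.allPointsRational_R C.integralValues)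

/-- **Chart theorem (conservation of number), unconditional**: for `u ∈ O` with nonzero
reduction and a place `Q` of the special fibre on the chart (`tb` regular at `Q`), the orders of
`u` at the integral places of the chart reducing to `Q` add up to the order of `res u` at `Q`. -/
theorem count_chart (u : C.O) (hu : C.res u ≠ 0) (Q : Place k Fk)
    (hQ : C.tb ∈ Q.toValuationSubring) :
    (C.redFibre Q ∩ {P | P.ord (u : F) ≠ 0}).Finite ∧
      ∑ᶠ P ∈ C.redFibre Q, P.ord (u : F) = Q.ord (C.res u) :=
  C.count_red C.modelCount u hu Q hQ

/-- **Surjectivity of the reduction of places on a chart, unconditional.** -/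
theorem exists_red (Q : Place k Fk) (hQ : C.tb ∈ Q.toValuationSubring) :
    ∃ (P : Place K F) (hP : C.IsIntegralPlace P), C.red P hP = Q :=
  C.exists_red_eq C.modelCount Q hQ

end ChartInput

end Fermat.Agent.Gateway.Red
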