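import Mathlib
import Fermat.Agent.Gateway.Red.Model

/-!
# RED-C2: colength of ideals in a Dedekind algebra all of whose points are rational

`R` a Dedekind `K`-algebra with `AllPointsRational K R` (every residue field is `K`).  Then for a
nonzero ideal `I`, `R ⧸ I` is finite dimensional over `K` of dimension the number of prime factors
of `I` counted with multiplicity; in particular `dim_K R ⧸ ∏ 𝔭 ^ n 𝔭 = ∑ n 𝔭`.  An ideal `J` lying
in no maximal ideal other than `𝔮` with `dim_K R ⧸ J = d` is `𝔮 ^ d`.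
-/

set_option autoImplicit false
set_option linter.style.haveILetI false

noncomputable section

namespace Fermat.Agent.Gateway.Red

open IsDedekindDomain Module UniqueFactorizationMonoid

section colength

variable {K : Type*} [Field K] {R : Type*} [CommRing R] [Algebra K R] [IsDedekindDomain R]

/-- In a Dedekind domain, `I = (a) + P I` for `P` a nonzero prime and `a ∈ I \ P I`. -/
theorem span_sup_mul_eq_of_notMem {P I : Ideal R} (hP : P.IsPrime) (hP0 : P ≠ ⊥) (hI : I ≠ ⊥)
    {a : R} (haI : a ∈ I) (ha : a ∉ P * I) : Ideal.span {a} ⊔ P * I = I := by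
  set J := Ideal.span {a} ⊔ P * I with hJ
  have hJI : J ≤ I := sup_le ((Ideal.span_singleton_le_iff_mem I).mpr haI) Ideal.mul_le_right
  have hPIJ : P * I ≤ J := le_sup_right
  obtain ⟨J', hJ'⟩ := Ideal.dvd_iff_le.mpr hJI
  have h1 : I * J' ∣ I * P := by
    rw [← hJ', mul_comm I P]
    exact Ideal.dvd_iff_le.mpr hPIJ
  have h2 : J' ∣ P := (mul_dvd_mul_iff_left hI).mp h1
  have hirr : Irreducible P := (Ideal.prime_of_isPrime hP0 hP).irreducible
  rcases (hirr.dvd_iff.mp h2) with hu | hass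
  · rw [Ideal.isUnit_iff] at hu
    rw [hJ', hu, Ideal.mul_top]
  · exfalso
    rw [associated_iff_eq] at hass
    apply ha
    have : a ∈ J := Ideal.mem_sup_left (Ideal.mem_span_singleton_self a)
    rw [hJ', ← hass, mul_comm] at this
    exact this

/-- **Key step**: multiplying by a (rational) prime raises the colength by one. -/
theorem finrank_quotient_prime_mul (hR : AllPointsRational K R) (P : HeightOneSpectrum R)
    {I : Ideal R} (hI : I ≠ ⊥) (hfin : Module.Finite K (R ⧸ I)) :
    Module.Finite K (R ⧸ P.asIdeal * I) ∧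
      finrank K (R ⧸ P.asIdeal * I) = finrank K (R ⧸ I) + 1 := by
  have hlt : P.asIdeal * I < I := by
    refine lt_of_le_of_ne Ideal.mul_le_right fun h => ?_
    have h1 : P.asIdeal * I = ⊤ * I := by rw [h, Ideal.top_mul]
    exact P.isPrime.ne_top (mul_right_cancel₀ hI h1)
  obtain ⟨a, haI, ha⟩ := SetLike.exists_of_lt hlt
  have hsup := span_sup_mul_eq_of_notMem P.isPrime P.ne_bot hI haI ha
  -- the projection
  set f : (R ⧸ P.asIdeal * I) →ₗ[K] (R ⧸ I) :=
    (Ideal.Quotient.factorₐ K (Ideal.mul_le_right : P.asIdeal * I ≤ I)).toLinearMap with hf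
  have hfmk : ∀ r : R, f (Ideal.Quotient.mk _ r) = Ideal.Quotient.mk _ r := fun r => rfl
  have hsurj : Function.Surjective f := by
    intro y
    obtain ⟨r, rfl⟩ := Ideal.Quotient.mk_surjective y
    exact ⟨Ideal.Quotient.mk _ r, hfmk r⟩
  set v : R ⧸ P.asIdeal * I := Ideal.Quotient.mk _ a with hv
  have hv0 : v ≠ 0 := by
    rw [hv, Ne, Ideal.Quotient.eq_zero_iff_mem]
    exact ha
  have hker : LinearMap.ker f = K ∙ v := by
    apply le_antisymm
    · intro x hx
      obtain ⟨r, rfl⟩ := Ideal.Quotient.mk_surjective x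
      rw [LinearMap.mem_ker, hfmk, Ideal.Quotient.eq_zero_iff_mem] at hx
      rw [← hsup] at hx
      obtain ⟨y, hy, e, he, rfl⟩ := Submodule.mem_sup.mp hx
      obtain ⟨d, rfl⟩ := Ideal.mem_span_singleton'.mp hy
      -- `d = λ + p`
      obtain ⟨c, hc⟩ := (hR P).2 (Ideal.Quotient.mk P.asIdeal d)
      have hdp : d - algebraMap K R c ∈ P.asIdeal := by
        rw [← Ideal.Quotient.eq_zero_iff_mem, map_sub, ← hc]
        exact sub_eq_zero.mpr rfl
      rw [Submodule.mem_span_singleton]
      refine ⟨c, ?_⟩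
      rw [hv, Algebra.smul_def]
      have h1 : (algebraMap K (R ⧸ P.asIdeal * I)) c =
          Ideal.Quotient.mk _ (algebraMap K R c) := rfl
      rw [h1, ← map_mul, eq_comm]
      rw [Ideal.Quotient.eq]
      have h2 : d * a + e - algebraMap K R c * a = (d - algebraMap K R c) * a + e := by ring
      rw [h2]
      exact Ideal.add_mem _ (Ideal.mul_mem_mul hdp haI) he
    · rw [Submodule.span_singleton_le_iff_mem, LinearMap.mem_ker, hv, hfmk,
        Ideal.Quotient.eq_zero_iff_mem]
      exact haI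
  have e1 : ((R ⧸ P.asIdeal * I) ⧸ LinearMap.ker f) ≃ₗ[K] (R ⧸ I) :=
    f.quotKerEquivOfSurjective hsurj
  haveI hfinq : Module.Finite K ((R ⧸ P.asIdeal * I) ⧸ LinearMap.ker f) :=
    Module.Finite.equiv e1.symm
  haveI hfink : Module.Finite K ↥(LinearMap.ker f) := by
    rw [hker]
    infer_instance
  haveI hfinM : Module.Finite K (R ⧸ P.asIdeal * I) :=
    Module.Finite.of_submodule_quotient (LinearMap.ker f)
  refine ⟨hfinM, ?_⟩
  have h3 := Submodule.finrank_quotient_add_finrank (LinearMap.ker f)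
  rw [e1.finrank_eq] at h3
  have h4 : finrank K ↥(LinearMap.ker f) = 1 := by
    rw [hker]
    exact finrank_span_singleton hv0
  rw [h4] at h3
  exact h3.symm

/-- **Colength formula**: for a nonzero ideal `I` of a Dedekind `K`-algebra with rational points,
`dim_K R ⧸ I` is the number of prime factors of `I` counted with multiplicity. -/
theorem finrank_quotient_eq_card_normalizedFactors (hR : AllPointsRational K R) (I : Ideal R)
    (hI : I ≠ ⊥) :
    Module.Finite K (R ⧸ I) ∧ finrank K (R ⧸ I) = Multiset.card (normalizedFactors I) := by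
  induction I using UniqueFactorizationMonoid.induction_on_prime with
  | h₁ => exact absurd rfl hI
  | h₂ I hu =>
    rw [Ideal.isUnit_iff] at hu
    subst hu
    haveI : Subsingleton (R ⧸ (⊤ : Ideal R)) := Ideal.Quotient.subsingleton_iff.mpr rfl
    refine ⟨inferInstance, ?_⟩
    rw [finrank_zero_of_subsingleton]
    have : normalizedFactors (⊤ : Ideal R) = 0 := by
      rw [← Ideal.one_eq_top]
      exact normalizedFactors_one
    rw [this, Multiset.card_zero]
  | h₃ I P hI0 hP ih =>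
    have hI' : I ≠ ⊥ := hI0
    obtain ⟨hfin, hrank⟩ := ih hI'
    have hPprime : P.IsPrime := Ideal.isPrime_of_prime hP
    have hP0 : P ≠ ⊥ := hP.ne_zero
    obtain ⟨h1, h2⟩ := finrank_quotient_prime_mul hR ⟨P, hPprime, hP0⟩ hI' hfin
    refine ⟨h1, ?_⟩
    change finrank K (R ⧸ P * I) = _
    have h2' : finrank K (R ⧸ P * I) = finrank K (R ⧸ I) + 1 := h2
    rw [h2', hrank, normalizedFactors_mul hP0 hI', normalizedFactors_irreducible hP.irreducible,
      normalize_eq, Multiset.card_add, Multiset.card_singleton, add_comm]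

/-- number of prime factors of a product of prime powers -/
theorem card_normalizedFactors_prod_pow (S : Finset (HeightOneSpectrum R))
    (n : HeightOneSpectrum R → ℕ) :
    (∏ 𝔭 ∈ S, 𝔭.asIdeal ^ n 𝔭) ≠ ⊥ ∧
      Multiset.card (normalizedFactors (∏ 𝔭 ∈ S, 𝔭.asIdeal ^ n 𝔭)) = ∑ 𝔭 ∈ S, n 𝔭 := by
  classical
  induction S using Finset.induction_on with
  | empty =>
    refine ⟨?_, ?_⟩
    · rw [Finset.prod_empty, Ideal.one_eq_top]
      exact top_ne_bot
    · rw [Finset.prod_empty, normalizedFactors_one, Multiset.card_zero, Finset.sum_empty]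
  | insert 𝔭 S h𝔭 ih =>
    obtain ⟨h0, hcard⟩ := ih
    have hp0 : 𝔭.asIdeal ^ n 𝔭 ≠ ⊥ := pow_ne_zero _ 𝔭.ne_bot
    rw [Finset.prod_insert h𝔭, Finset.sum_insert h𝔭]
    refine ⟨mul_ne_zero hp0 h0, ?_⟩
    rw [normalizedFactors_mul hp0 h0, Multiset.card_add, hcard, normalizedFactors_pow,
      normalizedFactors_irreducible 𝔭.irreducible, normalize_eq, Multiset.card_nsmul,
      Multiset.card_singleton, mul_one]

/-- **(C2a)** `dim_K R ⧸ ∏ 𝔭 ^ n 𝔭 = ∑ n 𝔭`. -/
theorem finrank_quotient_prod_pow (hR : AllPointsRational K R) (S : Finset (HeightOneSpectrum R))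
    (n : HeightOneSpectrum R → ℕ) :
    Module.Finite K (R ⧸ ∏ 𝔭 ∈ S, 𝔭.asIdeal ^ n 𝔭) ∧
      finrank K (R ⧸ ∏ 𝔭 ∈ S, 𝔭.asIdeal ^ n 𝔭) = ∑ 𝔭 ∈ S, n 𝔭 := by
  obtain ⟨h0, hcard⟩ := card_normalizedFactors_prod_pow S n
  obtain ⟨h1, h2⟩ := finrank_quotient_eq_card_normalizedFactors hR _ h0
  exact ⟨h1, h2.trans hcard⟩

/-- `dim_K R ⧸ 𝔭 ^ n = n`. -/
theorem finrank_quotient_pow (hR : AllPointsRational K R) (𝔭 : HeightOneSpectrum R) (n : ℕ) :
    Module.Finite K (R ⧸ 𝔭.asIdeal ^ n) ∧ finrank K (R ⧸ 𝔭.asIdeal ^ n) = n := by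
  obtain ⟨h1, h2⟩ := finrank_quotient_eq_card_normalizedFactors hR (𝔭.asIdeal ^ n)
    (pow_ne_zero _ 𝔭.ne_bot)
  refine ⟨h1, ?_⟩
  rw [h2, normalizedFactors_pow, normalizedFactors_irreducible 𝔭.irreducible, normalize_eq,
    Multiset.card_nsmul, Multiset.card_singleton, mul_one]

/-- A Dedekind `K`-algebra with a height one prime is not finite dimensional over `K`. -/
theorem not_finite_of_heightOneSpectrum (𝔮 : HeightOneSpectrum R) : ¬ Module.Finite K R := by
  intro h
  haveI : IsArtinianRing R := IsArtinianRing.of_finite K R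
  have hfield : IsField R := IsArtinianRing.isField_of_isDomain R
  rcases hfield.isPrincipalIdealRing.principal 𝔮.asIdeal with ⟨x, hx⟩
  have h1 : 𝔮.asIdeal = ⊥ ∨ 𝔮.asIdeal = ⊤ := by
    letI := hfield.toField
    exact Ideal.eq_bot_or_top 𝔮.asIdeal
  rcases h1 with h1 | h1
  · exact 𝔮.ne_bot h1
  · exact 𝔮.isPrime.ne_top h1

/-- **(C2b)** an ideal `J` contained in no maximal ideal other than `𝔮`, with
`dim_K R ⧸ J = d`, is `𝔮 ^ d`. -/
theorem eq_pow_of_finrank_quotient (hR : AllPointsRational K R) (𝔮 : HeightOneSpectrum R)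
    (J : Ideal R) (hJ : ∀ 𝔮' : HeightOneSpectrum R, J ≤ 𝔮'.asIdeal → 𝔮' = 𝔮)
    (hfin : Module.Finite K (R ⧸ J)) (d : ℕ) (hd : finrank K (R ⧸ J) = d) :
    J = 𝔮.asIdeal ^ d := by
  have hJ0 : J ≠ ⊥ := by
    rintro rfl
    apply not_finite_of_heightOneSpectrum (K := K) 𝔮
    exact Module.Finite.equiv
      ((AlgEquiv.quotientBot K R).toLinearEquiv)
  obtain ⟨-, h2⟩ := finrank_quotient_eq_card_normalizedFactors hR J hJ0
  have hall : ∀ P ∈ normalizedFactors J, P = 𝔮.asIdeal := by
    intro P hP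
    have hprime : Prime P := prime_of_normalized_factor P hP
    have hle : J ≤ P := Ideal.le_of_dvd (dvd_of_mem_normalizedFactors hP)
    have := hJ ⟨P, Ideal.isPrime_of_prime hprime, hprime.ne_zero⟩ hle
    rw [← this]
  have hprod := Ideal.prod_normalizedFactors_eq_self hJ0
  rw [Multiset.eq_replicate_of_mem hall, Multiset.prod_replicate, ← h2, hd] at hprod
  exact hprod.symm

end colength

end Fermat.Agent.Gateway.Red
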