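/-
P-GATEWAY (c), RED block (helper30): the UNCONDITIONAL forms of the conservation of number.
`Red/Count.lean` (RED-C) + `Red/Separation.lean` (RED-B2) + `Red/Integral.lean` (RED-B1) give
`ModelData.Count` without hypotheses; hence the chart theorem `count_red` and the surjectivity of
the reduction of places `exists_red_eq` of `Red/ChartOfBase.lean` without the hypothesis `hcount`.
-/
import Fermat.Agent.Gateway.Red.Count
import Fermat.Agent.Gateway.Red.Separation
import Fermat.Agent.Gateway.Red.ChartOfBase

set_option autoImplicit false
set_option linter.unusedSectionVars false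

noncomputable section

namespace Fermat.Agent.Gateway.Red

open Polynomial IntermediateField AlgebraicCurve IsDedekindDomain

section Abstract

variable {K : Type*} [Field K] {A : ValuationSubring K} {k : Type*} [Field k]
  {R : Type*} [CommRing R] [Algebra K R] [IsDedekindDomain R]
  {Rb : Type*} [CommRing Rb] [Algebra k Rb] [IsDedekindDomain Rb]
  (D : ModelData K A k R Rb) (hR : AllPointsRational K R) (hRb : AllPointsRational k Rb)

include hRb in
/-- **Conservation of number, unconditional** (for any proof `hint` of the integrality of
values). -/
theorem ModelData.count_of_integralValues (hint : D.IntegralValues hR) : D.Count hR hint :=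
  D.count hR hRb hint (D.separation hR hint)

include hRb in
/-- **Conservation of number, unconditional.** -/
theorem ModelData.count_unconditional : D.Count hR (D.integralValues hR) :=
  D.count_of_integralValues hR hRb _

end Abstract

namespace ChartInput

variable {K : Type*} [Field K] {A : ValuationSubring K} {k : Type*} [Field k]
  {F : Type*} [Field F] [Algebra K F] {Fk : Type*} [Field Fk] [Algebra k Fk]
  (C : ChartInput K A k F Fk)
  [IsAlgClosed K] [FiniteDimensional K⟮C.t⟯ F] [Algebra.IsSeparable K⟮C.t⟯ F]
  [IsAlgClosed k] [FiniteDimensional k⟮C.tb⟯ Fk] [Algebra.IsSeparable k⟮C.tb⟯ Fk]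

/-- `ModelData.Count` for the model of a chart -/
theorem modelData_count : C.modelData.Count C.allPointsRational_R C.integralValues :=
  C.modelData.count_of_integralValues C.allPointsRational_R C.allPointsRational_Rb
    C.integralValues

/-- **chart theorem (conservation of number)**, unconditional -/
theorem count_red' (u : C.O) (hu : C.res u ≠ 0) (Q : Place k Fk)
    (hQ : C.tb ∈ Q.toValuationSubring) :
    (C.redFibre Q ∩ {P | P.ord (u : F) ≠ 0}).Finite ∧
      ∑ᶠ P ∈ C.redFibre Q, P.ord (u : F) = Q.ord (C.res u) :=
  C.count_red C.modelData_count u hu Q hQ

/-- **surjectivity of the reduction of places on the chart**, unconditional -/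
theorem exists_red_eq' (Q : Place k Fk) (hQ : C.tb ∈ Q.toValuationSubring) :
    ∃ (P : Place K F) (hP : C.IsIntegralPlace P), C.red P hP = Q :=
  C.exists_red_eq C.modelData_count Q hQ

end ChartInput

end Fermat.Agent.Gateway.Red
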