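/-
P-GATEWAY (c), RED block (helper37): FILTERED chart coordinates.

`poleFil K t m` is the place-free form of `L(m · (t)_∞)`: the `f` integral over `K[t]` with
`f / t ^ m` integral over `K[t⁻¹]`.  `B.IsFilteredChart t` collects what good reduction gives for
the spaces `Λ m = L(m (t)_∞) ∩ O`: they reduce into `L(m (t̄)_∞)` (SC), onto it for `m` large (EQ),
are finitely generated over `A` (Cartesian lattices), and on the special fibre
`L((m+1)(t̄)_∞) = t̄ L(m (t̄)_∞) + L(m (t̄)_∞)` for `m` large (Riemann-Roch).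

Main results: the Nakayama step `Λ (m+1) = t Λ m + Λ m` (`exists_growth`), hence the chart rings of
`t` and of `t⁻¹` are finitely generated over `A[t]`, `A[t⁻¹]`, and
`IsFilteredChart.isChart : B.IsChart t`, `IsFilteredChart.isChart_inv : B.IsChart t⁻¹`:
the two charts covering the curve.  Mathlib only.
-/
import Mathlib
import Fermat.Agent.Gateway.Red.Chart

set_option autoImplicit false

noncomputable section

namespace Fermat.Agent.Gateway.Red

open Polynomial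

section Integrality

variable {K : Type*} [Field K] {F : Type*} [Field F] [Algebra K F]

theorem aeval_mul_inv_pow_mem {x : F} (hx : x ≠ 0) (q : K[X]) {e : ℕ} (he : q.natDegree ≤ e) :
    aeval x q * x⁻¹ ^ e ∈ Algebra.adjoin K {x⁻¹} := by
  rw [aeval_eq_sum_range' (Nat.lt_succ_of_le he), Finset.sum_mul]
  refine Subalgebra.sum_mem _ fun j hj => ?_
  have hj' : j ≤ e := Nat.lt_succ_iff.mp (Finset.mem_range.mp hj)
  have h1 : x ^ j * x⁻¹ ^ e = x⁻¹ ^ (e - j) := by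
    obtain ⟨d, rfl⟩ := Nat.exists_eq_add_of_le hj'
    rw [Nat.add_sub_cancel_left, pow_add, ← mul_assoc, ← mul_pow, mul_inv_cancel₀ hx, one_pow,
      one_mul]
  rw [smul_mul_assoc, h1]
  exact Subalgebra.smul_mem _ (Subalgebra.pow_mem _ (Algebra.self_mem_adjoin_singleton K _) _) _

theorem exists_isIntegral_mul_inv_pow {x f : F} (hx : x ≠ 0)
    (hf : IsIntegral (Algebra.adjoin K {x}) f) :
    ∃ m₀ : ℕ, ∀ m, m₀ ≤ m → IsIntegral (Algebra.adjoin K {x⁻¹}) (f * x⁻¹ ^ m) := by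
  obtain ⟨p, hpm, hpr⟩ := hf
  set n := p.natDegree with hn
  have hq : ∀ i, ∃ q : K[X], aeval x q = ((p.coeff i : Algebra.adjoin K {x}) : F) := by
    intro i
    have h1 : ((p.coeff i : Algebra.adjoin K {x}) : F) ∈ (aeval (R := K) x).range := by
      rw [← Algebra.adjoin_singleton_eq_range_aeval]
      exact (p.coeff i).2
    exact h1
  choose q hq using hq
  refine ⟨(Finset.range (n + 1)).sup fun i => (q i).natDegree, fun m hm => ?_⟩
  have hn0 : n ≠ 0 := by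
    intro h0
    have h1 : p = 1 := eq_one_of_monic_natDegree_zero hpm (hn ▸ h0)
    rw [h1, eval₂_one] at hpr
    exact one_ne_zero hpr
  have hb : ∀ i : Fin n, ((p.coeff i : Algebra.adjoin K {x}) : F) * x⁻¹ ^ (m * (n - i)) ∈
      Algebra.adjoin K {x⁻¹} := by
    intro i
    rw [← hq]
    apply aeval_mul_inv_pow_mem hx
    have h1 : (q i).natDegree ≤ m :=
      le_trans (Finset.le_sup (f := fun i => (q i).natDegree)
        (Finset.mem_range.mpr (by omega))) hm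
    have h2 : 1 ≤ n - (i : ℕ) := by omega
    calc (q i).natDegree ≤ m := h1
      _ = m * 1 := (mul_one m).symm
      _ ≤ m * (n - i) := Nat.mul_le_mul_left m h2
  set S := Algebra.adjoin K {x⁻¹}
  set Q : S[X] := X ^ n + ∑ i : Fin n, C (⟨_, hb i⟩ : S) * X ^ (i : ℕ) with hQ
  have hQm : Q.Monic := monic_X_pow_add (degree_sum_fin_lt _)
  refine ⟨Q, hQm, ?_⟩
  -- evaluate
  have hev : eval₂ (algebraMap S F) (f * x⁻¹ ^ m) Q
      = x⁻¹ ^ (m * n) * eval₂ (algebraMap (Algebra.adjoin K {x}) F) f p := by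
    rw [hQ, eval₂_add, eval₂_pow, eval₂_X, eval₂_finsetSum]
    have hp : eval₂ (algebraMap (Algebra.adjoin K {x}) F) f p
        = f ^ n + ∑ i : Fin n, ((p.coeff i : Algebra.adjoin K {x}) : F) * f ^ (i : ℕ) := by
      rw [eval₂_eq_sum_range, ← hn, Finset.sum_range_succ, add_comm, hpm.coeff_natDegree,
        Finset.sum_range]
      simp
    rw [hp, mul_add, Finset.mul_sum]
    congr 1
    · rw [mul_pow, ← pow_mul, mul_comm]
    · refine Finset.sum_congr rfl fun i _ => ?_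
      rw [eval₂_mul, eval₂_C, eval₂_pow, eval₂_X]
      show ((p.coeff i : Algebra.adjoin K {x}) : F) * x⁻¹ ^ (m * (n - i)) * (f * x⁻¹ ^ m) ^ (i : ℕ)
        = _
      have h3 : m * n = m * (n - i) + m * i := by
        rw [← Nat.mul_add, Nat.sub_add_cancel (le_of_lt i.2)]
      rw [mul_pow, ← pow_mul, h3, pow_add]
      ring
  rw [hev, hpr, mul_zero]

end Integrality

section PoleFil

variable (K : Type*) [Field K] {F : Type*} [Field F] [Algebra K F]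

/-- `L(m · (t)_∞)`, place-free: `f` regular off the poles of `t`, `f / t ^ m` regular off the
zeros of `t`. -/
def poleFil (t : F) (m : ℕ) : Submodule K F where
  carrier := {f | IsIntegral (Algebra.adjoin K {t}) f ∧
    IsIntegral (Algebra.adjoin K {t⁻¹}) (f * t⁻¹ ^ m)}
  zero_mem' := ⟨isIntegral_zero, by rw [zero_mul]; exact isIntegral_zero⟩
  add_mem' := fun hf hg => ⟨hf.1.add hg.1, by rw [add_mul]; exact hf.2.add hg.2⟩
  smul_mem' := fun c f hf => ⟨hf.1.smul c, by rw [smul_mul_assoc]; exact hf.2.smul c⟩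

variable {K}

theorem mem_poleFil_iff {t f : F} {m : ℕ} : f ∈ poleFil K t m ↔
    IsIntegral (Algebra.adjoin K {t}) f ∧ IsIntegral (Algebra.adjoin K {t⁻¹}) (f * t⁻¹ ^ m) :=
  Iff.rfl

theorem isIntegral_self_adjoin (t : F) : IsIntegral (Algebra.adjoin K {t}) t := by
  have : t = algebraMap (Algebra.adjoin K {t}) F ⟨t, Algebra.self_mem_adjoin_singleton K t⟩ := rfl
  rw [this]
  exact isIntegral_algebraMap

theorem poleFil_mono_succ (t : F) (m : ℕ) : poleFil K t m ≤ poleFil K t (m + 1) := by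
  intro f hf
  refine ⟨hf.1, ?_⟩
  rw [pow_succ, ← mul_assoc]
  exact hf.2.mul (isIntegral_self_adjoin _)

theorem poleFil_mono (t : F) {m n : ℕ} (h : m ≤ n) : poleFil K t m ≤ poleFil K t n := by
  induction n, h using Nat.le_induction with
  | base => exact le_rfl
  | succ n _ ih => exact ih.trans (poleFil_mono_succ t n)

theorem mul_mem_poleFil_succ {t f : F} (ht : t ≠ 0) {m : ℕ} (hf : f ∈ poleFil K t m) :
    t * f ∈ poleFil K t (m + 1) := by
  refine ⟨(isIntegral_self_adjoin t).mul hf.1, ?_⟩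
  have : t * f * t⁻¹ ^ (m + 1) = f * t⁻¹ ^ m := by
    rw [pow_succ]; field_simp
  rw [this]
  exact hf.2

end PoleFil

section Filtered

variable {K : Type*} [Field K] {A : ValuationSubring K} {k : Type*} [Field k]
  {F : Type*} [Field F] [Algebra K F] {Fk : Type*} [Field Fk] [Algebra k Fk]
  (B : RedBase K A k F Fk)

/-- `t` is a FILTERED chart coordinate: the spaces `L(m (t)_∞) ∩ O` reduce into and (for large
`m`) onto the spaces `L(m (t̄)_∞)`, they are finitely generated over `A`, and the spaces on the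
special fibre grow by multiplication by `t̄` (Riemann–Roch). -/
structure RedBase.IsFilteredChart (t : F) : Prop where
  t_mem : t ∈ B.O
  res_t_ne : B.res ⟨t, t_mem⟩ ≠ 0
  sc : ∀ f : B.O, IsIntegral (Algebra.adjoin K {t}) (f : F) →
    IsIntegral (Algebra.adjoin k {B.res ⟨t, t_mem⟩}) (B.res f)
  sc_inv : ∀ f : B.O, IsIntegral (Algebra.adjoin K {t⁻¹}) (f : F) →
    IsIntegral (Algebra.adjoin k {(B.res ⟨t, t_mem⟩)⁻¹}) (B.res f)
  lift : ∃ m₀ : ℕ, ∀ m, m₀ ≤ m → ∀ g ∈ poleFil k (B.res ⟨t, t_mem⟩) m,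
    ∃ f : B.O, (f : F) ∈ poleFil K t m ∧ B.res f = g
  fgΛ : ∀ m : ℕ, ∃ s : Finset F, (∀ x ∈ s, x ∈ B.O ∧ x ∈ poleFil K t m) ∧
    ∀ f : F, f ∈ B.O → f ∈ poleFil K t m → ∃ c : F → A, f = ∑ x ∈ s, ((c x : A) : K) • x
  growth : ∃ m₁ : ℕ, ∀ m, m₁ ≤ m → ∀ g ∈ poleFil k (B.res ⟨t, t_mem⟩) (m + 1),
    ∃ g₁ ∈ poleFil k (B.res ⟨t, t_mem⟩) m, ∃ g₂ ∈ poleFil k (B.res ⟨t, t_mem⟩) m,
      g = B.res ⟨t, t_mem⟩ * g₁ + g₂

variable {B}

namespace RedBase.IsFilteredChart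

variable {t : F} (h : B.IsFilteredChart t)

include h

theorem t_ne_zero : t ≠ 0 := by
  rintro rfl
  apply h.res_t_ne
  have : (⟨0, h.t_mem⟩ : B.O) = 0 := rfl
  rw [this, map_zero]

theorem isUnit_t : IsUnit (⟨t, h.t_mem⟩ : B.O) := by
  by_contra hu
  exact h.res_t_ne ((B.res_eq_zero_iff _).mpr ((IsLocalRing.mem_maximalIdeal _).mpr hu))

theorem inv_mem : t⁻¹ ∈ B.O := by
  obtain ⟨u, hu⟩ := h.isUnit_t
  have h1 : ((u : B.O) : F) = t := by rw [hu]
  have h2 : ((u : B.O) : F) * ((u⁻¹ : (B.O)ˣ) : B.O) = 1 := by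
    rw [← MulMemClass.coe_mul, Units.mul_inv]; rfl
  rw [h1] at h2
  rw [inv_eq_of_mul_eq_one_right h2]
  exact SetLike.coe_mem _

theorem res_inv : B.res ⟨t⁻¹, h.inv_mem⟩ = (B.res ⟨t, h.t_mem⟩)⁻¹ := by
  have h1 : (⟨t, h.t_mem⟩ : B.O) * ⟨t⁻¹, h.inv_mem⟩ = 1 :=
    Subtype.ext (mul_inv_cancel₀ h.t_ne_zero)
  have h2 := congrArg B.res h1
  rw [map_mul, map_one] at h2
  exact eq_inv_of_mul_eq_one_right h2

theorem inv_pow_mem (m : ℕ) : t⁻¹ ^ m ∈ B.O := B.O.pow_mem h.inv_mem m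

/-- reduction maps `L(m (t)_∞) ∩ O` into `L(m (t̄)_∞)` -/
theorem res_mem_poleFil {m : ℕ} (f : B.O) (hf : (f : F) ∈ poleFil K t m) :
    B.res f ∈ poleFil k (B.res ⟨t, h.t_mem⟩) m := by
  refine ⟨h.sc f hf.1, ?_⟩
  have h1 := h.sc_inv (f * ⟨t⁻¹ ^ m, h.inv_pow_mem m⟩) hf.2
  rw [map_mul] at h1
  have h2 : B.res ⟨t⁻¹ ^ m, h.inv_pow_mem m⟩ = (B.res ⟨t, h.t_mem⟩)⁻¹ ^ m := by
    have : (⟨t⁻¹ ^ m, h.inv_pow_mem m⟩ : B.O) = ⟨t⁻¹, h.inv_mem⟩ ^ m := rfl
    rw [this, map_pow, h.res_inv]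
  rw [h2] at h1
  exact h1

omit h in
/-- the kernel of the reduction on `O ∩ V` (`V` a `K`-subspace) is `m_A (O ∩ V)` -/
theorem exists_smul_of_res_eq_zero (V : Submodule K F) (f : B.O) (hfV : (f : F) ∈ V)
    (hf : B.res f = 0) :
    ∃ (c : A) (g : B.O), c ∈ IsLocalRing.maximalIdeal A ∧ (g : F) ∈ V ∧
      (f : F) = (c : K) • (g : F) := by
  by_cases hf0 : (f : F) = 0
  · exact ⟨0, 0, Ideal.zero_mem _, V.zero_mem, by simp [hf0]⟩
  obtain ⟨c', hc', hmem, hres⟩ := B.normalize (f : F) hf0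
  set g : B.O := ⟨c' • (f : F), hmem⟩ with hg
  -- `g` is a unit of `O`, `f` is in the maximal ideal
  have hgu : IsUnit g := by
    by_contra hu
    exact hres ((B.res_eq_zero_iff _).mpr ((IsLocalRing.mem_maximalIdeal _).mpr hu))
  have hfm : f ∈ IsLocalRing.maximalIdeal B.O := (B.res_eq_zero_iff _).mp hf
  -- `c'⁻¹ = f / g` lies in `O`, hence in `A`
  obtain ⟨u, hu⟩ := hgu
  have e1 : (f : F) = algebraMap K F c'⁻¹ * (g : F) := by
    rw [hg]
    show (f : F) = algebraMap K F c'⁻¹ * (c' • (f : F))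
    rw [Algebra.smul_def, ← mul_assoc, ← map_mul, inv_mul_cancel₀ hc', map_one, one_mul]
  have e2 : f * ((u⁻¹ : (B.O)ˣ) : B.O) ∈ IsLocalRing.maximalIdeal B.O :=
    Ideal.mul_mem_right _ _ hfm
  have e3 : ((f * ((u⁻¹ : (B.O)ˣ) : B.O) : B.O) : F) = algebraMap K F c'⁻¹ := by
    have h2 : (g : F) * (((u⁻¹ : (B.O)ˣ) : B.O) : F) = 1 := by
      rw [← hu, ← MulMemClass.coe_mul, Units.mul_inv]; rfl
    rw [MulMemClass.coe_mul, e1, mul_assoc, h2, mul_one]
  have hcO : algebraMap K F c'⁻¹ ∈ B.O := by rw [← e3]; exact SetLike.coe_mem _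
  have hcA : c'⁻¹ ∈ A := (B.algebraMap_mem_iff _).mp hcO
  refine ⟨⟨c'⁻¹, hcA⟩, g, ?_, V.smul_mem c' hfV, ?_⟩
  · -- `c'⁻¹` is not a unit of `A`
    rw [IsLocalRing.mem_maximalIdeal, mem_nonunits_iff]
    intro hunit
    obtain ⟨v, hv⟩ := hunit
    -- then `c' ∈ A`, so `algebraMap c'⁻¹` is a unit of `O`
    have hc'A : c' ∈ A := by
      have h3 : ((v⁻¹ : Aˣ) : A) * (v : A) = 1 := Units.inv_mul v
      have h4 : (((v⁻¹ : Aˣ) : A) : K) * c'⁻¹ = 1 := by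
        have := congrArg (Subtype.val) h3
        rw [hv] at this
        simpa using this
      have h5 : (((v⁻¹ : Aˣ) : A) : K) = c' := by
        field_simp at h4
        exact h4
      rw [← h5]
      exact SetLike.coe_mem _
    have hc'O : algebraMap K F c' ∈ B.O := (B.algebraMap_mem_iff _).mpr hc'A
    have h6 : (⟨algebraMap K F c'⁻¹, hcO⟩ : B.O) ∈ IsLocalRing.maximalIdeal B.O := by
      have : (⟨algebraMap K F c'⁻¹, hcO⟩ : B.O) = f * ((u⁻¹ : (B.O)ˣ) : B.O) :=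
        Subtype.ext e3.symm
      rw [this]; exact e2
    have h7 : (⟨algebraMap K F c'⁻¹, hcO⟩ : B.O) * ⟨algebraMap K F c', hc'O⟩ = 1 := by
      apply Subtype.ext
      show algebraMap K F c'⁻¹ * algebraMap K F c' = 1
      rw [← map_mul, inv_mul_cancel₀ hc', map_one]
    exact (IsLocalRing.mem_maximalIdeal _).mp h6 (IsUnit.of_mul_eq_one _ h7)
  · rw [e1, Algebra.smul_def]

end RedBase.IsFilteredChart

end Filtered

section Growth

variable {K : Type*} [Field K] {A : ValuationSubring K} {k : Type*} [Field k]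
  {F : Type*} [Field F] [Algebra K F] {Fk : Type*} [Field Fk] [Algebra k Fk]
  {B : RedBase K A k F Fk}

namespace RedBase.IsFilteredChart

variable {t : F} (h : B.IsFilteredChart t)

include h

/-- **Nakayama step**: for `m` large, `Λ (m+1) = t Λ m + Λ m`, where
`Λ m = L(m (t)_∞) ∩ O`. -/
theorem exists_growth : ∃ M₀ : ℕ, ∀ m, M₀ ≤ m → ∀ f : F, f ∈ B.O → f ∈ poleFil K t (m + 1) →
    ∃ f₁ f₂ : F, (f₁ ∈ B.O ∧ f₁ ∈ poleFil K t m) ∧ (f₂ ∈ B.O ∧ f₂ ∈ poleFil K t m) ∧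
      f = t * f₁ + f₂ := by
  obtain ⟨m₀, hlift⟩ := h.lift
  obtain ⟨m₁, hgr⟩ := h.growth
  refine ⟨max m₀ m₁, fun m hm f hfO hf => ?_⟩
  have hm0 : m₀ ≤ m := le_trans (le_max_left _ _) hm
  have hm1 : m₁ ≤ m := le_trans (le_max_right _ _) hm
  have hsmul : ∀ (a : A) (x : F), a • x = (a : K) • x := fun _ _ => rfl
  have hAO : ∀ (a : A) (x : F), x ∈ B.O → (a : K) • x ∈ B.O := by
    intro a x hx
    rw [Algebra.smul_def]
    exact B.O.mul_mem _ _ ((B.algebraMap_mem_iff _).mpr a.2) hx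
  let Λ' : Submodule A F :=
    { carrier := {f | f ∈ B.O ∧ f ∈ poleFil K t (m + 1)}
      zero_mem' := ⟨B.O.zero_mem, Submodule.zero_mem _⟩
      add_mem' := fun hx hy => ⟨B.O.add_mem _ _ hx.1 hy.1, Submodule.add_mem _ hx.2 hy.2⟩
      smul_mem' := fun a x hx => ⟨hAO a x hx.1, Submodule.smul_mem _ _ hx.2⟩ }
  let N : Submodule A F :=
    { carrier := {f | ∃ f₁ f₂ : F, (f₁ ∈ B.O ∧ f₁ ∈ poleFil K t m) ∧
        (f₂ ∈ B.O ∧ f₂ ∈ poleFil K t m) ∧ f = t * f₁ + f₂}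
      zero_mem' := ⟨0, 0, ⟨B.O.zero_mem, Submodule.zero_mem _⟩,
        ⟨B.O.zero_mem, Submodule.zero_mem _⟩, by simp⟩
      add_mem' := by
        rintro x y ⟨x₁, x₂, hx₁, hx₂, rfl⟩ ⟨y₁, y₂, hy₁, hy₂, rfl⟩
        exact ⟨x₁ + y₁, x₂ + y₂, ⟨B.O.add_mem _ _ hx₁.1 hy₁.1, Submodule.add_mem _ hx₁.2 hy₁.2⟩,
          ⟨B.O.add_mem _ _ hx₂.1 hy₂.1, Submodule.add_mem _ hx₂.2 hy₂.2⟩, by ring⟩
      smul_mem' := by
        rintro a x ⟨x₁, x₂, hx₁, hx₂, rfl⟩
        refine ⟨(a : K) • x₁, (a : K) • x₂, ⟨hAO a _ hx₁.1, Submodule.smul_mem _ _ hx₁.2⟩,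
          ⟨hAO a _ hx₂.1, Submodule.smul_mem _ _ hx₂.2⟩, ?_⟩
        rw [hsmul, smul_add, mul_smul_comm] }
  have hFG : Λ'.FG := by
    obtain ⟨s, hs, hgen⟩ := h.fgΛ (m + 1)
    refine ⟨s, le_antisymm (Submodule.span_le.mpr fun x hx => hs x hx) ?_⟩
    intro f hf'
    obtain ⟨c, hc⟩ := hgen f hf'.1 hf'.2
    rw [hc]
    refine Submodule.sum_mem _ fun x hx => ?_
    rw [← hsmul]
    exact Submodule.smul_mem _ _ (Submodule.subset_span hx)
  have key : Λ' ≤ N ⊔ IsLocalRing.maximalIdeal A • Λ' := by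
    intro f hf'
    obtain ⟨hfO', hfV⟩ := hf'
    have hred := h.res_mem_poleFil ⟨f, hfO'⟩ hfV
    obtain ⟨g₁, hg₁, g₂, hg₂, hg⟩ := hgr m hm1 _ hred
    obtain ⟨F₁, hF₁, hF₁r⟩ := hlift m hm0 g₁ hg₁
    obtain ⟨F₂, hF₂, hF₂r⟩ := hlift m hm0 g₂ hg₂
    set d : B.O := ⟨f, hfO'⟩ - ⟨t, h.t_mem⟩ * F₁ - F₂ with hd
    have hdV : (d : F) ∈ poleFil K t (m + 1) := by
      have : (d : F) = f - t * (F₁ : F) - (F₂ : F) := rfl
      rw [this]
      exact Submodule.sub_mem _ (Submodule.sub_mem _ hfV (mul_mem_poleFil_succ h.t_ne_zero hF₁))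
        (poleFil_mono_succ t m hF₂)
    have hdres : B.res d = 0 := by
      rw [hd, map_sub, map_sub, map_mul, hF₁r, hF₂r, hg]; ring
    obtain ⟨c, g, hc, hgV, hdg⟩ := exists_smul_of_res_eq_zero (poleFil K t (m + 1)) d hdV hdres
    have e : f = (t * (F₁ : F) + (F₂ : F)) + c • (g : F) := by
      rw [hsmul, ← hdg]
      show f = t * (F₁ : F) + (F₂ : F) + (f - t * (F₁ : F) - (F₂ : F))
      ring
    rw [e]
    refine Submodule.add_mem_sup ⟨F₁, F₂, ⟨F₁.2, hF₁⟩, ⟨F₂.2, hF₂⟩, rfl⟩ ?_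
    exact Submodule.smul_mem_smul hc ⟨g.2, hgV⟩
  have hle := Submodule.le_of_le_smul_of_le_jacobson_bot hFG
    (IsLocalRing.maximalIdeal_le_jacobson _) key
  exact hle ⟨hfO, hf⟩

end RedBase.IsFilteredChart

end Growth

section Charts

variable {K : Type*} [Field K] {A : ValuationSubring K} {k : Type*} [Field k]
  {F : Type*} [Field F] [Algebra K F] {Fk : Type*} [Field Fk] [Algebra k Fk]
  {B : RedBase K A k F Fk}

theorem exists_mem_poleFil {K : Type*} [Field K] {F : Type*} [Field F] [Algebra K F] {t f : F}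
    (ht : t ≠ 0) (hf : IsIntegral (Algebra.adjoin K {t}) f) :
    ∃ m₀ : ℕ, ∀ m, m₀ ≤ m → f ∈ poleFil K t m := by
  obtain ⟨m₀, hm₀⟩ := exists_isIntegral_mul_inv_pow ht hf
  exact ⟨m₀, fun m hm => ⟨hf, hm₀ m hm⟩⟩

theorem aeval_map_C_mul (t x : F) (a : A) :
    aeval t ((C a : Polynomial A).map (algebraMap A K)) * x = ((a : A) : K) • x := by
  rw [Polynomial.map_C, aeval_C, Algebra.smul_def]
  rfl

namespace RedBase.IsFilteredChart

variable {t : F} (h : B.IsFilteredChart t)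

include h

/-- the chart ring of `t` is a finitely generated `A[t]`-module -/
theorem fg_chart : ∃ s : Finset F, (∀ x ∈ s, x ∈ B.chartRing t) ∧ ∀ f ∈ B.chartRing t,
    ∃ p : F → Polynomial A, f = ∑ x ∈ s, aeval t ((p x).map (algebraMap A K)) * x := by
  obtain ⟨M₀, hM₀⟩ := h.exists_growth
  obtain ⟨s, hs, hgen⟩ := h.fgΛ M₀
  refine ⟨s, fun x hx => ⟨(hs x hx).1, (hs x hx).2.1⟩, ?_⟩
  have base : ∀ m, m ≤ M₀ → ∀ f : F, f ∈ B.O → f ∈ poleFil K t m →
      ∃ p : F → Polynomial A, f = ∑ x ∈ s, aeval t ((p x).map (algebraMap A K)) * x := by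
    intro m hm f hfO hf
    obtain ⟨c, hc⟩ := hgen f hfO (poleFil_mono t hm hf)
    refine ⟨fun x => C (c x), ?_⟩
    rw [hc]
    exact Finset.sum_congr rfl fun x _ => (aeval_map_C_mul t x (c x)).symm
  have claim : ∀ m, ∀ f : F, f ∈ B.O → f ∈ poleFil K t m →
      ∃ p : F → Polynomial A, f = ∑ x ∈ s, aeval t ((p x).map (algebraMap A K)) * x := by
    intro m
    induction m with
    | zero => exact base 0 (Nat.zero_le _)
    | succ m ih =>
      intro f hfO hf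
      by_cases hm : M₀ ≤ m
      · obtain ⟨f₁, f₂, hf₁, hf₂, rfl⟩ := hM₀ m hm f hfO hf
        obtain ⟨p₁, hp₁⟩ := ih f₁ hf₁.1 hf₁.2
        obtain ⟨p₂, hp₂⟩ := ih f₂ hf₂.1 hf₂.2
        refine ⟨fun x => X * p₁ x + p₂ x, ?_⟩
        conv_lhs => rw [hp₁, hp₂]
        rw [Finset.mul_sum, ← Finset.sum_add_distrib]
        refine Finset.sum_congr rfl fun x _ => ?_
        rw [Polynomial.map_add, Polynomial.map_mul, Polynomial.map_X, map_add, map_mul, aeval_X]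
        ring
      · exact base (m + 1) (by omega) f hfO hf
  intro f hf
  obtain ⟨m₀, hm⟩ := exists_mem_poleFil h.t_ne_zero hf.2
  exact claim m₀ f hf.1 (hm m₀ le_rfl)

/-- the chart ring of `t⁻¹` is a finitely generated `A[t⁻¹]`-module -/
theorem fg_chart_inv : ∃ s : Finset F, (∀ x ∈ s, x ∈ B.chartRing t⁻¹) ∧ ∀ f ∈ B.chartRing t⁻¹,
    ∃ p : F → Polynomial A, f = ∑ x ∈ s, aeval t⁻¹ ((p x).map (algebraMap A K)) * x := by
  classical
  obtain ⟨M₀, hM₀⟩ := h.exists_growth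
  obtain ⟨s, hs, hgen⟩ := h.fgΛ M₀
  have ht := h.t_ne_zero
  have hti : t⁻¹ ^ M₀ ≠ 0 := pow_ne_zero _ (inv_ne_zero ht)
  have hinj : Set.InjOn (fun x : F => x * t⁻¹ ^ M₀) (s : Set F) :=
    fun x _ y _ hxy => mul_right_cancel₀ hti hxy
  refine ⟨s.image fun x => x * t⁻¹ ^ M₀, ?_, ?_⟩
  · intro y hy
    obtain ⟨x, hx, rfl⟩ := Finset.mem_image.mp hy
    exact ⟨B.O.mul_mem _ _ (hs x hx).1 (h.inv_pow_mem M₀), (hs x hx).2.2⟩
  have claim : ∀ m, M₀ ≤ m → ∀ f : F, f ∈ B.O → f ∈ poleFil K t m →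
      ∃ p : F → Polynomial A, f * t⁻¹ ^ m
        = ∑ x ∈ s, aeval t⁻¹ ((p x).map (algebraMap A K)) * (x * t⁻¹ ^ M₀) := by
    intro m hm
    induction m, hm using Nat.le_induction with
    | base =>
      intro f hfO hf
      obtain ⟨c, hc⟩ := hgen f hfO hf
      refine ⟨fun x => C (c x), ?_⟩
      conv_lhs => rw [hc]
      rw [Finset.sum_mul]
      refine Finset.sum_congr rfl fun x _ => ?_
      rw [aeval_map_C_mul, smul_mul_assoc]
    | succ m hm ih =>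
      intro f hfO hf
      obtain ⟨f₁, f₂, hf₁, hf₂, rfl⟩ := hM₀ m hm f hfO hf
      obtain ⟨p₁, hp₁⟩ := ih f₁ hf₁.1 hf₁.2
      obtain ⟨p₂, hp₂⟩ := ih f₂ hf₂.1 hf₂.2
      refine ⟨fun x => p₁ x + X * p₂ x, ?_⟩
      have e : (t * f₁ + f₂) * t⁻¹ ^ (m + 1) = f₁ * t⁻¹ ^ m + t⁻¹ * (f₂ * t⁻¹ ^ m) := by
        rw [pow_succ]; field_simp
      rw [e, hp₁, hp₂, Finset.mul_sum, ← Finset.sum_add_distrib]
      refine Finset.sum_congr rfl fun x _ => ?_
      rw [Polynomial.map_add, Polynomial.map_mul, Polynomial.map_X, map_add, map_mul, aeval_X]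
      ring
  intro f hf
  obtain ⟨hfO, hfi⟩ := hf
  obtain ⟨m₀, hm₀⟩ := exists_isIntegral_mul_inv_pow (inv_ne_zero ht) hfi
  set m := max m₀ M₀ with hm
  have h1 := hm₀ m (le_max_left _ _)
  rw [inv_inv] at h1
  have hgO : f * t ^ m ∈ B.O := B.O.mul_mem _ _ hfO (B.O.pow_mem h.t_mem m)
  have hback : f * t ^ m * t⁻¹ ^ m = f := by
    rw [mul_assoc, ← mul_pow, mul_inv_cancel₀ ht, one_pow, mul_one]
  have hgV : f * t ^ m ∈ poleFil K t m := ⟨h1, by rw [hback]; exact hfi⟩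
  obtain ⟨p, hp⟩ := claim m (le_max_right _ _) _ hgO hgV
  rw [hback] at hp
  refine ⟨fun y => p (y * t ^ M₀), ?_⟩
  rw [Finset.sum_image hinj, hp]
  refine Finset.sum_congr rfl fun x _ => ?_
  have : x * t⁻¹ ^ M₀ * t ^ M₀ = x := by
    rw [mul_assoc, ← mul_pow, inv_mul_cancel₀ ht, one_pow, mul_one]
  show _ = (aeval t⁻¹) (map (algebraMap A K) (p (x * t⁻¹ ^ M₀ * t ^ M₀))) * (x * t⁻¹ ^ M₀)
  rw [this]

/-- **a filtered chart coordinate is a chart coordinate** -/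
theorem isChart : B.IsChart t where
  t_mem := h.t_mem
  sc := h.sc
  lift := by
    intro g hg
    obtain ⟨m₀, hlift⟩ := h.lift
    obtain ⟨m', hm'⟩ := exists_mem_poleFil h.res_t_ne hg
    obtain ⟨f, hf, hres⟩ := hlift (max m' m₀) (le_max_right _ _) g (hm' _ (le_max_left _ _))
    exact ⟨f, hf.1, hres⟩
  fg := h.fg_chart

/-- **the inverse of a filtered chart coordinate is a chart coordinate** -/
theorem isChart_inv : B.IsChart t⁻¹ where
  t_mem := h.inv_mem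
  sc := by
    intro f hf
    rw [h.res_inv]
    exact h.sc_inv f hf
  lift := by
    intro g hg
    rw [h.res_inv] at hg
    obtain ⟨m₀, hlift⟩ := h.lift
    have htb := h.res_t_ne
    obtain ⟨m', hm'⟩ := exists_isIntegral_mul_inv_pow (inv_ne_zero htb) hg
    set m := max m' m₀ with hm
    have h1 := hm' m (le_max_left _ _)
    rw [inv_inv] at h1
    have hback : g * (B.res ⟨t, h.t_mem⟩) ^ m * (B.res ⟨t, h.t_mem⟩)⁻¹ ^ m = g := by
      rw [mul_assoc, ← mul_pow, mul_inv_cancel₀ htb, one_pow, mul_one]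
    have hG : g * (B.res ⟨t, h.t_mem⟩) ^ m ∈ poleFil k (B.res ⟨t, h.t_mem⟩) m :=
      ⟨h1, by rw [hback]; exact hg⟩
    obtain ⟨f₀, hf₀, hres⟩ := hlift m (le_max_right _ _) _ hG
    refine ⟨f₀ * ⟨t⁻¹ ^ m, h.inv_pow_mem m⟩, hf₀.2, ?_⟩
    have h2 : B.res ⟨t⁻¹ ^ m, h.inv_pow_mem m⟩ = (B.res ⟨t, h.t_mem⟩)⁻¹ ^ m := by
      have : (⟨t⁻¹ ^ m, h.inv_pow_mem m⟩ : B.O) = ⟨t⁻¹, h.inv_mem⟩ ^ m := rfl
      rw [this, map_pow, h.res_inv]
    rw [map_mul, hres, h2, hback]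
  fg := h.fg_chart_inv

end RedBase.IsFilteredChart

end Charts

end Fermat.Agent.Gateway.Red
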