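/-
P-GATEWAY (c) (helper37): the single remaining input of Tier 1 and Tier 2, as one `Prop`.

`GoodFacts` : `C0.GoodLevelFacts A (residue A) M ℓ` (genus inequality (G2) + integrality of
reductions (G3)) for all good levels `M` (`4 ∣ M` for `ℓ` odd, `9 ∣ M` for `ℓ = 2`, `ℓ ∤ M`) and all
valuation subrings `A` of `ℚ̄` over `ℓ`.

* `c0AtGoodLevels_of_goodFacts` : `Kummer.C0AtGoodLevels` (Tier 1: S18, E5/E6) from `GoodFacts`.
-/
import Fermat.Agent.Gateway.C0.Instantiate
import Fermat.Agent.Gateway.Kummer.C0Spec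
import Fermat.Agent.Gateway.ES.ResidueField

set_option autoImplicit false
set_option linter.unusedSectionVars false

noncomputable section

namespace Fermat.Agent.Gateway.Red

open ModularCurve IntermediateField AlgebraicCurve
open Fermat.Agent.Gateway.GoodRed

/-- the level facts (G2) + (G3) at all good levels -/
def GoodFacts : Prop :=
  ∀ (M : ℕ) [NeZero M] (ℓ : ℕ) [Fact ℓ.Prime] (hℓM : ¬ ℓ ∣ M),
    ((ℓ ≠ 2 ∧ 4 ∣ M) ∨ (ℓ = 2 ∧ 9 ∣ M)) →
    ∀ (A : ValuationSubring (AlgebraicClosure ℚ)), A.LiesOverPrime ℓ →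
      ∀ [CharP (IsLocalRing.ResidueField A) ℓ] [IsAlgClosed (IsLocalRing.ResidueField A)],
        C0.GoodLevelFacts A (IsLocalRing.residue A) M ℓ IsLocalRing.residue_surjective hℓM

/-- **(C0) at the good levels** from the level facts. -/
theorem c0AtGoodLevels_of_goodFacts (H : GoodFacts) : Kummer.C0AtGoodLevels := by
  intro M _ m ℓ _ hℓ hdvd hgood A hA
  have : Fact ℓ.Prime := ⟨hℓ⟩
  have hℓM : ¬ ℓ ∣ M := fun h => hdvd (Dvd.dvd.mul_left h m)
  have hℓm : ¬ ℓ ∣ m := fun h => hdvd (Dvd.dvd.mul_right h M)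
  have := ES.charP_residueField_of_liesOverPrime A hA
  have : IsAlgClosed (IsLocalRing.ResidueField A) := residueField_isAlgClosed A
  exact C0.kummerRedInj_of_facts A M ℓ hℓM hA (H M ℓ hℓM hgood A hA) hℓm

end Fermat.Agent.Gateway.Red
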