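/-
helper64 (P-GATEWAY (c), RED block, RED-G core): the abstract two-chart glue. For reduction data
`B : RedBase K A k F Fk` and a coordinate `t` such that both `t` and `t⁻¹` are chart coordinates,
the reductions of places on the two charts `t ≠ ∞` and `t ≠ 0` agree on the overlap and glue to a
map `glueRed : Place K F → Place k Fk` on ALL places, which is surjective and satisfies the
conservation of number `mapDomain glueRed (div u) = div (res u)` for `u ∈ O` with `res u ≠ 0`.
-/
import Fermat.Agent.Gateway.Red.ChartCount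
import Fermat.Agent.Gateway.FkBasics.Sep

set_option autoImplicit false
set_option linter.unusedSectionVars false

noncomputable section

namespace Fermat.Agent.Gateway.Red

open Polynomial IntermediateField AlgebraicCurve IsDedekindDomain
open Fermat.Agent.S24

namespace Glue

variable {K : Type*} [Field K] {A : ValuationSubring K} {k : Type*} [Field k]
  {F : Type*} [Field F] [Algebra K F] {Fk : Type*} [Field Fk] [Algebra k Fk]
  (B : RedBase K A k F Fk) (t : F) (h₀ : B.IsChart t) (hinf : B.IsChart t⁻¹)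
  (ht : Transcendental K t) (htb : Transcendental k (B.res ⟨t, h₀.t_mem⟩))

include ht in
theorem t_ne_zero : t ≠ 0 := by
  rintro rfl
  exact ht isAlgebraic_zero

include ht in
/-- `res (t⁻¹) = (res t)⁻¹` -/
theorem res_inv_eq : B.res ⟨t⁻¹, hinf.t_mem⟩ = (B.res ⟨t, h₀.t_mem⟩)⁻¹ := by
  have h1 : (⟨t, h₀.t_mem⟩ : B.O) * ⟨t⁻¹, hinf.t_mem⟩ = 1 :=
    Subtype.ext (mul_inv_cancel₀ (t_ne_zero t ht))
  have h2 : B.res ⟨t, h₀.t_mem⟩ * B.res ⟨t⁻¹, hinf.t_mem⟩ = 1 := by
    rw [← map_mul, h1, map_one]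
  exact eq_inv_of_mul_eq_one_right h2

include ht htb in
theorem transcendental_res_inv : Transcendental k (B.res ⟨t⁻¹, hinf.t_mem⟩) := by
  rw [res_inv_eq B t h₀ hinf ht]
  exact PD.transcendental_inv htb

/-- the chart `t ≠ ∞` -/
def chartZero : ChartInput K A k F Fk := B.toChartInput t h₀ ht htb

/-- the chart `t ≠ 0` -/
def chartInf : ChartInput K A k F Fk :=
  B.toChartInput t⁻¹ hinf (PD.transcendental_inv ht) (transcendental_res_inv B t h₀ hinf ht htb)

@[simp] theorem chartZero_t : (chartZero B t h₀ ht htb).t = t := rfl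
@[simp] theorem chartZero_O : (chartZero B t h₀ ht htb).O = B.O := rfl
@[simp] theorem chartZero_res : (chartZero B t h₀ ht htb).res = B.res := rfl
@[simp] theorem chartZero_π : (chartZero B t h₀ ht htb).π = B.π := rfl
@[simp] theorem chartZero_tb : (chartZero B t h₀ ht htb).tb = B.res ⟨t, h₀.t_mem⟩ := rfl

@[simp] theorem chartInf_t : (chartInf B t h₀ hinf ht htb).t = t⁻¹ := rfl
@[simp] theorem chartInf_O : (chartInf B t h₀ hinf ht htb).O = B.O := rfl
@[simp] theorem chartInf_res : (chartInf B t h₀ hinf ht htb).res = B.res := rfl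
@[simp] theorem chartInf_π : (chartInf B t h₀ hinf ht htb).π = B.π := rfl
theorem chartInf_tb' : (chartInf B t h₀ hinf ht htb).tb = B.res ⟨t⁻¹, hinf.t_mem⟩ := rfl
theorem chartInf_tb : (chartInf B t h₀ hinf ht htb).tb = (B.res ⟨t, h₀.t_mem⟩)⁻¹ :=
  res_inv_eq B t h₀ hinf ht

section Instances

variable [IsAlgClosed K] [FiniteDimensional K⟮t⟯ F] [Algebra.IsSeparable K⟮t⟯ F]
  [FiniteDimensional k⟮B.res ⟨t, h₀.t_mem⟩⟯ Fk] [Algebra.IsSeparable k⟮B.res ⟨t, h₀.t_mem⟩⟯ Fk]

instance finiteDimensional_chartZero_t :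
    FiniteDimensional K⟮(chartZero B t h₀ ht htb).t⟯ F := ‹FiniteDimensional K⟮t⟯ F›

instance isSeparable_chartZero_t :
    Algebra.IsSeparable K⟮(chartZero B t h₀ ht htb).t⟯ F := ‹Algebra.IsSeparable K⟮t⟯ F›

instance finiteDimensional_chartZero_tb :
    FiniteDimensional k⟮(chartZero B t h₀ ht htb).tb⟯ Fk :=
  ‹FiniteDimensional k⟮B.res ⟨t, h₀.t_mem⟩⟯ Fk›

instance isSeparable_chartZero_tb :
    Algebra.IsSeparable k⟮(chartZero B t h₀ ht htb).tb⟯ Fk :=
  ‹Algebra.IsSeparable k⟮B.res ⟨t, h₀.t_mem⟩⟯ Fk›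

instance finiteDimensional_chartInf_t :
    FiniteDimensional K⟮(chartInf B t h₀ hinf ht htb).t⟯ F :=
  FkBasics.finiteDimensional_adjoin_inv (K := K) t

instance isSeparable_chartInf_t :
    Algebra.IsSeparable K⟮(chartInf B t h₀ hinf ht htb).t⟯ F :=
  FkBasics.isSeparable_adjoin_inv (K := K) t

instance finiteDimensional_chartInf_tb [IsAlgClosed k] :
    FiniteDimensional k⟮(chartInf B t h₀ hinf ht htb).tb⟯ Fk := by
  rw [chartInf_tb]
  exact FkBasics.finiteDimensional_adjoin_inv (K := k) (B.res ⟨t, h₀.t_mem⟩)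

instance isSeparable_chartInf_tb [IsAlgClosed k] :
    Algebra.IsSeparable k⟮(chartInf B t h₀ hinf ht htb).tb⟯ Fk := by
  rw [chartInf_tb]
  exact FkBasics.isSeparable_adjoin_inv (K := k) (B.res ⟨t, h₀.t_mem⟩)

end Instances

section Main

variable [IsAlgClosed K] [IsAlgClosed k] [FiniteDimensional K⟮t⟯ F] [Algebra.IsSeparable K⟮t⟯ F]
  [FiniteDimensional k⟮B.res ⟨t, h₀.t_mem⟩⟯ Fk] [Algebra.IsSeparable k⟮B.res ⟨t, h₀.t_mem⟩⟯ Fk]

include ht in
/-- every function regular at a place has a value there (`K` algebraically closed) -/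
theorem exists_hasValue_of_mem (P : Place K F) {f : F} (hf : f ∈ P.toValuationSubring) :
    ∃ c : K, HasValue P f c := by
  obtain ⟨c, hc⟩ := FkBasics.residue_surjective ht P (IsLocalRing.residue _ ⟨f, hf⟩)
  refine ⟨c, ?_⟩
  rw [hasValue_iff]
  exact ⟨hf, hc.symm⟩

include ht in
/-- **the two charts cover**: every place of `F` is an integral place of the chart `t ≠ ∞` or of
the chart `t ≠ 0` -/
theorem isIntegralPlace_or (P : Place K F) :
    (chartZero B t h₀ ht htb).IsIntegralPlace P ∨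
      (chartInf B t h₀ hinf ht htb).IsIntegralPlace P := by
  by_cases hmem : t ∈ P.toValuationSubring
  · obtain ⟨c, hc⟩ := exists_hasValue_of_mem t ht P hmem
    by_cases hcA : c ∈ A
    · exact Or.inl ⟨⟨c, hcA⟩, hc⟩
    · have hc0 : c ≠ 0 := by
        rintro rfl
        exact hcA A.zero_mem
      have hinv : c⁻¹ ∈ A := (A.mem_or_inv_mem c).resolve_left hcA
      exact Or.inr ⟨⟨c⁻¹, hinv⟩, hc.inv hc0⟩
  · refine Or.inr ⟨0, ?_⟩
    show HasValue P t⁻¹ ((0 : A) : K)
    rw [ZeroMemClass.coe_zero, hasValue_zero_iff, ValuationSubring.mem_nonunits_iff_or, inv_inv]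
    exact Or.inr hmem

open Classical in
/-- **the glued reduction of places**: the reduction on the chart `t ≠ ∞` if `t(P) ∈ A`, and the
reduction on the chart `t ≠ 0` otherwise -/
def glueRed (P : Place K F) : Place k Fk :=
  if hP : (chartZero B t h₀ ht htb).IsIntegralPlace P then (chartZero B t h₀ ht htb).red P hP
  else (chartInf B t h₀ hinf ht htb).red P ((isIntegralPlace_or B t h₀ hinf ht htb P).resolve_left hP)

theorem glueRed_eq_redZero (P : Place K F) (hP : (chartZero B t h₀ ht htb).IsIntegralPlace P) :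
    glueRed B t h₀ hinf ht htb P = (chartZero B t h₀ ht htb).red P hP := by
  rw [glueRed, dif_pos hP]

include ht in
/-- on the overlap of the two charts the coordinate `t(P)` is a unit of `A` -/
theorem overlap_value (P : Place K F) {a₀ ainf : A} (h1 : HasValue P t (a₀ : K))
    (h2 : HasValue P t⁻¹ (ainf : K)) : a₀ * ainf = 1 := by
  have h3 := h1.mul h2
  rw [mul_inv_cancel₀ (t_ne_zero t ht)] at h3
  have h4 : HasValue P (1 : F) (1 : K) := by
    have := hasValue_algebraMap P (1 : K)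
    rwa [map_one] at this
  exact Subtype.ext (h3.unique h4)

/-- **the two reductions agree on the overlap of the charts** -/
theorem redZero_eq_redInf (P : Place K F) (hP₀ : (chartZero B t h₀ ht htb).IsIntegralPlace P)
    (hPinf : (chartInf B t h₀ hinf ht htb).IsIntegralPlace P) :
    (chartZero B t h₀ ht htb).red P hP₀ = (chartInf B t h₀ hinf ht htb).red P hPinf := by
  obtain ⟨a₀, ha₀⟩ := id hP₀
  obtain ⟨ainf, hainf⟩ := id hPinf
  have hunit : a₀ * ainf = 1 := overlap_value t ht P ha₀ hainf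
  have hπ : B.π a₀ * B.π ainf = 1 := by rw [← map_mul, hunit, map_one]
  have hπ0 : B.π a₀ ≠ 0 := left_ne_zero_of_mul_eq_one hπ
  have htint : IsIntegral (Algebra.adjoin K {t}) t :=
    isIntegral_algebraMap (x := (⟨t, Algebra.subset_adjoin rfl⟩ : Algebra.adjoin K {t}))
  -- the value of `tb` at `Q`
  have hQval : HasValue ((chartZero B t h₀ ht htb).red P hP₀) (B.res ⟨t, h₀.t_mem⟩) (B.π a₀) :=
    (chartZero B t h₀ ht htb).hasValue_red P hP₀ ⟨t, h₀.t_mem⟩ htint a₀ ha₀
  have hQ₀ : B.res ⟨t, h₀.t_mem⟩ ∈ ((chartZero B t h₀ ht htb).red P hP₀).toValuationSubring :=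
    (chartZero B t h₀ ht htb).tb_mem_red P hP₀
  refine (chartInf B t h₀ hinf ht htb).eq_red P hPinf _ ?_ ?_
  · rw [chartInf_tb]
    exact hQval.inv_mem hπ0
  · intro f hf a hfa
    have hf' : IsIntegral (Algebra.adjoin K {t⁻¹}) ((f : B.O) : F) := hf
    have hreg : ∀ P' ∈ (chartZero B t h₀ ht htb).redFibre ((chartZero B t h₀ ht htb).red P hP₀),
        (f : F) ∈ P'.toValuationSubring := by
      rintro P' ⟨hP', hP'Q⟩
      obtain ⟨a', ha'⟩ := id hP'
      have h1 : HasValue ((chartZero B t h₀ ht htb).red P' hP') (B.res ⟨t, h₀.t_mem⟩) (B.π a') :=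
        (chartZero B t h₀ ht htb).hasValue_red P' hP' ⟨t, h₀.t_mem⟩ htint a' ha'
      rw [hP'Q] at h1
      have h2 : B.π a' = B.π a₀ := h1.unique hQval
      have ha'0 : (a' : K) ≠ 0 := by
        intro h0
        have : a' = 0 := Subtype.ext h0
        rw [this, map_zero] at h2
        exact hπ0 h2.symm
      have h3 : t⁻¹ ∈ P'.toValuationSubring := ha'.inv_mem ha'0
      exact ZP.integralClosure_le_place t⁻¹ P' h3 ⟨((f : B.O) : F), hf'⟩
    obtain ⟨-, hsl⟩ := (chartZero B t h₀ ht htb).semiLocal_red (f : B.O)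
      ((chartZero B t h₀ ht htb).red P hP₀) hQ₀ hreg
    obtain ⟨a', ha', hQa'⟩ := hsl P ⟨hP₀, rfl⟩
    have haa : a' = a := Subtype.ext (ha'.unique hfa)
    rw [← haa]
    exact hQa'

theorem glueRed_eq_redInf (P : Place K F) (hP : (chartInf B t h₀ hinf ht htb).IsIntegralPlace P) :
    glueRed B t h₀ hinf ht htb P = (chartInf B t h₀ hinf ht htb).red P hP := by
  by_cases hP₀ : (chartZero B t h₀ ht htb).IsIntegralPlace P
  · rw [glueRed_eq_redZero B t h₀ hinf ht htb P hP₀]
    exact redZero_eq_redInf B t h₀ hinf ht htb P hP₀ hP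
  · rw [glueRed, dif_neg hP₀]

/-- the reduction of an integral place of the chart `t ≠ ∞` lies on the chart `tb ≠ ∞` -/
theorem tb_mem_glueRed (P : Place K F) (hP : (chartZero B t h₀ ht htb).IsIntegralPlace P) :
    B.res ⟨t, h₀.t_mem⟩ ∈ (glueRed B t h₀ hinf ht htb P).toValuationSubring := by
  rw [glueRed_eq_redZero B t h₀ hinf ht htb P hP]
  exact (chartZero B t h₀ ht htb).tb_mem_red P hP

/-- the reduction of an integral place of the chart `t ≠ 0` lies on the chart `tb ≠ 0` -/
theorem tb_inv_mem_glueRed (P : Place K F) (hP : (chartInf B t h₀ hinf ht htb).IsIntegralPlace P) :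
    (B.res ⟨t, h₀.t_mem⟩)⁻¹ ∈ (glueRed B t h₀ hinf ht htb P).toValuationSubring := by
  rw [glueRed_eq_redInf B t h₀ hinf ht htb P hP, ← chartInf_tb B t h₀ hinf ht htb]
  exact (chartInf B t h₀ hinf ht htb).tb_mem_red P hP

include hinf in
/-- a place off the integral part of the chart `t ≠ ∞` has `t⁻¹(P) ∈ 𝔪_A` -/
theorem exists_hasValue_inv_of_not (P : Place K F)
    (hP : ¬ (chartZero B t h₀ ht htb).IsIntegralPlace P) :
    ∃ a : A, a ∈ IsLocalRing.maximalIdeal A ∧ HasValue P t⁻¹ (a : K) := by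
  obtain ⟨a, ha'⟩ := (isIntegralPlace_or B t h₀ hinf ht htb P).resolve_left hP
  have ha : HasValue P t⁻¹ (a : K) := ha'
  refine ⟨a, ?_, ha⟩
  rw [← ValuationSubring.coe_mem_nonunits_iff, ValuationSubring.mem_nonunits_iff_or]
  by_contra hcon
  rw [not_or, not_not] at hcon
  apply hP
  refine ⟨⟨(a : K)⁻¹, hcon.2⟩, ?_⟩
  have h1 := ha.inv hcon.1
  rw [inv_inv] at h1
  exact h1

/-- a place off the integral part of the chart `t ≠ ∞` reduces to a pole of `tb` -/
theorem tb_not_mem_glueRed (P : Place K F)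
    (hP : ¬ (chartZero B t h₀ ht htb).IsIntegralPlace P) :
    B.res ⟨t, h₀.t_mem⟩ ∉ (glueRed B t h₀ hinf ht htb P).toValuationSubring := by
  obtain ⟨a, ham, ha⟩ := exists_hasValue_inv_of_not B t h₀ hinf ht htb P hP
  have hPinf : (chartInf B t h₀ hinf ht htb).IsIntegralPlace P := ⟨a, ha⟩
  have htint : IsIntegral (Algebra.adjoin K {t⁻¹}) t⁻¹ :=
    isIntegral_algebraMap (x := (⟨t⁻¹, Algebra.subset_adjoin rfl⟩ : Algebra.adjoin K {t⁻¹}))
  have h1 : HasValue ((chartInf B t h₀ hinf ht htb).red P hPinf) (B.res ⟨t⁻¹, hinf.t_mem⟩)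
      (B.π a) :=
    (chartInf B t h₀ hinf ht htb).hasValue_red P hPinf ⟨t⁻¹, hinf.t_mem⟩ htint a ha
  rw [(B.π_ker a).mpr ham, hasValue_zero_iff, res_inv_eq B t h₀ hinf ht,
    ← glueRed_eq_redInf B t h₀ hinf ht htb P hPinf] at h1
  intro hmem
  have h2 := nonunits_mul_mem hmem h1
  rw [mul_inv_cancel₀ (t_ne_zero _ htb), ValuationSubring.mem_nonunits_iff_or] at h2
  rcases h2 with h2 | h2
  · exact one_ne_zero h2
  · exact h2 (by rw [inv_one]; exact one_mem _)

/-- **the fibres of the glued reduction over the chart `tb ≠ ∞`** -/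
theorem fibre_glueRed_of_mem (Q : Place k Fk) (hQ : B.res ⟨t, h₀.t_mem⟩ ∈ Q.toValuationSubring) :
    {P | glueRed B t h₀ hinf ht htb P = Q} = (chartZero B t h₀ ht htb).redFibre Q := by
  ext P
  constructor
  · intro hPQ
    have hPQ' : glueRed B t h₀ hinf ht htb P = Q := hPQ
    have hP : (chartZero B t h₀ ht htb).IsIntegralPlace P := by
      by_contra hcon
      apply tb_not_mem_glueRed B t h₀ hinf ht htb P hcon
      rw [hPQ']
      exact hQ
    refine ⟨hP, ?_⟩
    rw [← glueRed_eq_redZero B t h₀ hinf ht htb P hP]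
    exact hPQ'
  · rintro ⟨hP, hPQ⟩
    show glueRed B t h₀ hinf ht htb P = Q
    rw [glueRed_eq_redZero B t h₀ hinf ht htb P hP]
    exact hPQ

/-- **the fibres of the glued reduction over the poles of `tb`** -/
theorem fibre_glueRed_of_not_mem (Q : Place k Fk)
    (hQ : B.res ⟨t, h₀.t_mem⟩ ∉ Q.toValuationSubring) :
    {P | glueRed B t h₀ hinf ht htb P = Q} = (chartInf B t h₀ hinf ht htb).redFibre Q := by
  ext P
  constructor
  · intro hPQ
    have hPQ' : glueRed B t h₀ hinf ht htb P = Q := hPQ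
    have hP : ¬ (chartZero B t h₀ ht htb).IsIntegralPlace P := by
      intro hcon
      apply hQ
      rw [← hPQ']
      exact tb_mem_glueRed B t h₀ hinf ht htb P hcon
    have hPinf := (isIntegralPlace_or B t h₀ hinf ht htb P).resolve_left hP
    refine ⟨hPinf, ?_⟩
    rw [← glueRed_eq_redInf B t h₀ hinf ht htb P hPinf]
    exact hPQ'
  · rintro ⟨hP, hPQ⟩
    show glueRed B t h₀ hinf ht htb P = Q
    rw [glueRed_eq_redInf B t h₀ hinf ht htb P hP]
    exact hPQ

/-- value compatibility of the glued reduction on the chart `t ≠ ∞` -/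
theorem hasValue_glueRed_zero (P : Place K F)
    (hP : (chartZero B t h₀ ht htb).IsIntegralPlace P) (f : B.O)
    (hf : IsIntegral (Algebra.adjoin K {t}) (f : F)) (a : A) (h : HasValue P (f : F) (a : K)) :
    HasValue (glueRed B t h₀ hinf ht htb P) (B.res f) (B.π a) := by
  rw [glueRed_eq_redZero B t h₀ hinf ht htb P hP]
  exact (chartZero B t h₀ ht htb).hasValue_red P hP f hf a h

/-- value compatibility of the glued reduction on the chart `t ≠ 0` -/
theorem hasValue_glueRed_inf (P : Place K F)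
    (hP : (chartInf B t h₀ hinf ht htb).IsIntegralPlace P) (f : B.O)
    (hf : IsIntegral (Algebra.adjoin K {t⁻¹}) (f : F)) (a : A) (h : HasValue P (f : F) (a : K)) :
    HasValue (glueRed B t h₀ hinf ht htb P) (B.res f) (B.π a) := by
  rw [glueRed_eq_redInf B t h₀ hinf ht htb P hP]
  exact (chartInf B t h₀ hinf ht htb).hasValue_red P hP f hf a h

/-- conservation of number on the fibres of the glued reduction, `finsum` form -/
theorem finsum_glueRed (u : B.O) (hu : B.res u ≠ 0) (Q : Place k Fk) :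
    ({P | glueRed B t h₀ hinf ht htb P = Q} ∩ {P | P.ord (u : F) ≠ 0}).Finite ∧
      ∑ᶠ P ∈ {P | glueRed B t h₀ hinf ht htb P = Q}, P.ord (u : F) = Q.ord (B.res u) := by
  by_cases hQ : B.res ⟨t, h₀.t_mem⟩ ∈ Q.toValuationSubring
  · rw [fibre_glueRed_of_mem B t h₀ hinf ht htb Q hQ]
    exact (chartZero B t h₀ ht htb).count_chart u hu Q hQ
  · rw [fibre_glueRed_of_not_mem B t h₀ hinf ht htb Q hQ]
    have hQ' : (chartInf B t h₀ hinf ht htb).tb ∈ Q.toValuationSubring := by
      rw [chartInf_tb]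
      exact (Q.toValuationSubring.mem_or_inv_mem _).resolve_left hQ
    exact (chartInf B t h₀ hinf ht htb).count_chart u hu Q hQ'

/-- **MAIN: conservation of number for the glued reduction**: for `u ∈ O` with `res u ≠ 0`, the
push-forward of the divisor of `u` along `glueRed` is the divisor of `res u`. -/
theorem glue_count (u : B.O) (hu : B.res u ≠ 0) (D : Divisor K F)
    (hD : ∀ P, D P = P.ord (u : F)) (Q : Place k Fk) :
    Finsupp.mapDomain (glueRed B t h₀ hinf ht htb) D Q = Q.ord (B.res u) := by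
  classical
  obtain ⟨-, hsum⟩ := finsum_glueRed B t h₀ hinf ht htb u hu Q
  rw [← hsum, Finsupp.mapDomain, Finsupp.sum_apply, Finsupp.sum]
  simp only [Finsupp.single_apply]
  rw [← Finset.sum_filter]
  symm
  refine (finsum_mem_eq_sum_of_inter_support_eq _ ?_).trans (Finset.sum_congr rfl fun P _ => (hD P).symm)
  ext P
  simp only [Set.mem_inter_iff, Set.mem_ofPred_eq, Function.mem_support, Finset.coe_filter,
    Finsupp.mem_support_iff, hD P]
  tauto

/-- **the glued reduction of places is surjective** -/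
theorem glueRed_surjective : Function.Surjective (glueRed B t h₀ hinf ht htb) := by
  intro Q
  by_cases hQ : B.res ⟨t, h₀.t_mem⟩ ∈ Q.toValuationSubring
  · obtain ⟨P, hP, hPQ⟩ := (chartZero B t h₀ ht htb).exists_red Q hQ
    exact ⟨P, by rw [glueRed_eq_redZero B t h₀ hinf ht htb P hP, hPQ]⟩
  · have hQ' : (chartInf B t h₀ hinf ht htb).tb ∈ Q.toValuationSubring := by
      rw [chartInf_tb]
      exact (Q.toValuationSubring.mem_or_inv_mem _).resolve_left hQ
    obtain ⟨P, hP, hPQ⟩ := (chartInf B t h₀ hinf ht htb).exists_red Q hQ'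
    exact ⟨P, by rw [glueRed_eq_redInf B t h₀ hinf ht htb P hP, hPQ]⟩

/-- **the glued reduction preserves degrees** (all places have degree one) -/
theorem deg_glueRed (P : Place K F) : (glueRed B t h₀ hinf ht htb P).deg = P.deg := by
  rw [FkBasics.deg_eq_one ht P, FkBasics.deg_eq_one htb _]

end Main

end Glue

end Fermat.Agent.Gateway.Red
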