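/-
helper64 (P-GATEWAY (c), RED block, first half of RED-F): the `RedBase` of `Red/Chart.lean` for the
modular function fields `F = FBar L N` over `L ⊇ A` and `Fk = modularFunctionFieldFullC k N`, with
the Gauss valuation ring `OvVal` and the reduction `resFk` of `GoodRed/GaussBar.lean`; and all the
side conditions (transcendence, finiteness, separability on both fibres) needed to apply
`Red/ChartOfBase.lean` to the two charts `t = j` and `t⁻¹ = 1 / j`.
-/
import Fermat.Agent.Gateway.Red.ChartOfBase
import Fermat.Agent.Gateway.Red.Filtered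
import Fermat.Agent.Gateway.GoodRed.GaussBar
import Fermat.Agent.Gateway.FkBasics.Modular
import Fermat.Agent.Gateway.HK1.Modular

set_option autoImplicit false
set_option linter.unusedSectionVars false

noncomputable section

namespace Fermat.Agent.Gateway.Red

open ModularCurve IntermediateField AlgebraicCurve
open Fermat.Agent.Gateway.GoodRed Fermat.Agent.S28.Tower

section Transfer

variable {K F : Type*} [Field K] [Field F] [Algebra K F]

theorem isSeparable_adjoin_inv (x : F) [h : Algebra.IsSeparable K⟮x⟯ F] :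
    Algebra.IsSeparable K⟮x⁻¹⟯ F := by
  rw [Fermat.Agent.S24.PDiv.adjoin_simple_inv]
  exact h

theorem finiteDimensional_adjoin_inv (x : F) [h : FiniteDimensional K⟮x⟯ F] :
    FiniteDimensional K⟮x⁻¹⟯ F := by
  rw [Fermat.Agent.S24.PDiv.adjoin_simple_inv]
  exact h

end Transfer

section Base

set_option synthInstance.maxHeartbeats 400000

variable {L : Type*} [Field L] [Algebra ℚ L] (A : ValuationSubring L)
  {k : Type} [Field k] (π : A →+* k) [IsAlgClosed k] (ℓ : ℕ) [Fact ℓ.Prime] [CharP k ℓ]
  (N : ℕ) [NeZero N] (hπ : Function.Surjective π) (hℓN : ¬ ℓ ∣ N)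

include hπ in
theorem map_eq_zero_iff_mem_maximalIdeal_of_surjective (a : A) :
    π a = 0 ↔ a ∈ IsLocalRing.maximalIdeal A := by
  have hmax : (RingHom.ker π).IsMaximal := RingHom.ker_isMaximal_of_surjective π hπ
  have hker : RingHom.ker π = IsLocalRing.maximalIdeal A := IsLocalRing.eq_maximalIdeal hmax
  rw [← hker, RingHom.mem_ker]

theorem coe_algebraMap_Fk (c : k) :
    ((algebraMap k (modularFunctionFieldFullC k N) c : modularFunctionFieldFullC k N) :
      LaurentSeries k) = HahnSeries.C c := by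
  have h : ((algebraMap k (modularFunctionFieldFullC k N) c : modularFunctionFieldFullC k N) :
      LaurentSeries k) = algebraMap k (LaurentSeries k) c := rfl
  rw [h, algebraMap_laurentSeries_eq_single]
  rfl

/-- **the reduction base data of the modular function field of level `N`, `ℓ ∤ N`** -/
def modularRedBase : RedBase L A k (FBar L N) (modularFunctionFieldFullC k N) where
  π := π
  π_surj := hπ
  π_ker := map_eq_zero_iff_mem_maximalIdeal_of_surjective A π hπ
  O := OvVal A π N ℓ hπ hℓN
  res := resFk A π N ℓ hπ hℓN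
  res_surj := resFk_surjective A π N ℓ hπ hℓN
  res_eq_zero_iff f := by
    rw [resFk_eq_zero_iff, IsLocalRing.mem_maximalIdeal, mem_nonunits_iff]
  algebraMap_mem_iff c := algebraMap_mem_Ov_iff A π N hπ c
  res_algebraMap a h := by
    apply Subtype.ext
    rw [coe_resFk, coe_algebraMap_Fk]
    exact redV_algebraMap A π N a h
  normalize f hf := by
    obtain ⟨c, u, hc, hu0, -, hfu⟩ := exists_const_mul_unit_F A π N ℓ hℓN f hf
    have hcu : c⁻¹ • f = (u : FBar L N) := by
      rw [hfu, Algebra.smul_def, ← mul_assoc, ← map_mul, inv_mul_cancel₀ hc, map_one, one_mul]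
    refine ⟨c⁻¹, inv_ne_zero hc, ?_, ?_⟩
    · rw [hcu]
      exact u.2
    · intro h0
      apply hu0
      have h1 := congrArg (fun x : modularFunctionFieldFullC k N => (x : LaurentSeries k)) h0
      simp only [coe_resFk] at h1
      have h2 : (⟨c⁻¹ • f, (hcu ▸ u.2 : c⁻¹ • f ∈ Ov A π (FBar L N))⟩ : Ov A π (FBar L N)) = u :=
        Subtype.ext hcu
      rw [← h2]
      exact h1

end Base

section JChart

set_option synthInstance.maxHeartbeats 400000

variable {L : Type} [Field L] [Algebra ℚ L] [IsAlgClosed L] (A : ValuationSubring L)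
  {k : Type} [Field k] (π : A →+* k) [IsAlgClosed k] (ℓ : ℕ) [Fact ℓ.Prime] [CharP k ℓ]
  (N : ℕ) [NeZero N] (hπ : Function.Surjective π) (hℓN : ¬ ℓ ∣ N)

include hℓN in
theorem natCast_ne_zero_of_not_dvd : (N : k) ≠ 0 := by
  rw [Ne, CharP.cast_eq_zero_iff k ℓ]
  exact hℓN

/-- `j` lies in the Gauss valuation ring -/
theorem jL_mem_O : HK1.jL L N ∈ (modularRedBase A π ℓ N hπ hℓN).O := by
  have h := jS_mem_Ov A π N (d := 1) one_ne_zero (one_dvd N)
  have h1 : (⟨jS L 1 1, jS_mem_FBar one_ne_zero (one_dvd N)⟩ : FBar L N) = HK1.jL L N :=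
    Subtype.ext jS_one_one
  rw [h1] at h
  exact h

/-- `j` reduces to `j` -/
theorem res_jL : (modularRedBase A π ℓ N hπ hℓN).res ⟨HK1.jL L N, jL_mem_O A π ℓ N hπ hℓN⟩ =
    FkBasics.jk k N := by
  apply Subtype.ext
  show redV A π (FBar L N) ⟨HK1.jL L N, jL_mem_O A π ℓ N hπ hℓN⟩ = jqModC k
  have h := redV_jS A π N (d := 1) one_ne_zero (one_dvd N)
  have h2 : jS k 1 1 = jqModC k := jS_one_one
  rw [← h2, ← h]
  congr 1
  exact Subtype.ext (Subtype.ext jS_one_one.symm)

theorem transcendental_res_jL :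
    Transcendental k
      ((modularRedBase A π ℓ N hπ hℓN).res ⟨HK1.jL L N, jL_mem_O A π ℓ N hπ hℓN⟩) := by
  rw [res_jL]
  exact FkBasics.transcendental_jk k N

theorem finiteDimensional_res_jL :
    FiniteDimensional
      k⟮(modularRedBase A π ℓ N hπ hℓN).res ⟨HK1.jL L N, jL_mem_O A π ℓ N hπ hℓN⟩⟯
      (modularFunctionFieldFullC k N) := by
  rw [res_jL]
  exact FkBasics.finiteDimensional_Fk k N (natCast_ne_zero_of_not_dvd ℓ N hℓN)

theorem isSeparable_res_jL :
    Algebra.IsSeparable
      k⟮(modularRedBase A π ℓ N hπ hℓN).res ⟨HK1.jL L N, jL_mem_O A π ℓ N hπ hℓN⟩⟯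
      (modularFunctionFieldFullC k N) := by
  rw [res_jL]
  exact FkBasics.isSeparable_Fk k N (natCast_ne_zero_of_not_dvd ℓ N hℓN)

theorem finiteDimensional_jL : FiniteDimensional L⟮HK1.jL L N⟯ (FBar L N) := by
  have : CharZero L := algebraRat.charZero L
  exact HK1.finiteDimensional_FL L N

theorem isSeparable_jL : Algebra.IsSeparable L⟮HK1.jL L N⟯ (FBar L N) := by
  have : CharZero L := algebraRat.charZero L
  have := finiteDimensional_jL (L := L) N
  have : CharZero L⟮HK1.jL L N⟯ :=
    charZero_of_injective_algebraMap (algebraMap L L⟮HK1.jL L N⟯).injective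
  infer_instance

/-- the chart `t = j` of the modular reduction data, as soon as `j` is a chart coordinate -/
def modularChart (h : (modularRedBase A π ℓ N hπ hℓN).IsChart (HK1.jL L N)) :
    ChartInput L A k (FBar L N) (modularFunctionFieldFullC k N) :=
  (modularRedBase A π ℓ N hπ hℓN).toChartInput (HK1.jL L N) h (HK1.transcendental_jL L N)
    (transcendental_res_jL A π ℓ N hπ hℓN)

/-- the chart `t = 1 / j` of the modular reduction data, as soon as `1 / j` is a chart
coordinate -/
def modularChartInv (h : (modularRedBase A π ℓ N hπ hℓN).IsChart (HK1.jL L N)⁻¹)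
    (hres : (modularRedBase A π ℓ N hπ hℓN).res ⟨(HK1.jL L N)⁻¹, h.t_mem⟩ =
      (FkBasics.jk k N)⁻¹) :
    ChartInput L A k (FBar L N) (modularFunctionFieldFullC k N) :=
  (modularRedBase A π ℓ N hπ hℓN).toChartInput (HK1.jL L N)⁻¹ h
    (Fermat.Agent.S24.PDiv.transcendental_inv (HK1.transcendental_jL L N))
    (by rw [hres]; exact Fermat.Agent.S24.PDiv.transcendental_inv (FkBasics.transcendental_jk k N))

variable (h : (modularRedBase A π ℓ N hπ hℓN).IsChart (HK1.jL L N))

instance finiteDimensional_modularChart_t :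
    FiniteDimensional L⟮(modularChart A π ℓ N hπ hℓN h).t⟯ (FBar L N) :=
  finiteDimensional_jL N

instance isSeparable_modularChart_t :
    Algebra.IsSeparable L⟮(modularChart A π ℓ N hπ hℓN h).t⟯ (FBar L N) :=
  isSeparable_jL N

instance finiteDimensional_modularChart_tb :
    FiniteDimensional k⟮(modularChart A π ℓ N hπ hℓN h).tb⟯ (modularFunctionFieldFullC k N) :=
  finiteDimensional_res_jL A π ℓ N hπ hℓN

instance isSeparable_modularChart_tb :
    Algebra.IsSeparable k⟮(modularChart A π ℓ N hπ hℓN h).tb⟯ (modularFunctionFieldFullC k N) :=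
  isSeparable_res_jL A π ℓ N hπ hℓN

variable (h' : (modularRedBase A π ℓ N hπ hℓN).IsChart (HK1.jL L N)⁻¹)
  (hres : (modularRedBase A π ℓ N hπ hℓN).res ⟨(HK1.jL L N)⁻¹, h'.t_mem⟩ = (FkBasics.jk k N)⁻¹)

instance finiteDimensional_modularChartInv_t :
    FiniteDimensional L⟮(modularChartInv A π ℓ N hπ hℓN h' hres).t⟯ (FBar L N) := by
  have := finiteDimensional_jL (L := L) N
  exact finiteDimensional_adjoin_inv (HK1.jL L N)

instance isSeparable_modularChartInv_t :
    Algebra.IsSeparable L⟮(modularChartInv A π ℓ N hπ hℓN h' hres).t⟯ (FBar L N) := by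
  have := isSeparable_jL (L := L) N
  exact isSeparable_adjoin_inv (HK1.jL L N)

instance finiteDimensional_modularChartInv_tb :
    FiniteDimensional k⟮(modularChartInv A π ℓ N hπ hℓN h' hres).tb⟯
      (modularFunctionFieldFullC k N) := by
  have := FkBasics.finiteDimensional_Fk k N (natCast_ne_zero_of_not_dvd ℓ N hℓN)
  have h1 : (modularChartInv A π ℓ N hπ hℓN h' hres).tb = (FkBasics.jk k N)⁻¹ := hres
  rw [h1]
  exact finiteDimensional_adjoin_inv (FkBasics.jk k N)

instance isSeparable_modularChartInv_tb :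
    Algebra.IsSeparable k⟮(modularChartInv A π ℓ N hπ hℓN h' hres).tb⟯
      (modularFunctionFieldFullC k N) := by
  have := FkBasics.isSeparable_Fk k N (natCast_ne_zero_of_not_dvd ℓ N hℓN)
  have h1 : (modularChartInv A π ℓ N hπ hℓN h' hres).tb = (FkBasics.jk k N)⁻¹ := hres
  rw [h1]
  exact isSeparable_adjoin_inv (FkBasics.jk k N)

end JChart

section Filtered

set_option synthInstance.maxHeartbeats 400000

variable {L : Type} [Field L] [Algebra ℚ L] [IsAlgClosed L] (A : ValuationSubring L)
  {k : Type} [Field k] (π : A →+* k) [IsAlgClosed k] (ℓ : ℕ) [Fact ℓ.Prime] [CharP k ℓ]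
  (N : ℕ) [NeZero N] (hπ : Function.Surjective π) (hℓN : ¬ ℓ ∣ N)
  (h : (modularRedBase A π ℓ N hπ hℓN).IsFilteredChart (HK1.jL L N))

theorem res_jL_inv :
    (modularRedBase A π ℓ N hπ hℓN).res ⟨(HK1.jL L N)⁻¹, h.isChart_inv.t_mem⟩ =
      (FkBasics.jk k N)⁻¹ := by
  rw [h.res_inv]
  congr 1
  exact res_jL A π ℓ N hπ hℓN

/-- **the two charts `j` and `1 / j` of the modular curve**, from the filtered chart property of
`j` (the only input left to RED-F) -/
abbrev modularChartOfFiltered : ChartInput L A k (FBar L N) (modularFunctionFieldFullC k N) :=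
  modularChart A π ℓ N hπ hℓN h.isChart

/-- the chart `1 / j` -/
abbrev modularChartInvOfFiltered : ChartInput L A k (FBar L N) (modularFunctionFieldFullC k N) :=
  modularChartInv A π ℓ N hπ hℓN h.isChart_inv (res_jL_inv A π ℓ N hπ hℓN h)

end Filtered

end Fermat.Agent.Gateway.Red
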