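/-
P-GATEWAY (c), RED block (helper37): translation of the abstract count theorem of the reduction of
places (`Red/Glue.lean`, for the modular reduction base `modularRedBase` of `Red/ModularBase.lean`)
into the Prelude's `IsPlaceReductionAlong` / `PrincipalGeneratedByIntegral` / `ReductionInputsAlong`.

* `coeffMap_mem_O`, `res_coeffMap`: a function with `A`-integral `q`-expansion lies in the Gauss
  ring and reduces coefficientwise;
* `isPlaceReductionAlong_of_count`: the count property for all `u ∈ O` with `res u ≠ 0` gives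
  `IsPlaceReductionAlong`;
* `principalGeneratedByIntegral`: every principal divisor is a difference of two divisors of
  functions with integral `q`-expansion and nonzero reduction (Gauss normal form), at every level
  prime to `ℓ`;
* `reductionInputsAlong_of_count`.
-/
import Fermat.Prelude.Def_ModularCurve_ReductionModL
import Fermat.Agent.Gateway.Red.ModularBase
import Fermat.Agent.Gateway.GoodRed.GaussNorm
import Fermat.Agent.S24.Kaehler

set_option autoImplicit false
set_option linter.unusedSectionVars false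

noncomputable section

namespace Fermat.Agent.Gateway.Red

open ModularCurve IntermediateField AlgebraicCurve
open Fermat.Agent.Gateway.GoodRed

section Translate

set_option synthInstance.maxHeartbeats 400000

variable {L : Type} [Field L] [Algebra ℚ L] [IsAlgClosed L] (A : ValuationSubring L)
  {k : Type} [Field k] (π : A →+* k) [IsAlgClosed k] (ℓ : ℕ) [Fact ℓ.Prime] [CharP k ℓ]
  (N : ℕ) [NeZero N] (hπ : Function.Surjective π) (hℓN : ¬ ℓ ∣ N)

/-- a function with `A`-integral `q`-expansion lies in the Gauss valuation ring -/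
theorem coeffMap_mem_O (y : LaurentSeries A) (hy : coeffMap A.subtype y ∈ FBar L N) :
    (⟨coeffMap A.subtype y, hy⟩ : FBar L N) ∈ (modularRedBase A π ℓ N hπ hℓN).O := by
  show (⟨coeffMap A.subtype y, hy⟩ : FBar L N) ∈ OvVal A π N ℓ hπ hℓN
  rw [mem_OvVal_iff, mem_Ov_iff]
  exact embA_mem_gaussRing A π y

/-- ... and reduces coefficientwise -/
theorem coe_res_coeffMap (y : LaurentSeries A) (hy : coeffMap A.subtype y ∈ FBar L N) :
    (((modularRedBase A π ℓ N hπ hℓN).res
      ⟨⟨coeffMap A.subtype y, hy⟩, coeffMap_mem_O A π ℓ N hπ hℓN y hy⟩ :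
        modularFunctionFieldFullC k N) : LaurentSeries k) = coeffMap π y := by
  show ((resFk A π N ℓ hπ hℓN ⟨⟨coeffMap A.subtype y, hy⟩, _⟩ : modularFunctionFieldFullC k N) :
    LaurentSeries k) = coeffMap π y
  rw [coe_resFk]
  exact redV_of_eq_embA A π (FBar L N) _ (a := y) rfl

include hπ hℓN in
theorem coeffMap_mem_Fk (y : LaurentSeries A) (hy : coeffMap A.subtype y ∈ FBar L N) :
    coeffMap π y ∈ modularFunctionFieldFullC k N := by
  rw [← coe_res_coeffMap A π ℓ N hπ hℓN y hy]
  exact SetLike.coe_mem _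

theorem res_coeffMap (y : LaurentSeries A) (hy : coeffMap A.subtype y ∈ FBar L N)
    (hyk : coeffMap π y ∈ modularFunctionFieldFullC k N) :
    (modularRedBase A π ℓ N hπ hℓN).res
      ⟨⟨coeffMap A.subtype y, hy⟩, coeffMap_mem_O A π ℓ N hπ hℓN y hy⟩ = ⟨coeffMap π y, hyk⟩ :=
  Subtype.ext (coe_res_coeffMap A π ℓ N hπ hℓN y hy)

/-- **`IsPlaceReductionAlong` from the count theorem** of a reduction of places. -/
theorem isPlaceReductionAlong_of_count
    (r : Place L (FBar L N) → Place k (modularFunctionFieldFullC k N))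
    (hr : ∀ u : (modularRedBase A π ℓ N hπ hℓN).O, (modularRedBase A π ℓ N hπ hℓN).res u ≠ 0 →
      ∀ D : Divisor L (FBar L N), (∀ P, D P = P.ord (u : FBar L N)) →
        ∀ Q, Finsupp.mapDomain r D Q = Q.ord ((modularRedBase A π ℓ N hπ hℓN).res u)) :
    IsPlaceReductionAlong A π N r := by
  have : CharZero L := algebraRat.charZero L
  have hNk : (N : k) ≠ 0 := natCast_ne_zero_of_not_dvd ℓ N hℓN
  refine ⟨fun P => ?_, ?_⟩
  · have h1 : (r P).deg = 1 := FkBasics.deg_eq_one_Fk k N hNk (r P)
    have := finiteDimensional_jL (L := L) N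
    have h2 : P.deg = 1 := Fermat.Agent.S24.PD.deg_eq_one (HK1.transcendental_jL L N) P
    rw [h1, h2]
  · intro y hy hyk hne D hD Q
    have h := hr ⟨⟨coeffMap A.subtype y, hy⟩, coeffMap_mem_O A π ℓ N hπ hℓN y hy⟩ (by
      rw [res_coeffMap A π ℓ N hπ hℓN y hy hyk]
      intro h0
      exact hne (congrArg Subtype.val h0)) D hD Q
    rw [h, res_coeffMap A π ℓ N hπ hℓN y hy hyk]

include hπ hℓN in
/-- **`PrincipalGeneratedByIntegral`**, from the Gauss normal form. -/
theorem principalGeneratedByIntegral : PrincipalGeneratedByIntegral A π N := by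
  have : CharZero L := algebraRat.charZero L
  intro D hD
  obtain ⟨f, hf, hDf⟩ := hD
  have hf0 : (f : LaurentSeries L) ≠ 0 := fun h => hf (Subtype.ext h)
  obtain ⟨c, hc, a, b, ha, hb, hra, hrb, hab⟩ :=
    exists_integral_ratio_FBar A π ℓ hℓN f.2 hf0
  have ha0 : (⟨embA A a, ha⟩ : FBar L N) ≠ 0 := by
    intro h
    have h1 : embA A a = 0 := congrArg Subtype.val h
    rw [embA_eq_zero_iff] at h1
    exact hra (by rw [h1, map_zero])
  have hb0 : (⟨embA A b, hb⟩ : FBar L N) ≠ 0 := by
    intro h
    have h1 : embA A b = 0 := congrArg Subtype.val h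
    rw [embA_eq_zero_iff] at h1
    exact hrb (by rw [h1, map_zero])
  have hrel : algebraMap L (FBar L N) c * f * (⟨embA A b, hb⟩ : FBar L N) =
      (⟨embA A a, ha⟩ : FBar L N) := by
    apply Subtype.ext
    show ((algebraMap L (FBar L N) c : FBar L N) : LaurentSeries L) * (f : LaurentSeries L) *
      embA A b = embA A a
    rw [coe_algebraMap_FBar]
    exact hab
  have hP := HK1.hasPrincipalDivisors_FL L N
  obtain ⟨Da, hDa, -⟩ := hP.exists_divisor _ ha0
  obtain ⟨Db, hDb, -⟩ := hP.exists_divisor _ hb0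
  have hc0 : algebraMap L (FBar L N) c ≠ 0 := by
    rw [Ne, map_eq_zero]
    exact hc
  have hDeq : D = Da - Db := by
    ext v
    rw [Finsupp.sub_apply, hDf v, hDa v, hDb v, ← hrel, v.ord_mul (mul_ne_zero hc0 hf) hb0,
      v.ord_mul hc0 hf, Fermat.Agent.S24.Kaehler.ord_algebraMap]
    ring
  rw [hDeq]
  refine AddSubgroup.sub_mem _ (AddSubgroup.subset_closure ?_) (AddSubgroup.subset_closure ?_)
  · exact ⟨a, ha, coeffMap_mem_Fk A π ℓ N hπ hℓN a ha, hra, hDa⟩
  · exact ⟨b, hb, coeffMap_mem_Fk A π ℓ N hπ hℓN b hb, hrb, hDb⟩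

/-- **`ReductionInputsAlong`** from a reduction of places satisfying the count theorem. -/
theorem reductionInputsAlong_of_count
    (r : Place L (FBar L N) → Place k (modularFunctionFieldFullC k N))
    (hr : ∀ u : (modularRedBase A π ℓ N hπ hℓN).O, (modularRedBase A π ℓ N hπ hℓN).res u ≠ 0 →
      ∀ D : Divisor L (FBar L N), (∀ P, D P = P.ord (u : FBar L N)) →
        ∀ Q, Finsupp.mapDomain r D Q = Q.ord ((modularRedBase A π ℓ N hπ hℓN).res u)) :
    ReductionInputsAlong A π N :=
  ⟨r, isPlaceReductionAlong_of_count A π ℓ N hπ hℓN r hr,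
    principalGeneratedByIntegral A π ℓ N hπ hℓN⟩

end Translate

end Fermat.Agent.Gateway.Red
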