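/-
P-GATEWAY (c), RED block (helper37): the reduction inputs of the Prelude
(`ModularCurve.ReductionInputsAlong`, `ReductionInputsModL`) for the modular function field of
level `N`, from the filtered chart property of `j` for the Gauss valuation
(`Red/ModularFiltered.lean`), via the glued reduction of places of `Red/Glue.lean` and the
translation of `Red/ReductionInputs.lean`.
-/
import Fermat.Agent.Gateway.Red.Glue
import Fermat.Agent.Gateway.Red.ReductionInputs

set_option autoImplicit false
set_option linter.unusedSectionVars false

noncomputable section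

namespace Fermat.Agent.Gateway.Red

open ModularCurve IntermediateField AlgebraicCurve
open Fermat.Agent.Gateway.GoodRed

section Filtered

set_option synthInstance.maxHeartbeats 400000

variable {L : Type} [Field L] [Algebra ℚ L] [IsAlgClosed L] (A : ValuationSubring L)
  {k : Type} [Field k] (π : A →+* k) [IsAlgClosed k] (ℓ : ℕ) [Fact ℓ.Prime] [CharP k ℓ]
  (N : ℕ) [NeZero N] (hπ : Function.Surjective π) (hℓN : ¬ ℓ ∣ N)

/-- **the reduction inputs at level `N` from the filtered chart property of `j`** -/
theorem reductionInputsAlong_of_filtered
    (h : (modularRedBase A π ℓ N hπ hℓN).IsFilteredChart (HK1.jL L N)) :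
    ReductionInputsAlong A π N := by
  have i1 := finiteDimensional_jL (L := L) N
  have i2 := isSeparable_jL (L := L) N
  have i3 := finiteDimensional_res_jL A π ℓ N hπ hℓN
  have i4 := isSeparable_res_jL A π ℓ N hπ hℓN
  exact reductionInputsAlong_of_count A π ℓ N hπ hℓN
    (Glue.glueRed (modularRedBase A π ℓ N hπ hℓN) (HK1.jL L N) h.isChart h.isChart_inv
      (HK1.transcendental_jL L N) (transcendental_res_jL A π ℓ N hπ hℓN))
    (fun u hu D hD Q => Glue.glue_count (modularRedBase A π ℓ N hπ hℓN) (HK1.jL L N) h.isChart
      h.isChart_inv (HK1.transcendental_jL L N) (transcendental_res_jL A π ℓ N hπ hℓN) u hu D hD Q)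

end Filtered

end Fermat.Agent.Gateway.Red
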