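import Fermat.Agent.Lib.RiemannRoch.FunctionFieldRR
import Fermat.Agent.Lib.RiemannRoch.RiemannRochCZ
import Fermat.Agent.Gateway.Red.Filtered
import Fermat.Agent.Gateway.GoodRed.PlacesIntegral

/-!
# RED-A: growth of the pole filtration (Riemann-Roch) and the Nakayama step

`placeFil k F t m = L(m (t)_∞)` is the space of functions whose only poles are at the poles of `t`,
of order at most `m` times that of `t`.  For `k` algebraically closed (any characteristic) and
`F / k(t)` finite separable (or `k` of characteristic zero and `F / k(t)` finite), for all large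
`m`: `placeFil (m + 1) = t * placeFil m + placeFil m`.
-/

set_option autoImplicit false
set_option linter.unusedSectionVars false
set_option linter.style.haveILetI false

noncomputable section

open AlgebraicCurve WithZero Module IntermediateField

namespace Fermat.Agent.Gateway.Red

open Fermat.Agent.Lib.RiemannRoch

section defs

variable (k F : Type*) [Field k] [Field F] [Algebra k F]

/-- The functions with poles only at the poles of `t`, of order at most `m` times that of `t`:
`L(m (t)_∞)` as a `k`-subspace of `F`. -/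
def placeFil (t : F) (m : ℕ) : Submodule k F where
  carrier := {f | ∀ Q : Place k F, (m : ℤ) * min (Q.ord t) 0 ≤ Q.ord f}
  zero_mem' := by
    intro Q
    rw [Place.ord_zero]
    have h1 : min (Q.ord t) 0 ≤ 0 := min_le_right _ _
    have h2 : (0 : ℤ) ≤ m := Int.natCast_nonneg m
    nlinarith
  add_mem' := by
    intro f g hf hg Q
    have key : ∀ h : F, (m : ℤ) * min (Q.ord t) 0 ≤ Q.ord h ↔
        Q.adicValuation h ≤ exp (-((m : ℤ) * min (Q.ord t) 0)) := by
      intro h
      rw [Q.adicValuation_le_exp_iff, neg_neg]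
      constructor
      · exact fun hh => Or.inr hh
      · rintro (rfl | hh)
        · rw [Place.ord_zero]
          have h1 : min (Q.ord t) 0 ≤ 0 := min_le_right _ _
          have h2 : (0 : ℤ) ≤ m := Int.natCast_nonneg m
          nlinarith
        · exact hh
    rw [key]
    exact (Valuation.map_add _ _ _).trans (max_le ((key f).mp (hf Q)) ((key g).mp (hg Q)))
  smul_mem' := by
    intro c f hf Q
    rcases eq_or_ne c 0 with rfl | hc
    · rw [zero_smul, Place.ord_zero]
      have h1 : min (Q.ord t) 0 ≤ 0 := min_le_right _ _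
      have h2 : (0 : ℤ) ≤ m := Int.natCast_nonneg m
      nlinarith
    rcases eq_or_ne f 0 with rfl | hf0
    · rw [smul_zero]
      exact hf Q
    have hcF : algebraMap k F c ≠ 0 := by simpa using hc
    have h1 : Q.adicValuation (algebraMap k F c) = 1 := by
      have h1 := Q.adicValuation_algebraMap_le_one c
      have h2 := Q.adicValuation_algebraMap_le_one c⁻¹
      rw [map_inv₀, map_inv₀] at h2
      have h0 : Q.adicValuation (algebraMap k F c) ≠ 0 := Q.adicValuation_ne_zero hcF
      have h3 : 1 ≤ Q.adicValuation (algebraMap k F c) := by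
        rwa [inv_le_one₀ (zero_lt_iff.mpr h0)] at h2
      exact le_antisymm h1 h3
    have h2 : Q.ord (algebraMap k F c) = 0 := by
      rw [Place.ord, h1]
      simp
    rw [Algebra.smul_def, Q.ord_mul hcF hf0, h2, zero_add]
    exact hf Q

variable {k F}

theorem mem_placeFil_iff {t : F} {m : ℕ} {f : F} :
    f ∈ placeFil k F t m ↔ ∀ Q : Place k F, (m : ℤ) * min (Q.ord t) 0 ≤ Q.ord f := Iff.rfl

theorem placeFil_mono (t : F) {m m' : ℕ} (h : m ≤ m') : placeFil k F t m ≤ placeFil k F t m' := by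
  intro f hf Q
  refine le_trans ?_ (hf Q)
  have h1 : min (Q.ord t) 0 ≤ 0 := min_le_right _ _
  have h2 : (m : ℤ) ≤ m' := by exact_mod_cast h
  nlinarith

/-- Multiplication by `t` maps `placeFil m` into `placeFil (m + 1)`. -/
theorem mul_mem_placeFil_succ {t : F} {m : ℕ} {g : F} (hg : g ∈ placeFil k F t m) :
    t * g ∈ placeFil k F t (m + 1) := by
  intro Q
  rcases eq_or_ne t 0 with rfl | ht
  · rw [zero_mul, Place.ord_zero]
    simp
  rcases eq_or_ne g 0 with rfl | hg0
  · rw [mul_zero, Place.ord_zero]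
    have h1 : min (Q.ord t) 0 ≤ 0 := min_le_right _ _
    have h2 : (0 : ℤ) ≤ ((m + 1 : ℕ) : ℤ) := Int.natCast_nonneg _
    nlinarith
  rw [Q.ord_mul ht hg0]
  have h1 := hg Q
  have h2 : min (Q.ord t) 0 ≤ Q.ord t := min_le_left _ _
  push_cast
  linarith

/-- If `g ∈ placeFil m` and `t * g ∈ placeFil m` then `g ∈ placeFil (m - 1)`. -/
theorem mem_placeFil_pred {t : F} (ht : t ≠ 0) {m : ℕ} {g : F} (hg : g ∈ placeFil k F t (m + 1))
    (htg : t * g ∈ placeFil k F t (m + 1)) : g ∈ placeFil k F t m := by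
  intro Q
  rcases eq_or_ne g 0 with rfl | hg0
  · rw [Place.ord_zero]
    have h1 : min (Q.ord t) 0 ≤ 0 := min_le_right _ _
    have h2 : (0 : ℤ) ≤ m := Int.natCast_nonneg m
    nlinarith
  have h1 := hg Q
  have h2 := htg Q
  rw [Q.ord_mul ht hg0] at h2
  push_cast at h1 h2
  rcases le_total (Q.ord t) 0 with h | h
  · rw [min_eq_left h] at h1 h2 ⊢
    linarith
  · rw [min_eq_right h] at h1 h2 ⊢
    linarith

end defs

section bridge

variable {k F : Type*} [Field k] [Field F] [Algebra k F]
  [HasPrincipalDivisors k F] [∀ v : Place k F, v.FiniteResidue]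

/-- `placeFil k F t m = L(m (t)_∞)`. -/
theorem placeFil_eq_riemannRochSpace {t : F} (ht : t ≠ 0) (m : ℕ) :
    placeFil k F t m = riemannRochSpace (m • DegBound.poleDivisor (K := k) t) := by
  ext f
  rw [mem_placeFil_iff, mem_riemannRochSpace_iff]
  refine forall_congr' fun Q => ?_
  rw [Finsupp.smul_apply, DegBound.poleDivisor_apply ht, nsmul_eq_mul]
  have hmm : -((m : ℤ) * max 0 (-(Q.ord t))) = (m : ℤ) * min (Q.ord t) 0 := by
    rcases le_total (Q.ord t) 0 with h | h
    · rw [min_eq_left h, max_eq_right (by omega)]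
      ring
    · rw [min_eq_right h, max_eq_left (by omega)]
      ring
  rw [hmm]
  constructor
  · exact fun h => Or.inr h
  · rintro (rfl | h)
    · rw [Place.ord_zero]
      have h1 : min (Q.ord t) 0 ≤ 0 := min_le_right _ _
      have h2 : (0 : ℤ) ≤ m := Int.natCast_nonneg m
      nlinarith
    · exact h

end bridge

section growth

variable {k F : Type*} [Field k] [Field F] [Algebra k F]
  [HasPrincipalDivisors k F] [∀ v : Place k F, v.FiniteResidue] [Nonempty (Place k F)]

instance finite_placeFil (t : F) (m : ℕ) : Module.Finite k ↥(placeFil k F t m) := by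
  rcases eq_or_ne t 0 with rfl | ht
  · -- `placeFil k F 0 m = L(0)`
    have h : placeFil k F (0 : F) m = riemannRochSpace (0 : Divisor k F) := by
      ext f
      rw [mem_placeFil_iff, mem_riemannRochSpace_iff]
      refine forall_congr' fun Q => ?_
      rw [Place.ord_zero]
      simp only [min_self, mul_zero, Finsupp.coe_zero, Pi.zero_apply, neg_zero]
      constructor
      · exact fun h => Or.inr h
      · rintro (rfl | h)
        · rw [Place.ord_zero]
        · exact h
    rw [h]
    infer_instance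
  · rw [placeFil_eq_riemannRochSpace ht]
    infer_instance

/-- **Growth of the pole filtration**, abstract form: for large `m`,
`L((m+1) B) = t L(m B) + L(m B)`, `B = (t)_∞`. -/
theorem placeFil_growth_of (hγ : ∃ γ : ℤ, ∀ D : Divisor k F, rr D ≤ γ) {t : F} (ht : t ≠ 0)
    (hB : 1 ≤ Divisor.degree (DegBound.poleDivisor (K := k) t)) :
    ∃ m1 : ℕ, ∀ m : ℕ, m1 ≤ m → ∀ f ∈ placeFil k F t (m + 1),
      ∃ g ∈ placeFil k F t m, ∃ h ∈ placeFil k F t m, f = t * g + h := by
  obtain ⟨c, hc⟩ := exists_degree_bound_ell hγ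
  set B := DegBound.poleDivisor (K := k) t with hBdef
  set n : ℤ := Divisor.degree B with hn
  set a : ℤ := (ell (0 : Divisor k F) : ℤ) - genusFF k F with ha
  -- dimensions for large multiples of `B`
  have hdim : ∀ j : ℕ, c.toNat ≤ j →
      (finrank k ↥(placeFil k F t j) : ℤ) = (j : ℤ) * n + a := by
    intro j hj
    have hdeg : c ≤ Divisor.degree (j • B) := by
      rw [map_nsmul, nsmul_eq_mul]
      have h1 : c ≤ (c.toNat : ℤ) := Int.self_le_toNat c
      have h2 : ((c.toNat : ℕ) : ℤ) ≤ j := by exact_mod_cast hj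
      have h3 : (0 : ℤ) ≤ j := Int.natCast_nonneg j
      nlinarith
    have := (hc (j • B) hdeg).2
    rw [map_nsmul, nsmul_eq_mul] at this
    rw [placeFil_eq_riemannRochSpace ht]
    rw [ell] at this
    linarith
  refine ⟨c.toNat + 1, fun m hm f hf => ?_⟩
  obtain ⟨j, rfl⟩ : ∃ j, m = j + 1 := ⟨m - 1, by omega⟩
  have hj : c.toNat ≤ j := by omega
  set T : F →ₗ[k] F := LinearMap.mulLeft k t with hT
  have hTinj : Function.Injective T := fun x y hxy => mul_left_cancel₀ ht hxy
  set M := placeFil k F t (j + 1) with hM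
  set M0 := placeFil k F t j with hM0
  set M2 := placeFil k F t (j + 1 + 1) with hM2
  have hle : M.map T ⊔ M ≤ M2 := by
    refine sup_le ?_ (placeFil_mono t (Nat.le_succ _))
    rintro _ ⟨g, hg, rfl⟩
    exact mul_mem_placeFil_succ hg
  have hinf : M.map T ⊓ M = M0.map T := by
    apply le_antisymm
    · rintro _ ⟨⟨g, hg, rfl⟩, htg⟩
      exact ⟨g, mem_placeFil_pred ht hg htg, rfl⟩
    · rintro _ ⟨g, hg, rfl⟩
      exact ⟨⟨g, placeFil_mono t (Nat.le_succ _) hg, rfl⟩, mul_mem_placeFil_succ hg⟩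
  have hmapM : finrank k ↥(M.map T) = finrank k ↥M :=
    (Submodule.equivMapOfInjective T hTinj M).finrank_eq.symm
  have hmapM0 : finrank k ↥(M0.map T) = finrank k ↥M0 :=
    (Submodule.equivMapOfInjective T hTinj M0).finrank_eq.symm
  have hfinMT : Module.Finite k ↥(M.map T) :=
    Module.Finite.equiv (Submodule.equivMapOfInjective T hTinj M)
  have hsum := Submodule.finrank_sup_add_finrank_inf_eq (M.map T) M
  rw [hinf, hmapM, hmapM0] at hsum
  have d0 := hdim j hj
  have d1 := hdim (j + 1) (by omega)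
  have d2 := hdim (j + 1 + 1) (by omega)
  have hfr : finrank k ↥(M.map T ⊔ M) = finrank k ↥M2 := by
    have h1 : (finrank k ↥(M.map T ⊔ M) : ℤ) + finrank k ↥M0 =
        (finrank k ↥M : ℤ) + finrank k ↥M := by exact_mod_cast hsum
    have : (finrank k ↥(M.map T ⊔ M) : ℤ) = finrank k ↥M2 := by
      rw [d2]
      rw [d0, d1] at h1
      push_cast at h1 ⊢
      linarith
    exact_mod_cast this
  have heq : M.map T ⊔ M = M2 := Submodule.eq_of_le_of_finrank_eq hle hfr
  have hfmem : f ∈ M.map T ⊔ M := by rw [heq]; exact hf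
  obtain ⟨y, ⟨g, hg, rfl⟩, z, hz, rfl⟩ := Submodule.mem_sup.mp hfmem
  exact ⟨g, hg, z, hz, rfl⟩

end growth

section wrappers

variable {k F : Type*} [Field k] [Field F] [Algebra k F]

/-- **Growth of the pole filtration** (any field `k`, any characteristic): if `tb : F` is
transcendental over `k` and `F / k(tb)` is finite separable, then for all large `m`
`L((m+1) (tb)_∞) = tb * L(m (tb)_∞) + L(m (tb)_∞)`. -/
theorem placeFil_growth {tb : F} (hx : Transcendental k tb) [FiniteDimensional k⟮tb⟯ F]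
    [Algebra.IsSeparable k⟮tb⟯ F] :
    ∃ m1 : ℕ, ∀ m : ℕ, m1 ≤ m → ∀ f ∈ placeFil k F tb (m + 1),
      ∃ g ∈ placeFil k F tb m, ∃ h ∈ placeFil k F tb m, f = tb * g + h := by
  haveI := FunctionFieldRR.nonempty_place hx
  haveI : ∀ v : Place k F, v.FiniteResidue := FunctionField.finiteResidue k tb
  haveI := FunctionFieldRR.hasPrincipalDivisors hx
  have ht : tb ≠ 0 := by
    rintro rfl
    exact hx isAlgebraic_zero
  refine placeFil_growth_of (DegBound.exists_rr_le' tb hx) ht ?_
  have hdeg := FunctionFieldDeg.degree_poles_eq_finrank (K := k) tb hx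
    (finite_riemannRochSpace (0 : Divisor k F))
    (fun g hg => by
      obtain ⟨D, hD, -⟩ := HasPrincipalDivisors.exists_divisor (K := k) g hg
      exact ⟨D, hD⟩)
    (DegBound.poleDivisor_apply (K := k) ht)
  rw [hdeg]
  have hpos : 0 < finrank k⟮tb⟯ F := Module.finrank_pos
  exact_mod_cast hpos

/-- The pole filtration consists of finite-dimensional spaces. -/
theorem finite_placeFil_sep {tb : F} (hx : Transcendental k tb) [FiniteDimensional k⟮tb⟯ F]
    [Algebra.IsSeparable k⟮tb⟯ F] (m : ℕ) : Module.Finite k ↥(placeFil k F tb m) := by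
  haveI := FunctionFieldRR.nonempty_place hx
  haveI : ∀ v : Place k F, v.FiniteResidue := FunctionField.finiteResidue k tb
  haveI := FunctionFieldRR.hasPrincipalDivisors hx
  exact finite_placeFil tb m

/-- In characteristic zero every finite extension `F / K(t)` is separable. -/
theorem isSeparable_of_charZero [CharZero k] (tb : F) [FiniteDimensional k⟮tb⟯ F] :
    Algebra.IsSeparable k⟮tb⟯ F := by
  haveI : CharZero k⟮tb⟯ :=
    charZero_of_injective_algebraMap (algebraMap k k⟮tb⟯).injective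
  infer_instance

/-- Growth of the pole filtration in characteristic zero (no separability hypothesis). -/
theorem placeFil_growth_cz [CharZero k] {tb : F} (hx : Transcendental k tb)
    [FiniteDimensional k⟮tb⟯ F] :
    ∃ m1 : ℕ, ∀ m : ℕ, m1 ≤ m → ∀ f ∈ placeFil k F tb (m + 1),
      ∃ g ∈ placeFil k F tb m, ∃ h ∈ placeFil k F tb m, f = tb * g + h := by
  haveI := isSeparable_of_charZero (k := k) tb
  exact placeFil_growth hx

/-- Finite-dimensionality of the pole filtration in characteristic zero. -/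
theorem finite_placeFil_cz [CharZero k] {tb : F} (hx : Transcendental k tb)
    [FiniteDimensional k⟮tb⟯ F] (m : ℕ) : Module.Finite k ↥(placeFil k F tb m) := by
  haveI := isSeparable_of_charZero (k := k) tb
  exact finite_placeFil_sep hx m

end wrappers

section placefree

variable {k F : Type*} [Field k] [Field F] [Algebra k F]

open Fermat.Agent.Gateway.GoodRed.PlacesIntegral in
/-- **Bridge**: helper37's place-free `poleFil k t m` (integral over `k[t]`, and `f / t ^ m`
integral over `k[t⁻¹]`) is the Place-theoretic `placeFil k F t m = L(m (t)_∞)`. -/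
theorem poleFil_eq_placeFil {t : F} (hx : Transcendental k t) [FiniteDimensional k⟮t⟯ F]
    [Algebra.IsSeparable k⟮t⟯ F] (m : ℕ) : poleFil k t m = placeFil k F t m := by
  have ht : t ≠ 0 := by
    rintro rfl
    exact hx isAlgebraic_zero
  have hinv : k⟮t⁻¹⟯ = k⟮t⟯ := DegBound.adjoin_simple_inv t
  haveI hfd : FiniteDimensional k⟮t⁻¹⟯ F := by
    rw [hinv]
    infer_instance
  haveI hsep : Algebra.IsSeparable k⟮t⁻¹⟯ F := by
    rw [hinv]
    infer_instance
  have hx' : Transcendental k t⁻¹ := by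
    intro h
    exact hx (by simpa using h.inv)
  have hpow : ∀ Q : Place k F, ∀ f : F, f ≠ 0 →
      Q.ord (f * t⁻¹ ^ m) = Q.ord f - (m : ℤ) * Q.ord t := by
    intro Q f hf
    rw [Q.ord_mul hf (pow_ne_zero _ (inv_ne_zero ht)), ← zpow_natCast, Q.ord_zpow, Q.ord_inv]
    ring
  ext f
  rw [mem_poleFil_iff, mem_placeFil_iff, isIntegral_iff_forall_ord_nonneg t hx f,
    isIntegral_iff_forall_ord_nonneg t⁻¹ hx' (f * t⁻¹ ^ m)]
  rcases eq_or_ne f 0 with rfl | hf
  · simp only [zero_mul, Place.ord_zero, le_refl, implies_true, true_and]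
    constructor
    · intro _ Q
      have h1 : min (Q.ord t) 0 ≤ 0 := min_le_right _ _
      have h2 : (0 : ℤ) ≤ m := Int.natCast_nonneg m
      nlinarith
    · intro _
      trivial
  constructor
  · rintro ⟨h1, h2⟩ Q
    rcases le_or_gt 0 (Q.ord t) with h | h
    · rw [min_eq_right h, mul_zero]
      exact h1 Q h
    · rw [min_eq_left h.le]
      have h3 := h2 Q (by rw [Q.ord_inv]; omega)
      rw [hpow Q f hf] at h3
      linarith
  · intro h
    refine ⟨fun Q hQ => ?_, fun Q hQ => ?_⟩
    · have := h Q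
      rwa [min_eq_right hQ, mul_zero] at this
    · rw [Q.ord_inv] at hQ
      have h1 := h Q
      rw [min_eq_left (by omega)] at h1
      rw [hpow Q f hf]
      linarith

/-- **Growth of the place-free pole filtration** (the field `growth` of
`RedBase.IsFilteredChart` on the special fibre; any field `k`, any characteristic). -/
theorem poleFil_growth {tb : F} (hx : Transcendental k tb) [FiniteDimensional k⟮tb⟯ F]
    [Algebra.IsSeparable k⟮tb⟯ F] :
    ∃ m₁ : ℕ, ∀ m, m₁ ≤ m → ∀ g ∈ poleFil k tb (m + 1),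
      ∃ g₁ ∈ poleFil k tb m, ∃ g₂ ∈ poleFil k tb m, g = tb * g₁ + g₂ := by
  obtain ⟨m₁, h⟩ := placeFil_growth hx
  refine ⟨m₁, fun m hm g hg => ?_⟩
  rw [poleFil_eq_placeFil hx] at hg
  obtain ⟨g₁, hg₁, g₂, hg₂, e⟩ := h m hm g hg
  refine ⟨g₁, ?_, g₂, ?_, e⟩
  · rw [poleFil_eq_placeFil hx]; exact hg₁
  · rw [poleFil_eq_placeFil hx]; exact hg₂

/-- The place-free pole filtration consists of finite-dimensional spaces. -/
theorem finite_poleFil {t : F} (hx : Transcendental k t) [FiniteDimensional k⟮t⟯ F]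
    [Algebra.IsSeparable k⟮t⟯ F] (m : ℕ) : Module.Finite k ↥(poleFil k t m) := by
  rw [poleFil_eq_placeFil hx]
  exact finite_placeFil_sep hx m

/-- Growth in characteristic zero, no separability hypothesis. -/
theorem poleFil_growth_cz [CharZero k] {tb : F} (hx : Transcendental k tb)
    [FiniteDimensional k⟮tb⟯ F] :
    ∃ m₁ : ℕ, ∀ m, m₁ ≤ m → ∀ g ∈ poleFil k tb (m + 1),
      ∃ g₁ ∈ poleFil k tb m, ∃ g₂ ∈ poleFil k tb m, g = tb * g₁ + g₂ := by
  haveI := isSeparable_of_charZero (k := k) tb
  exact poleFil_growth hx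

/-- Finite-dimensionality in characteristic zero, no separability hypothesis. -/
theorem finite_poleFil_cz [CharZero k] {t : F} (hx : Transcendental k t)
    [FiniteDimensional k⟮t⟯ F] (m : ℕ) : Module.Finite k ↥(poleFil k t m) := by
  haveI := isSeparable_of_charZero (k := k) t
  exact finite_poleFil hx m

end placefree

section nakayama

variable {A : Type*} [CommRing A] [IsLocalRing A]

/-- **Nakayama step**: `Λ` a finitely generated submodule, `N ≤ Λ`, and every `f ∈ Λ` is
congruent to an element of `N` modulo `m_A Λ`; then `N = Λ`. -/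
theorem eq_of_forall_exists_sub_mem_smul {V : Type*} [AddCommGroup V] [Module A V]
    {N Λ : Submodule A V} (hΛ : Λ.FG) (hN : N ≤ Λ)
    (h : ∀ f ∈ Λ, ∃ g ∈ N, f - g ∈ IsLocalRing.maximalIdeal A • Λ) : N = Λ := by
  refine le_antisymm hN ?_
  refine Submodule.le_of_le_smul_of_le_jacobson_bot hΛ
    (IsLocalRing.maximalIdeal_le_jacobson ⊥) ?_
  intro f hf
  obtain ⟨g, hg, hfg⟩ := h f hf
  have : f = g + (f - g) := by abel
  rw [this]
  exact Submodule.add_mem_sup hg hfg

/-- **Nakayama step**, module form: `Λ` a finitely generated `A`-module, `N` a submodule such that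
every `f : Λ` is congruent to an element of `N` modulo `m_A Λ`; then `N = ⊤`. -/
theorem eq_top_of_forall_exists_sub_mem_smul {Λ : Type*} [AddCommGroup Λ] [Module A Λ]
    [Module.Finite A Λ] (N : Submodule A Λ)
    (h : ∀ f : Λ, ∃ g ∈ N, f - g ∈ IsLocalRing.maximalIdeal A • (⊤ : Submodule A Λ)) : N = ⊤ :=
  eq_of_forall_exists_sub_mem_smul Module.Finite.fg_top le_top fun f _ => h f

/-- **Lifting a growth statement through a reduction map.**  `Λ ≤ Λ'` are `A`-submodules of `V`,
`Λ'` finitely generated, `T` maps `Λ` into `Λ'`, and `r : Λ' → W` is an additive "reduction" map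
whose kernel is contained in `m_A Λ'`.  If `r Λ' ⊆ r (T Λ) + r Λ` then `Λ' = T Λ + Λ`. -/
theorem eq_map_sup_of_reduction {V W : Type*} [AddCommGroup V] [Module A V] [AddCommGroup W]
    {Λ Λ' : Submodule A V} (hfg : Λ'.FG) (hle : Λ ≤ Λ') (T : V →ₗ[A] V)
    (hT : ∀ g ∈ Λ, T g ∈ Λ') (r : ↥Λ' →+ W)
    (hker : ∀ f : ↥Λ', r f = 0 → (f : V) ∈ IsLocalRing.maximalIdeal A • Λ')
    (hgrow : ∀ f : ↥Λ', ∃ g : V, ∃ hg : g ∈ Λ, ∃ h : V, ∃ hh : h ∈ Λ,
      r f = r ⟨T g, hT g hg⟩ + r ⟨h, hle hh⟩) :
    Λ.map T ⊔ Λ = Λ' := by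
  have hN : Λ.map T ⊔ Λ ≤ Λ' := by
    refine sup_le ?_ hle
    rintro _ ⟨g, hg, rfl⟩
    exact hT g hg
  refine eq_of_forall_exists_sub_mem_smul hfg hN fun f hf => ?_
  obtain ⟨g, hg, h, hh, hr⟩ := hgrow ⟨f, hf⟩
  refine ⟨T g + h, Submodule.add_mem_sup (Submodule.mem_map_of_mem hg) hh, ?_⟩
  have hmem : f - (T g + h) ∈ Λ' :=
    Λ'.sub_mem hf (Λ'.add_mem (hT g hg) (hle hh))
  have h0 : r ⟨f - (T g + h), hmem⟩ = 0 := by
    have e : (⟨f - (T g + h), hmem⟩ : ↥Λ') =
        ⟨f, hf⟩ - (⟨T g, hT g hg⟩ + ⟨h, hle hh⟩) := rfl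
    rw [e, map_sub, map_add, hr, sub_self]
  exact hker ⟨f - (T g + h), hmem⟩ h0

end nakayama

section polycomb

open Polynomial

/-- **From growth to finite generation over `A[t]`.**  If `Λ (m + 1) ⊆ t * Λ m + Λ m` for all
`m ≥ m1` and every element of `Λ m1` is an `A`-combination of the finite set `s`, then every
element of every `Λ m` is an `A[t]`-combination of `s` (the shape of `ModelData.fg`). -/
theorem exists_polynomial_combination {A K R : Type*} [CommRing A] [CommRing K] [CommRing R]
    [Algebra K R] (φ : A →+* K) (t : R) (Λ : ℕ → Set R) (m1 : ℕ)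
    (hgrow : ∀ m, m1 ≤ m → ∀ f ∈ Λ (m + 1), ∃ g ∈ Λ m, ∃ h ∈ Λ m, f = t * g + h)
    (hmono : ∀ m, m ≤ m1 → Λ m ⊆ Λ m1)
    (s : Finset R) (hs : ∀ f ∈ Λ m1, ∃ c : R → A, f = ∑ x ∈ s, φ (c x) • x) :
    ∀ m, ∀ f ∈ Λ m, ∃ p : R → A[X], f = ∑ x ∈ s, aeval t ((p x).map φ) * x := by
  have hbase : ∀ f ∈ Λ m1, ∃ p : R → A[X], f = ∑ x ∈ s, aeval t ((p x).map φ) * x := by
    intro f hf
    obtain ⟨c, hc⟩ := hs f hf
    refine ⟨fun x => C (c x), ?_⟩
    rw [hc]
    refine Finset.sum_congr rfl fun x _ => ?_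
    rw [Polynomial.map_C, aeval_C, Algebra.smul_def]
  have hge : ∀ d : ℕ, ∀ f ∈ Λ (m1 + d), ∃ p : R → A[X],
      f = ∑ x ∈ s, aeval t ((p x).map φ) * x := by
    intro d
    induction d with
    | zero => exact hbase
    | succ d ih =>
      intro f hf
      obtain ⟨g, hg, h, hh, rfl⟩ := hgrow (m1 + d) (Nat.le_add_right _ _) f hf
      obtain ⟨p, hp⟩ := ih g hg
      obtain ⟨q, hq⟩ := ih h hh
      refine ⟨fun x => X * p x + q x, ?_⟩
      conv_lhs => rw [hp, hq]
      rw [Finset.mul_sum, ← Finset.sum_add_distrib]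
      refine Finset.sum_congr rfl fun x _ => ?_
      rw [Polynomial.map_add, Polynomial.map_mul, Polynomial.map_X, map_add, map_mul, aeval_X]
      ring
  intro m f hf
  rcases le_total m m1 with h | h
  · exact hbase f (hmono m h hf)
  · obtain ⟨d, rfl⟩ := Nat.exists_eq_add_of_le h
    exact hge d f hf

end polycomb

end Fermat.Agent.Gateway.Red
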