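/-
P-GATEWAY (c), RED block, RED-F (helper37; written in parallel with helper42 as insurance, landed
first): `j` is a FILTERED chart coordinate (`Red/Filtered.lean`) of the modular reduction base
`modularRedBase` (`Red/ModularBase.lean`) at every level `M` with the level facts
`C0.GoodLevelFacts` ((G2) genus inequality + (G3) integrality of reductions).

* `lift_jL` : filtered lifting `L_k(m (j̄)_∞) ← L(m (j)_∞) ∩ O` for `m` large (from the counting
  data of `C0/Exports.lean`);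
* `growth_jFk` : `L_k((m+1) (j̄)_∞) = j̄ L_k(m (j̄)_∞) + L_k(m (j̄)_∞)` for `m` large (`Red/Growth`);
* `fgLambda_jF` : the lattices `L(m (j)_∞) ∩ O` are finitely generated over `A` (Cartesian);
* `isFilteredChart_jL`.
-/
import Fermat.Agent.Gateway.Red.ModularBase
import Fermat.Agent.Gateway.Red.Growth
import Fermat.Agent.Gateway.C0.ExportsModular

set_option autoImplicit false
set_option linter.unusedSectionVars false

noncomputable section

namespace Fermat.Agent.Gateway.Red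

open ModularCurve IntermediateField AlgebraicCurve
open Fermat.Agent.Gateway.GoodRed Fermat.Agent.Gateway.GoodRed.ConjFamily

local notation "Qb" => AlgebraicClosure ℚ

section

set_option synthInstance.maxHeartbeats 400000

variable (A : ValuationSubring Qb) {k : Type} [Field k] (π : A →+* k) [IsAlgClosed k]
  (ℓ : ℕ) [Fact ℓ.Prime] [CharP k ℓ] (M : ℕ) [NeZero M]
  (hπ : Function.Surjective π) (hℓM : ¬ ℓ ∣ M)

theorem jk_eq_jFk : FkBasics.jk k M = jFk k M := rfl

theorem jL_eq_jF : HK1.jL Qb M = jF Qb M := rfl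

/-- filtered lifting for the chart `j` at a level with the level facts -/
theorem lift_jL (hA : A.LiesOverPrime ℓ) (H : C0.GoodLevelFacts A π M ℓ hπ hℓM) :
    ∃ m₀ : ℕ, ∀ m, m₀ ≤ m → ∀ g ∈ poleFil k (jFk k M) m,
      ∃ f : OvVal A π M ℓ hπ hℓM, ((f : FBar Qb M)) ∈ poleFil Qb (jF Qb M) m ∧
        resFk A π M ℓ hπ hℓM f = g := by
  have hMk : (M : k) ≠ 0 := fun h => hℓM ((CharP.cast_eq_zero_iff k ℓ M).mp h)
  have : Algebra.IsAlgebraic ℚ Qb := AlgebraicClosure.isAlgebraic ℚ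
  have := C0.LevelFacts.finiteDimensional_jF Qb M
  have := C0.LevelFacts.finiteDimensional_jFk (k := k) (M := M) hMk
  have := C0.LevelFacts.isSeparable_jFk (k := k) (M := M) hMk
  obtain ⟨D, hLN, hLbar, hLM, hm₀, -⟩ := C0.exists_countData_one
    (C0.gaussRedSetup A π M ℓ hπ hℓM hA)
    (C0.LevelFacts.transcendental_jF Qb M)
    (C0.LevelFacts.jF_mem_OvVal A π M ℓ hπ hℓM)
    (C0.LevelFacts.resFk_jF A π M ℓ hπ hℓM) (C0.LevelFacts.transcendental_jFk k M)
    H.integral H.integral_inv (C0.LevelFacts.finrank_jFk_le hMk) H.genus_le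
    (fun V hV => fg_inf_OvVal A π ℓ hπ hℓM V _ (fun f => Iff.rfl))
  refine ⟨D.m₀, fun m hm g hg => ?_⟩
  have hmem : g ∈ D.Lbar 0 m := by
    rw [hLbar]
    refine ⟨by rw [pow_zero, one_mul]; exact hg.1, ?_⟩
    rw [mul_comm]
    exact hg.2
  have h1 : (C0.gaussRedSetup A π M ℓ hπ hℓM hA).res
      ⟨(1 : FBar Qb M), (OvVal A π M ℓ hπ hℓM).one_mem⟩ = 1 :=
    map_one (C0.gaussRedSetup A π M ℓ hπ hℓM hA).res
  obtain ⟨φ, hφO, hφM, hres⟩ := D.exists_lift (OvVal A π M ℓ hπ hℓM).one_mem h1 (Or.inr hm) hmem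
  rw [hLM, hLN] at hφM
  refine ⟨⟨φ, hφO⟩, ⟨?_, ?_⟩, hres⟩
  · have := hφM.1
    rwa [pow_zero, one_mul] at this
  · have := hφM.2
    rwa [mul_comm] at this

/-- growth on the special fibre -/
theorem growth_jFk (hMk : (M : k) ≠ 0) :
    ∃ m₁ : ℕ, ∀ m, m₁ ≤ m → ∀ g ∈ poleFil k (jFk k M) (m + 1),
      ∃ g₁ ∈ poleFil k (jFk k M) m, ∃ g₂ ∈ poleFil k (jFk k M) m, g = jFk k M * g₁ + g₂ := by
  have := C0.LevelFacts.finiteDimensional_jFk (k := k) (M := M) hMk
  have := C0.LevelFacts.isSeparable_jFk (k := k) (M := M) hMk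
  exact poleFil_growth (C0.LevelFacts.transcendental_jFk k M)

/-- Cartesian lattices of the filtration -/
theorem fgLambda_jF (m : ℕ) :
    ∃ s : Finset (FBar Qb M), (∀ x ∈ s, x ∈ OvVal A π M ℓ hπ hℓM ∧ x ∈ poleFil Qb (jF Qb M) m) ∧
      ∀ f : FBar Qb M, f ∈ OvVal A π M ℓ hπ hℓM → f ∈ poleFil Qb (jF Qb M) m →
        ∃ c : FBar Qb M → A, f = ∑ x ∈ s, ((c x : A) : Qb) • x := by
  classical
  have : Algebra.IsAlgebraic ℚ Qb := AlgebraicClosure.isAlgebraic ℚ
  have := C0.LevelFacts.finiteDimensional_jF Qb M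
  have : FiniteDimensional Qb ↥(poleFil Qb (jF Qb M) m) :=
    finite_poleFil_cz (C0.LevelFacts.transcendental_jF Qb M) m
  let Λ : Submodule A (FBar Qb M) :=
    { carrier := {x | x ∈ poleFil Qb (jF Qb M) m ∧ x ∈ OvVal A π M ℓ hπ hℓM}
      zero_mem' := ⟨Submodule.zero_mem _, (OvVal A π M ℓ hπ hℓM).zero_mem⟩
      add_mem' := fun hx hy => ⟨Submodule.add_mem _ hx.1 hy.1, add_mem hx.2 hy.2⟩
      smul_mem' := fun a x hx => ⟨Submodule.smul_mem _ (a : Qb) hx.1, by
        have h1 : algebraMap Qb (FBar Qb M) (a : Qb) ∈ OvVal A π M ℓ hπ hℓM :=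
          (algebraMap_mem_Ov_iff A π M hπ (a : Qb)).mpr a.2
        have h2 : a • x = algebraMap Qb (FBar Qb M) (a : Qb) * x := by
          rw [← Algebra.smul_def]; rfl
        rw [h2]
        exact mul_mem h1 hx.2⟩ }
  have hfg : Λ.FG := fg_inf_OvVal A π ℓ hπ hℓM (poleFil Qb (jF Qb M) m) Λ (fun f => Iff.rfl)
  obtain ⟨s, hs⟩ := hfg
  refine ⟨s, fun x hx => ?_, fun f hfO hfV => ?_⟩
  · have : x ∈ Λ := by
      rw [← hs]
      exact Submodule.subset_span hx
    exact ⟨this.2, this.1⟩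
  · have hf : f ∈ Submodule.span A (s : Set (FBar Qb M)) := by
      rw [hs]
      exact ⟨hfV, hfO⟩
    obtain ⟨c, -, hc⟩ := Submodule.mem_span_finset.mp hf
    refine ⟨c, ?_⟩
    rw [← hc]
    rfl

/-- **`j` is a filtered chart coordinate of the modular reduction base at a level with the level
facts** -/
theorem isFilteredChart_jL (hA : A.LiesOverPrime ℓ) (H : C0.GoodLevelFacts A π M ℓ hπ hℓM) :
    (modularRedBase A π ℓ M hπ hℓM).IsFilteredChart (HK1.jL Qb M) := by
  have hMk : (M : k) ≠ 0 := fun h => hℓM ((CharP.cast_eq_zero_iff k ℓ M).mp h)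
  have hres : (modularRedBase A π ℓ M hπ hℓM).res ⟨HK1.jL Qb M, jL_mem_O A π ℓ M hπ hℓM⟩ =
      jFk k M := res_jL A π ℓ M hπ hℓM
  have hne : jFk k M ≠ 0 := by
    intro h0
    exact (C0.LevelFacts.transcendental_jFk k M) (h0 ▸ isAlgebraic_zero)
  refine
    { t_mem := jL_mem_O A π ℓ M hπ hℓM
      res_t_ne := by rw [hres]; exact hne
      sc := fun f hf => ?_
      sc_inv := fun f hf => ?_
      lift := ?_
      fgΛ := fun m => fgLambda_jF A π ℓ M hπ hℓM m
      growth := ?_ }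
  · rw [hres]
    exact H.integral (f : FBar Qb M) f.2 hf
  · rw [hres]
    exact H.integral_inv (f : FBar Qb M) f.2 hf
  · rw [hres]
    exact lift_jL A π ℓ M hπ hℓM hA H
  · rw [hres]
    exact growth_jFk M hMk

end

end Fermat.Agent.Gateway.Red
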