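/-
P-GATEWAY (c) (helper37): everything from the level facts (G2)+(G3) at the GOOD levels.

From `GoodFacts` (`Red/GoodFacts.lean`):

* `reductionInputsModL_of_goodFacts` : `ReductionInputsModL A M` at the good levels (RED);
* `s37_of_goodFacts` : the frozen S37 (given the last ES step
  `RedDataAtOfReductionInputs`).
-/
import Fermat.Agent.Gateway.Red.Main
import Fermat.Agent.Gateway.Red.ModularFiltered
import Fermat.Agent.Gateway.Red.Assembly
import Fermat.Agent.Gateway.Red.GoodFacts

set_option autoImplicit false
set_option linter.unusedSectionVars false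

noncomputable section

namespace Fermat.Agent.Gateway.Red

open ModularCurve IntermediateField AlgebraicCurve
open Fermat.Agent.Gateway.GoodRed

local notation "Qb" => AlgebraicClosure ℚ

/-- **the reduction inputs at the good levels** from the level facts. -/
theorem reductionInputsModL_of_goodFacts (H : GoodFacts) (M : ℕ) [NeZero M] (ℓ : ℕ)
    (hℓ : ℓ.Prime) (hℓM : ¬ ℓ ∣ M) (hgood : (ℓ ≠ 2 ∧ 4 ∣ M) ∨ (ℓ = 2 ∧ 9 ∣ M))
    (A : ValuationSubring Qb) (hA : A.LiesOverPrime ℓ) : ReductionInputsModL A M := by
  have : Fact ℓ.Prime := ⟨hℓ⟩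
  have := ES.charP_residueField_of_liesOverPrime A hA
  have : IsAlgClosed (IsLocalRing.ResidueField A) := residueField_isAlgClosed A
  exact reductionInputsAlong_of_filtered A (IsLocalRing.residue A) ℓ M
    IsLocalRing.residue_surjective hℓM
    (isFilteredChart_jL A (IsLocalRing.residue A) ℓ M IsLocalRing.residue_surjective hℓM hA
      (H M ℓ hℓM hgood A hA))

/-- **The frozen S37 from the level facts at the good levels** (and the last ES step). -/
theorem s37_of_goodFacts (hAt : RedDataAtOfReductionInputs) (H : GoodFacts) (N p : ℕ) [NeZero N]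
    (hcomm : HeckeOperatorsCommuteBar N) :
    letI := heckeModuleBar N
    ∀ (_ : SMulCommClass (Qb ≃ₐ[ℚ] Qb) HeckeAlg (JZero N)),
      SpecializationExists (K := ℚ) (L := Qb) N p (JZero N) :=
  s37_of_reductionInputs_of hAt N p hcomm
    (fun M _ ℓ hℓ hℓM hgood A hA => reductionInputsModL_of_goodFacts H M ℓ hℓ hℓM hgood A hA)
    (c0AtGoodLevels_of_goodFacts H)

end Fermat.Agent.Gateway.Red
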