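/-
P-GATEWAY (c), RED block, package RED-E (helper38): equivariance of the reduction of points
`ModelData.redPrime` under automorphisms of the model, in the abstract `ModelData` language of
`Red/Model.lean` (pure commutative algebra, Mathlib only).

An automorphism of the model (`ModelAut D`) consists of ring automorphisms `σ` of `R` (preserving
`𝓡`, fixing the coordinate `t`), `σK` of `K` (preserving `A`, inducing `σk` on `k`), `σb` of `Rb`,
with `σ` semilinear over `σK` and `res ∘ σ = σb ∘ res`.  Primes are transported by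
`HeightOneSpectrum.equivOfRingEquiv` (`σ 𝔭 = 𝔭.comap σ⁻¹`).  Then

* `ModelAut.ev_map` : `(σ f)(σ 𝔭) = σK (f(𝔭))`;
* `ModelAut.isIntegralPt_map` : `σ 𝔭` is integral iff `𝔭` is;
* `ModelAut.chiBar_map` : `χ̄_{σ𝔭} (σb g) = σk (χ̄_𝔭 g)`;
* `ModelAut.redPrime_map` : `redPrime (σ 𝔭) = σb (redPrime 𝔭)`;
* `ModelAut.mem_fibre_map` : `σ 𝔭 ∈ fibre (σb 𝔮) ↔ 𝔭 ∈ fibre 𝔮`.
-/
import Fermat.Agent.Gateway.Red.Model

set_option autoImplicit false
set_option linter.unusedSectionVars false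

noncomputable section

namespace Fermat.Agent.Gateway.Red

open IsDedekindDomain

variable {K : Type*} [Field K] {A : ValuationSubring K} {k : Type*} [Field k]
  {R : Type*} [CommRing R] [Algebra K R] {Rb : Type*} [CommRing Rb] [Algebra k Rb]

/-- An automorphism of the model data `D`. -/
structure ModelAut (D : ModelData K A k R Rb) where
  /-- the automorphism of the functions on the generic fibre -/
  σ : R ≃+* R
  /-- the automorphism of the constants -/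
  σK : K ≃+* K
  /-- the induced automorphism of the residue field -/
  σk : k ≃+* k
  /-- the automorphism of the functions on the special fibre -/
  σb : Rb ≃+* Rb
  map_A : ∀ a : K, σK a ∈ A ↔ a ∈ A
  π_comp : ∀ a : A, D.π ⟨σK a, (map_A a).mpr a.2⟩ = σk (D.π a)
  map_𝓡 : ∀ f ∈ D.𝓡, σ f ∈ D.𝓡
  map_t : σ D.t = D.t
  semilinear : ∀ (c : K) (f : R), σ (c • f) = σK c • σ f
  res_comp : ∀ f : D.𝓡, D.res ⟨σ f, map_𝓡 f f.2⟩ = σb (D.res f)

namespace ModelAut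

variable {D : ModelData K A k R Rb} (τ : ModelAut D)

theorem σ_algebraMap (c : K) : τ.σ (algebraMap K R c) = algebraMap K R (τ.σK c) := by
  rw [Algebra.algebraMap_eq_smul_one, τ.semilinear, map_one, ← Algebra.algebraMap_eq_smul_one]

/-- `σb` is semilinear over `σk`. -/
theorem σb_algebraMap (c : k) : τ.σb (algebraMap k Rb c) = algebraMap k Rb (τ.σk c) := by
  obtain ⟨a, rfl⟩ := D.π_surj c
  rw [← D.res_algebraMap, ← τ.res_comp, ← τ.π_comp, ← D.res_algebraMap]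
  congr 1
  exact Subtype.ext (τ.σ_algebraMap _)

variable [IsDedekindDomain R] (hR : AllPointsRational K R)

/-- transport of points: `σ 𝔭 = 𝔭.comap σ⁻¹`. -/
def mapPrime (𝔭 : HeightOneSpectrum R) : HeightOneSpectrum R :=
  HeightOneSpectrum.equivOfRingEquiv τ.σ 𝔭

theorem mem_mapPrime_iff (𝔭 : HeightOneSpectrum R) (f : R) :
    f ∈ (τ.mapPrime 𝔭).asIdeal ↔ τ.σ.symm f ∈ 𝔭.asIdeal := Iff.rfl

theorem σ_mem_mapPrime_iff (𝔭 : HeightOneSpectrum R) (f : R) :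
    τ.σ f ∈ (τ.mapPrime 𝔭).asIdeal ↔ f ∈ 𝔭.asIdeal := by
  rw [mem_mapPrime_iff, RingEquiv.symm_apply_apply]

/-- `(σ f)(σ 𝔭) = σK (f(𝔭))`. -/
theorem ev_map (𝔭 : HeightOneSpectrum R) (f : R) :
    ev hR (τ.mapPrime 𝔭) (τ.σ f) = τ.σK (ev hR 𝔭 f) := by
  have h1 : τ.σ (f - algebraMap K R (ev hR 𝔭 f)) ∈ (τ.mapPrime 𝔭).asIdeal :=
    (τ.σ_mem_mapPrime_iff 𝔭 _).mpr (sub_ev_mem hR 𝔭 f)
  rw [map_sub, τ.σ_algebraMap, ← ev_eq_zero_iff hR, map_sub, ev_algebraMap, sub_eq_zero] at h1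
  exact h1

/-- `σ 𝔭` is an integral point iff `𝔭` is. -/
theorem isIntegralPt_map (𝔭 : HeightOneSpectrum R) :
    D.IsIntegralPt hR (τ.mapPrime 𝔭) ↔ D.IsIntegralPt hR 𝔭 := by
  unfold ModelData.IsIntegralPt
  rw [← τ.map_A (ev hR 𝔭 D.t), ← τ.ev_map hR 𝔭 D.t, τ.map_t]

variable [IsDedekindDomain Rb] (hint : D.IntegralValues hR)

/-- `χ̄_{σ𝔭} (σb g) = σk (χ̄_𝔭 g)`. -/
theorem chiBar_map (𝔭 : HeightOneSpectrum R) (h𝔭 : D.IsIntegralPt hR 𝔭) (g : Rb) :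
    D.chiBar hR hint (τ.mapPrime 𝔭) ((τ.isIntegralPt_map hR 𝔭).mpr h𝔭) (τ.σb g) =
      τ.σk (D.chiBar hR hint 𝔭 h𝔭 g) := by
  obtain ⟨f, rfl⟩ := D.res_surj g
  rw [← τ.res_comp, D.chiBar_res, D.chiBar_res, ← τ.π_comp]
  congr 1
  exact Subtype.ext (τ.ev_map hR 𝔭 f)

/-- **Equivariance of the reduction of points**: `redPrime (σ 𝔭) = σb (redPrime 𝔭)`. -/
theorem redPrime_map (𝔭 : HeightOneSpectrum R) (h𝔭 : D.IsIntegralPt hR 𝔭) :
    D.redPrime hR hint (τ.mapPrime 𝔭) ((τ.isIntegralPt_map hR 𝔭).mpr h𝔭) =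
      HeightOneSpectrum.equivOfRingEquiv τ.σb (D.redPrime hR hint 𝔭 h𝔭) := by
  apply HeightOneSpectrum.ext
  ext g
  rw [D.mem_redPrime_iff]
  show _ ↔ τ.σb.symm g ∈ (D.redPrime hR hint 𝔭 h𝔭).asIdeal
  rw [D.mem_redPrime_iff]
  have h := τ.chiBar_map hR hint 𝔭 h𝔭 (τ.σb.symm g)
  rw [RingEquiv.apply_symm_apply] at h
  rw [h]
  exact map_eq_zero_iff _ τ.σk.injective

/-- The fibres of the reduction are permuted: `σ 𝔭 ∈ fibre (σb 𝔮) ↔ 𝔭 ∈ fibre 𝔮`. -/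
theorem mem_fibre_map (𝔮 : HeightOneSpectrum Rb) (𝔭 : HeightOneSpectrum R) :
    τ.mapPrime 𝔭 ∈ D.fibre hR hint (HeightOneSpectrum.equivOfRingEquiv τ.σb 𝔮) ↔
      𝔭 ∈ D.fibre hR hint 𝔮 := by
  constructor
  · rintro ⟨h, hq⟩
    have h𝔭 := (τ.isIntegralPt_map hR 𝔭).mp h
    refine ⟨h𝔭, ?_⟩
    have := τ.redPrime_map hR hint 𝔭 h𝔭
    rw [hq] at this
    exact ((HeightOneSpectrum.equivOfRingEquiv τ.σb).injective this).symm
  · rintro ⟨h𝔭, hq⟩
    refine ⟨(τ.isIntegralPt_map hR 𝔭).mpr h𝔭, ?_⟩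
    rw [τ.redPrime_map hR hint 𝔭 h𝔭, hq]

/-- orders of functions are preserved: `ord_{σ𝔭} (σ u) = ord_𝔭 u`. -/
theorem multiplicity_map (𝔭 : HeightOneSpectrum R) (u : R) :
    multiplicity (τ.mapPrime 𝔭).asIdeal (Ideal.span {τ.σ u}) =
      multiplicity 𝔭.asIdeal (Ideal.span {u}) := by
  have hI : ∀ I : Ideal R, Ideal.map (τ.σ : R →+* R) I = Ideal.comap (τ.σ.symm : R →+* R) I :=
    fun I => Ideal.map_comap_of_equiv (τ.σ)
  have h1 : (τ.mapPrime 𝔭).asIdeal = Ideal.map (τ.σ : R →+* R) 𝔭.asIdeal := by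
    rw [hI]; rfl
  have h2 : (Ideal.span {τ.σ u} : Ideal R) = Ideal.map (τ.σ : R →+* R) (Ideal.span {u}) := by
    rw [Ideal.map_span, Set.image_singleton]; rfl
  rw [h1, h2]
  have hdvd : ∀ n : ℕ, Ideal.map (τ.σ : R →+* R) 𝔭.asIdeal ^ n ∣
      Ideal.map (τ.σ : R →+* R) (Ideal.span {u}) ↔ 𝔭.asIdeal ^ n ∣ Ideal.span {u} := by
    intro n
    rw [← Ideal.map_pow, Ideal.dvd_iff_le, Ideal.dvd_iff_le, hI, hI]
    constructor
    · intro h x hx
      have := h (show τ.σ x ∈ Ideal.comap (τ.σ.symm : R →+* R) (Ideal.span {u}) by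
        rw [Ideal.mem_comap]; simpa using hx)
      rw [Ideal.mem_comap] at this
      simpa using this
    · intro h x hx
      rw [Ideal.mem_comap] at hx ⊢
      exact h hx
  exact multiplicity_eq_of_emultiplicity_eq (emultiplicity_eq_emultiplicity_iff.mpr hdvd)

end ModelAut

end Fermat.Agent.Gateway.Red
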