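import Fermat.Agent.Gateway.Red.GoodFacts
import Fermat.Agent.Gateway.GoodRed.Instantiate.GenusFinal
import Fermat.Agent.Gateway.GoodRed.Instantiate.IntegralRed

/-!
# P-GATEWAY (c): the level facts (G2) + (G3) at all good levels, proved

`Red.GoodFacts` from `GoodRed/Instantiate/GenusFinal.lean` ((G2), the genus inequality) and
`GoodRed/Instantiate/IntegralRed.lean` ((G3), reduction of integrality).
-/

set_option autoImplicit false
set_option linter.unusedSectionVars false
set_option linter.style.haveILetI false
set_option synthInstance.maxHeartbeats 400000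

noncomputable section

namespace Fermat.Agent.Gateway.Red

open ModularCurve IntermediateField AlgebraicCurve
open Fermat.Agent.Gateway.GoodRed

/-- **the level facts (G2) + (G3) at all good levels.** -/
theorem goodFacts : GoodFacts := by
  intro M _ ℓ _ hℓM hg A _ _ _
  refine ⟨?_, ?_, ?_⟩
  · rcases hg with ⟨-, h4⟩ | ⟨-, h9⟩
    · exact genusFF_le_of_four_dvd ℓ A (IsLocalRing.residue A) IsLocalRing.residue_surjective
        hℓM h4
    · exact genusFF_le_of_nine_dvd ℓ A (IsLocalRing.residue A) IsLocalRing.residue_surjective
        hℓM h9
  · exact IntegralRed.isIntegral_resFk_of_isIntegral_j A (IsLocalRing.residue A) M ℓ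
      IsLocalRing.residue_surjective hℓM
  · exact IntegralRed.isIntegral_resFk_of_isIntegral_jinv A (IsLocalRing.residue A) M ℓ
      IsLocalRing.residue_surjective hℓM

end Fermat.Agent.Gateway.Red
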