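import Mathlib

/-!
# RED-C1: the lattice lemma over a valuation ring

`A` a valuation subring of a field `K` (not necessarily discrete), `V` a `K`-vector space,
`M ≤ V` a finitely generated `A`-submodule.  Then `M` is free over `A` on a `K`-linearly
independent family (`exists_basis_of_fg`); if `M` spans `V` the family is a `K`-basis of `V`
(`exists_basis_of_fg_of_span`); and `M / m_A M` has dimension `n` over the residue field, in the
flexible form `finrank_of_reduction`: any semilinear surjection `ρ : M → W` onto a vector space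
over the residue field whose kernel is contained in `m_A M` has `dim W = n`.
-/

set_option autoImplicit false

noncomputable section

namespace Fermat.Agent.Gateway.Red

open Module

section lattice

variable {K : Type*} [Field K] (A : ValuationSubring K) {V : Type*} [AddCommGroup V] [Module K V]

/-- A linear relation over `K` can be normalised: one coefficient is `1`, the others are in `A`. -/
theorem exists_normalised_relation {n : ℕ} (g : Fin n → K) (hg : ∃ i, g i ≠ 0) :
    ∃ j, g j ≠ 0 ∧ ∀ i, g i / g j ∈ A := by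
  obtain ⟨j, -, hj⟩ := Finset.exists_max_image (Finset.univ : Finset (Fin n))
    (fun i => A.valuation (g i)) (by
      obtain ⟨i, -⟩ := hg
      exact ⟨i, Finset.mem_univ i⟩)
  obtain ⟨i0, hi0⟩ := hg
  have hj0 : g j ≠ 0 := by
    intro h
    have h1 := hj i0 (Finset.mem_univ _)
    rw [h, map_zero] at h1
    exact hi0 ((A.valuation.zero_iff).mp (le_antisymm h1 zero_le))
  refine ⟨j, hj0, fun i => ?_⟩
  rw [← A.valuation_le_one_iff, map_div₀]
  have h1 := hj i (Finset.mem_univ _)
  have h2 : A.valuation (g j) ≠ 0 := (A.valuation.ne_zero_iff).mpr hj0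
  exact div_le_one_of_le₀ h1 zero_le

/-- **Lattice lemma**: a finitely generated `A`-submodule of a `K`-vector space is spanned over `A`
by a `K`-linearly independent family. -/
theorem exists_basis_of_fg (M : Submodule A V) (hM : M.FG) :
    ∃ (n : ℕ) (b : Fin n → V), (∀ i, b i ∈ M) ∧ LinearIndependent K b ∧
      Submodule.span A (Set.range b) = M := by
  classical
  -- a generating family of minimal length
  have hex : ∃ n : ℕ, ∃ b : Fin n → V, Submodule.span A (Set.range b) = M := by
    obtain ⟨s, hs⟩ := hM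
    refine ⟨s.card, fun i => (s.equivFin.symm i : V), ?_⟩
    rw [← hs]
    congr 1
    ext x
    constructor
    · rintro ⟨i, rfl⟩
      exact (s.equivFin.symm i).2
    · intro hx
      exact ⟨s.equivFin ⟨x, hx⟩, by simp⟩
  obtain ⟨n, ⟨b, hb⟩, hmin⟩ : ∃ n : ℕ, (∃ b : Fin n → V, Submodule.span A (Set.range b) = M) ∧
      ∀ m : ℕ, m < n → ¬ ∃ c : Fin m → V, Submodule.span A (Set.range c) = M :=
    ⟨Nat.find hex, Nat.find_spec hex, fun m hm => Nat.find_min hex hm⟩
  have hbM : ∀ i, b i ∈ M := fun i => by
    rw [← hb]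
    exact Submodule.subset_span ⟨i, rfl⟩
  refine ⟨n, b, hbM, ?_, hb⟩
  by_contra hli
  rw [Fintype.not_linearIndependent_iff] at hli
  obtain ⟨g, hsum, hg⟩ := hli
  obtain ⟨j, hj0, hjA⟩ := exists_normalised_relation A g hg
  -- `n = m + 1`
  obtain ⟨m, hm⟩ : ∃ m, n = m + 1 := ⟨n - 1, by have := j.pos; omega⟩
  subst hm
  apply hmin m (Nat.lt_succ_self m)
  refine ⟨fun i => b (j.succAbove i), ?_⟩
  -- `b j` is an `A`-combination of the others
  have hbj : b j = ∑ i : Fin m, (-(g (j.succAbove i) / g j)) • b (j.succAbove i) := by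
    rw [Fin.sum_univ_succAbove _ j] at hsum
    have h1 : g j • b j = -∑ i : Fin m, g (j.succAbove i) • b (j.succAbove i) :=
      eq_neg_of_add_eq_zero_left hsum
    have h2 : b j = (g j)⁻¹ • (g j • b j) := by
      rw [smul_smul, inv_mul_cancel₀ hj0, one_smul]
    rw [h2, h1, smul_neg, Finset.smul_sum, ← Finset.sum_neg_distrib]
    refine Finset.sum_congr rfl fun i _ => ?_
    rw [smul_smul, neg_smul]
    congr 2
    field_simp
  have hbj' : b j ∈ Submodule.span A (Set.range fun i => b (j.succAbove i)) := by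
    rw [hbj]
    refine Submodule.sum_mem _ fun i _ => ?_
    have hA : -(g (j.succAbove i) / g j) ∈ A := A.neg_mem _ (hjA _)
    have : (-(g (j.succAbove i) / g j)) • b (j.succAbove i) =
        (⟨-(g (j.succAbove i) / g j), hA⟩ : A) • b (j.succAbove i) := rfl
    rw [this]
    exact Submodule.smul_mem _ _ (Submodule.subset_span ⟨i, rfl⟩)
  apply le_antisymm
  · rw [Submodule.span_le]
    rintro _ ⟨i, rfl⟩
    exact hbM _
  · rw [← hb, Submodule.span_le]
    rintro _ ⟨i, rfl⟩
    rcases Fin.eq_self_or_eq_succAbove j i with h | ⟨i', h⟩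
    · rw [h]
      exact hbj'
    · rw [h]
      exact Submodule.subset_span ⟨i', rfl⟩

/-- If moreover `M` spans `V` over `K`, the family is a `K`-basis: `n = dim_K V`. -/
theorem exists_basis_of_fg_of_span (M : Submodule A V) (hM : M.FG)
    (hspan : Submodule.span K (M : Set V) = ⊤) :
    ∃ (n : ℕ) (b : Fin n → V), (∀ i, b i ∈ M) ∧ LinearIndependent K b ∧
      Submodule.span A (Set.range b) = M ∧ Submodule.span K (Set.range b) = ⊤ ∧
      Module.Finite K V ∧ finrank K V = n := by
  obtain ⟨n, b, hbM, hli, hb⟩ := exists_basis_of_fg A M hM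
  have htop : Submodule.span K (Set.range b) = ⊤ := by
    rw [eq_top_iff, ← hspan, Submodule.span_le]
    intro x hx
    rw [← hb] at hx
    -- an `A`-combination is a `K`-combination
    refine Submodule.span_induction (p := fun x _ => x ∈ Submodule.span K (Set.range b))
      (fun y hy => Submodule.subset_span hy) (Submodule.zero_mem _)
      (fun y z _ _ hy hz => Submodule.add_mem _ hy hz) (fun a y _ hy => ?_) hx
    have : a • y = (a : K) • y := rfl
    rw [this]
    exact Submodule.smul_mem _ _ hy
  set B : Basis (Fin n) K V := Basis.mk hli (by rw [htop]) with hB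
  refine ⟨n, b, hbM, hli, hb, htop, Module.Finite.of_basis B, ?_⟩
  rw [finrank_eq_card_basis B, Fintype.card_fin]

end lattice

section reduction

variable {K : Type*} [Field K] (A : ValuationSubring K) {V : Type*} [AddCommGroup V] [Module K V]
  {k : Type*} [Field k] (π : A →+* k)

/-- elements of `m_A M` are combinations of the generators with coefficients in `m_A` -/
theorem exists_coeff_of_mem_smul {M : Submodule A V} {n : ℕ} {b : Fin n → V}
    (hb : Submodule.span A (Set.range b) = M) {x : V}
    (hx : x ∈ IsLocalRing.maximalIdeal A • M) :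
    ∃ a : Fin n → A, (∀ i, a i ∈ IsLocalRing.maximalIdeal A) ∧ x = ∑ i, a i • b i := by
  refine Submodule.smul_induction_on hx ?_ ?_
  · intro r hr m hm
    rw [← hb] at hm
    obtain ⟨c, rfl⟩ := (Submodule.mem_span_range_iff_exists_fun A).mp hm
    refine ⟨fun i => r * c i, fun i => Ideal.mul_mem_right _ _ hr, ?_⟩
    rw [Finset.smul_sum]
    exact Finset.sum_congr rfl fun i _ => by rw [smul_smul]
  · rintro x y ⟨a, ha, rfl⟩ ⟨a', ha', rfl⟩
    refine ⟨fun i => a i + a' i, fun i => Ideal.add_mem _ (ha i) (ha' i), ?_⟩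
    rw [← Finset.sum_add_distrib]
    exact Finset.sum_congr rfl fun i _ => by rw [add_smul]

/-- **Lattice lemma, reduction form**: `M = ⊕ A b_i` with `b` linearly independent over `K`;
`ρ : M → W` a `π`-semilinear surjection onto a `k`-vector space with kernel inside `m_A M`
(`π : A → k` the residue map).  Then `dim_k W = n`. -/
theorem finrank_of_reduction (hπ : Function.Surjective π)
    (hker : ∀ a : A, π a = 0 ↔ a ∈ IsLocalRing.maximalIdeal A)
    {M : Submodule A V} {n : ℕ} {b : Fin n → V} (hbM : ∀ i, b i ∈ M)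
    (hli : LinearIndependent K b) (hb : Submodule.span A (Set.range b) = M)
    {W : Type*} [AddCommGroup W] [Module k W] (ρ : ↥M →+ W)
    (hρ : ∀ (a : A) (m : ↥M), ρ (a • m) = π a • ρ m) (hsurj : Function.Surjective ρ)
    (hρker : ∀ m : ↥M, ρ m = 0 → (m : V) ∈ IsLocalRing.maximalIdeal A • M) :
    Module.Finite k W ∧ finrank k W = n := by
  classical
  set w : Fin n → W := fun i => ρ ⟨b i, hbM i⟩ with hw
  have hρsum : ∀ a : Fin n → A, ∀ hmem : (∑ i, a i • b i) ∈ M,
      ρ ⟨∑ i, a i • b i, hmem⟩ = ∑ i, π (a i) • w i := by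
    intro a hmem
    have h1 : (⟨∑ i, a i • b i, hmem⟩ : ↥M) = ∑ i, a i • (⟨b i, hbM i⟩ : ↥M) := by
      apply Subtype.ext
      rw [Submodule.coe_sum]
      rfl
    rw [h1, map_sum]
    exact Finset.sum_congr rfl fun i _ => hρ _ _
  have hwli : LinearIndependent k w := by
    rw [Fintype.linearIndependent_iff]
    intro c hc i
    choose a ha using fun i => hπ (c i)
    have hmem : (∑ i, a i • b i) ∈ M :=
      Submodule.sum_mem _ fun i _ => Submodule.smul_mem _ _ (hbM i)
    have h0 : ρ ⟨∑ i, a i • b i, hmem⟩ = 0 := by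
      rw [hρsum a hmem, ← hc]
      exact Finset.sum_congr rfl fun i _ => by rw [ha]
    obtain ⟨a', ha', he⟩ := exists_coeff_of_mem_smul A hb (hρker _ h0)
    have h2 : ∑ i, ((a i : K) - (a' i : K)) • b i = 0 := by
      have h3 : (∑ i, a i • b i : V) = ∑ i, a' i • b i := he
      have h4 : ∀ (c : Fin n → A), (∑ i, c i • b i : V) = ∑ i, (c i : K) • b i := fun _ => rfl
      rw [h4, h4] at h3
      simp only [sub_smul, Finset.sum_sub_distrib]
      rw [h3, sub_self]
    have h5 := (Fintype.linearIndependent_iff.mp hli) _ h2 i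
    have h6 : a i = a' i := Subtype.ext (sub_eq_zero.mp h5)
    rw [← ha i, hker, h6]
    exact ha' i
  have hwspan : ⊤ ≤ Submodule.span k (Set.range w) := by
    intro x _
    obtain ⟨m, rfl⟩ := hsurj x
    have hm : (m : V) ∈ Submodule.span A (Set.range b) := hb.symm ▸ m.2
    obtain ⟨c, hc⟩ := (Submodule.mem_span_range_iff_exists_fun A).mp hm
    have hmem : (∑ i, c i • b i) ∈ M := hc ▸ m.2
    have h1 : m = ⟨∑ i, c i • b i, hmem⟩ := Subtype.ext hc.symm
    rw [h1, hρsum c hmem]
    exact Submodule.sum_mem _ fun i _ =>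
      Submodule.smul_mem _ _ (Submodule.subset_span ⟨i, rfl⟩)
  set B : Basis (Fin n) k W := Basis.mk hwli hwspan with hB
  refine ⟨Module.Finite.of_basis B, ?_⟩
  rw [finrank_eq_card_basis B, Fintype.card_fin]

/-- **(C1)**: `M ≤ V` finitely generated over `A`, spanning the finite dimensional `K`-space `V`;
`ρ : M → W` a `π`-semilinear surjection onto a `k`-vector space with kernel inside `m_A M`.
Then `dim_k W = dim_K V`. -/
theorem finrank_eq_finrank_of_reduction (hπ : Function.Surjective π)
    (hker : ∀ a : A, π a = 0 ↔ a ∈ IsLocalRing.maximalIdeal A)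
    (M : Submodule A V) (hM : M.FG) (hspan : Submodule.span K (M : Set V) = ⊤)
    {W : Type*} [AddCommGroup W] [Module k W] (ρ : ↥M →+ W)
    (hρ : ∀ (a : A) (m : ↥M), ρ (a • m) = π a • ρ m) (hsurj : Function.Surjective ρ)
    (hρker : ∀ m : ↥M, ρ m = 0 → (m : V) ∈ IsLocalRing.maximalIdeal A • M) :
    Module.Finite K V ∧ Module.Finite k W ∧ finrank k W = finrank K V := by
  obtain ⟨n, b, hbM, hli, hb, -, hfin, hrank⟩ := exists_basis_of_fg_of_span A M hM hspan
  obtain ⟨h1, h2⟩ := finrank_of_reduction A π hπ hker hbM hli hb ρ hρ hsurj hρker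
  exact ⟨hfin, h1, h2.trans hrank.symm⟩

end reduction

end Fermat.Agent.Gateway.Red
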