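/-
helper64 (P-GATEWAY (c), RED block, RED-G modular instantiation): the Prelude's
`ReductionInputsAlong A π N` for the modular curve from the filtered chart property of `j` for the
modular reduction base (`Red/ModularBase.lean`), by the two-chart glue of `Red/Glue.lean` and the
translation of `Red/ReductionInputs.lean`.
-/
import Fermat.Agent.Gateway.Red.Glue
import Fermat.Agent.Gateway.Red.ReductionInputs

set_option autoImplicit false
set_option linter.unusedSectionVars false

noncomputable section

namespace Fermat.Agent.Gateway.Red

open ModularCurve IntermediateField AlgebraicCurve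
open Fermat.Agent.Gateway.GoodRed

section ModularGlue

set_option synthInstance.maxHeartbeats 400000

variable {L : Type} [Field L] [Algebra ℚ L] [IsAlgClosed L] (A : ValuationSubring L)
  {k : Type} [Field k] (π : A →+* k) [IsAlgClosed k] (ℓ : ℕ) [Fact ℓ.Prime] [CharP k ℓ]
  (N : ℕ) [NeZero N] (hπ : Function.Surjective π) (hℓN : ¬ ℓ ∣ N)
  (h : (modularRedBase A π ℓ N hπ hℓN).IsFilteredChart (HK1.jL L N))

/-- **the reduction of places of the modular curve** `X_0(N)` (full level structure model) along
`π : A → k`, glued from the charts `j` and `1 / j` -/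
def modularGlueRed : Place L (FBar L N) → Place k (modularFunctionFieldFullC k N) :=
  have := finiteDimensional_jL (L := L) N
  have := isSeparable_jL (L := L) N
  have := finiteDimensional_res_jL A π ℓ N hπ hℓN
  have := isSeparable_res_jL A π ℓ N hπ hℓN
  Glue.glueRed (modularRedBase A π ℓ N hπ hℓN) (HK1.jL L N) h.isChart h.isChart_inv
    (HK1.transcendental_jL L N) (transcendental_res_jL A π ℓ N hπ hℓN)

/-- the count theorem for the glued reduction of places of the modular curve -/
theorem modularGlueRed_count (u : (modularRedBase A π ℓ N hπ hℓN).O)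
    (hu : (modularRedBase A π ℓ N hπ hℓN).res u ≠ 0) (D : Divisor L (FBar L N))
    (hD : ∀ P, D P = P.ord (u : FBar L N)) (Q : Place k (modularFunctionFieldFullC k N)) :
    Finsupp.mapDomain (modularGlueRed A π ℓ N hπ hℓN h) D Q =
      Q.ord ((modularRedBase A π ℓ N hπ hℓN).res u) := by
  have := finiteDimensional_jL (L := L) N
  have := isSeparable_jL (L := L) N
  have := finiteDimensional_res_jL A π ℓ N hπ hℓN
  have := isSeparable_res_jL A π ℓ N hπ hℓN
  exact Glue.glue_count (modularRedBase A π ℓ N hπ hℓN) (HK1.jL L N) h.isChart h.isChart_inv
    (HK1.transcendental_jL L N) (transcendental_res_jL A π ℓ N hπ hℓN) u hu D hD Q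

/-- the glued reduction of places of the modular curve is surjective -/
theorem modularGlueRed_surjective : Function.Surjective (modularGlueRed A π ℓ N hπ hℓN h) := by
  have := finiteDimensional_jL (L := L) N
  have := isSeparable_jL (L := L) N
  have := finiteDimensional_res_jL A π ℓ N hπ hℓN
  have := isSeparable_res_jL A π ℓ N hπ hℓN
  exact Glue.glueRed_surjective (modularRedBase A π ℓ N hπ hℓN) (HK1.jL L N) h.isChart
    h.isChart_inv (HK1.transcendental_jL L N) (transcendental_res_jL A π ℓ N hπ hℓN)

include h in
/-- **`ReductionInputsAlong`** for the modular curve from the filtered chart property of `j` -/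
theorem reductionInputsAlong_of_isFilteredChart : ReductionInputsAlong A π N :=
  reductionInputsAlong_of_count A π ℓ N hπ hℓN (modularGlueRed A π ℓ N hπ hℓN h)
    (modularGlueRed_count A π ℓ N hπ hℓN h)

end ModularGlue

end Fermat.Agent.Gateway.Red
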